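import Mathlib.NumberTheory.ModularForms.NormTrace
import Mathlib.NumberTheory.ModularForms.CongruenceSubgroups
import Mathlib.NumberTheory.ModularForms.BoundedAtCusp

/-!
# A bounded `Γ₀(N)`-invariant holomorphic function on `ℍ` is constant (P-HECKEFIN, HF-X2)
-/

set_option autoImplicit false

namespace Fermat.Agent.H73

open UpperHalfPlane CongruenceSubgroup Matrix.SpecialLinearGroup
open scoped MatrixGroups ModularForm Manifold

theorem const_of_invariant_of_bounded (N : ℕ) [NeZero N] (H : ℍ → ℂ) (hH : MDiff H)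
    (hinv : ∀ γ ∈ Gamma0 N, ∀ τ : ℍ, H (γ • τ) = H τ)
    (hbdd : ∀ γ : SL(2, ℤ), IsBoundedAtImInfty (fun τ : ℍ => H (γ • τ))) :
    ∃ c : ℂ, ∀ τ, H τ = c := by
  have hslash : ∀ γ : SL(2, ℤ), H ∣[(0 : ℤ)] γ = fun τ => H (γ • τ) := by
    intro γ
    ext τ
    rw [ModularForm.SL_slash_apply]
    simp
  let F : ModularForm (Gamma0 N) 0 :=
    { toFun := H
      slash_action_eq' := by
        intro γ hγ
        obtain ⟨γ', hγ', rfl⟩ := Subgroup.mem_map.mp hγ
        have h1 : H ∣[(0 : ℤ)] (mapGL ℝ γ') = H ∣[(0 : ℤ)] γ' := rfl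
        rw [h1, hslash γ']
        funext τ
        exact hinv γ' hγ' τ
      holo' := hH
      bdd_at_cusps' := by
        intro c hc
        rw [Subgroup.IsArithmetic.isCusp_iff_isCusp_SL2Z] at hc
        rw [OnePoint.isBoundedAt_iff_forall_SL2Z hc]
        intro γ _
        show IsBoundedAtImInfty (H ∣[(0 : ℤ)] γ)
        rw [hslash]
        exact hbdd γ }
  obtain ⟨c, hc⟩ := ModularForm.eq_const_of_weight_zero F
  exact ⟨c, fun τ => congrFun hc τ⟩

end Fermat.Agent.H73
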