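import Mathlib.Data.ZMod.Units
import Mathlib.Data.Nat.Totient
import Mathlib.RingTheory.Coprime.Lemmas
import Mathlib.Data.Int.GCD
import Mathlib.Tactic

/-!
# Arithmetic behind the count of cusps of `Γ₀(N)`

Pure integer / `ZMod` arithmetic; no matrices here.
-/

set_option autoImplicit false

namespace Fermat.Agent.H73

/-- Solvability of a linear congruence: `m ∣ e + k * (d * u)` has a solution `k` as soon as
`gcd d m ∣ e` and `u` is prime to `m`. -/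
theorem exists_int_dvd_add_mul (m d : ℕ) (u e : ℤ) (hu : IsCoprime u (m : ℤ))
    (he : ((Nat.gcd d m : ℕ) : ℤ) ∣ e) : ∃ k : ℤ, (m : ℤ) ∣ e + k * ((d : ℤ) * u) := by
  obtain ⟨e', rfl⟩ := he
  have hb : ((Nat.gcd d m : ℕ) : ℤ) = (d : ℤ) * Nat.gcdA d m + (m : ℤ) * Nat.gcdB d m :=
    Nat.gcd_eq_gcd_ab d m
  obtain ⟨x, y, hxy⟩ := hu
  refine ⟨-(Nat.gcdA d m * e' * x), ?_⟩
  refine ⟨Nat.gcdB d m * e' + (d : ℤ) * Nat.gcdA d m * e' * y, ?_⟩
  rw [hb]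
  have : (d : ℤ) * Nat.gcdA d m * e' = (d : ℤ) * Nat.gcdA d m * e' * (x * u + y * m) := by
    rw [hxy, mul_one]
  linear_combination this

/-- The "denominator class" of a column `(a; c)`: `gcd (c, N)`. -/
def cuspD (N : ℕ) (c : ℤ) : ℕ := Nat.gcd c.natAbs N

/-- The modulus in which the second invariant lives. -/
def cuspG (N d : ℕ) : ℕ := Nat.gcd d (N / d)

/-- The second invariant `a * (c / d)⁻¹ mod gcd (d, N / d)`, as a natural number. -/
noncomputable def cuspR (N d : ℕ) (a c : ℤ) : ℕ :=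
  (((a : ℤ) : ZMod (cuspG N d)) * (((c / (d : ℤ) : ℤ)) : ZMod (cuspG N d))⁻¹).val

theorem cuspD_dvd (N : ℕ) (c : ℤ) : cuspD N c ∣ N := Nat.gcd_dvd_right _ _

theorem cuspD_dvd_int (N : ℕ) (c : ℤ) : ((cuspD N c : ℕ) : ℤ) ∣ c := by
  rw [Int.natCast_dvd]
  exact Nat.gcd_dvd_left _ _

theorem cuspD_pos {N : ℕ} (hN : N ≠ 0) (c : ℤ) : 0 < cuspD N c :=
  Nat.gcd_pos_of_pos_right _ (Nat.pos_of_ne_zero hN)

theorem cuspG_pos {N d : ℕ} (hd : 0 < d) : 0 < cuspG N d :=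
  Nat.gcd_pos_of_pos_left _ hd

theorem cuspG_dvd_left (N d : ℕ) : cuspG N d ∣ d := Nat.gcd_dvd_left _ _

theorem cuspG_dvd_right (N d : ℕ) : cuspG N d ∣ N / d := Nat.gcd_dvd_right _ _

/-- `c / gcd (c, N)` is prime to `N / gcd (c, N)`. -/
theorem isCoprime_div_cuspD {N : ℕ} (hN : N ≠ 0) (c : ℤ) :
    IsCoprime (c / (cuspD N c : ℤ)) (((N / cuspD N c : ℕ)) : ℤ) := by
  have hpos := cuspD_pos hN c
  have h1 : Nat.Coprime (c.natAbs / cuspD N c) (N / cuspD N c) :=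
    Nat.coprime_div_gcd_div_gcd hpos
  have h2 : (c / (cuspD N c : ℤ)).natAbs = c.natAbs / cuspD N c := by
    rw [Int.natAbs_ediv_of_dvd (cuspD_dvd_int N c), Int.natAbs_natCast]
  rw [Int.isCoprime_iff_gcd_eq_one, Int.gcd, h2, Int.natAbs_natCast]
  exact h1

theorem isUnit_div_cuspD {N : ℕ} (hN : N ≠ 0) (c : ℤ) :
    IsUnit (((c / (cuspD N c : ℤ) : ℤ)) : ZMod (cuspG N (cuspD N c))) := by
  rw [ZMod.coe_int_isUnit_iff_isCoprime]
  have h := isCoprime_div_cuspD hN c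
  have hdvd : ((cuspG N (cuspD N c) : ℕ) : ℤ) ∣ ((N / cuspD N c : ℕ) : ℤ) :=
    Int.natCast_dvd_natCast.mpr (cuspG_dvd_right _ _)
  exact (h.symm.of_isCoprime_of_dvd_left hdvd)

theorem isUnit_of_isCoprime_cuspD {N : ℕ} {a c : ℤ} (h : IsCoprime a c) :
    IsUnit ((a : ℤ) : ZMod (cuspG N (cuspD N c))) := by
  rw [ZMod.coe_int_isUnit_iff_isCoprime]
  have hdvd : ((cuspG N (cuspD N c) : ℕ) : ℤ) ∣ c :=
    (Int.natCast_dvd_natCast.mpr (cuspG_dvd_left _ _)).trans (cuspD_dvd_int N c)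
  exact h.symm.of_isCoprime_of_dvd_left hdvd

theorem cuspD_dvd_of_rel {N : ℕ} {a c a' c' k : ℤ} (hac : IsCoprime a c)
    (hdiv : (N : ℤ) ∣ a * c' - a' * c + k * (c * c')) : cuspD N c ∣ cuspD N c' := by
  have hdN : ((cuspD N c : ℕ) : ℤ) ∣ (N : ℤ) := Int.natCast_dvd_natCast.mpr (cuspD_dvd N c)
  have hdc : ((cuspD N c : ℕ) : ℤ) ∣ c := cuspD_dvd_int N c
  have h3 : ((cuspD N c : ℕ) : ℤ) ∣ a * c' := by
    have h4 : ((cuspD N c : ℕ) : ℤ) ∣ a * c' - a' * c + k * (c * c') := hdN.trans hdiv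
    have h5 : ((cuspD N c : ℕ) : ℤ) ∣ a' * c - k * (c * c') :=
      Dvd.dvd.sub (Dvd.dvd.mul_left hdc _) (Dvd.dvd.mul_left (Dvd.dvd.mul_right hdc _) _)
    have := dvd_add h4 h5
    have e : a * c' - a' * c + k * (c * c') + (a' * c - k * (c * c')) = a * c' := by ring
    rwa [e] at this
  have hcop : IsCoprime ((cuspD N c : ℕ) : ℤ) a := (hac.symm.of_isCoprime_of_dvd_left hdc)
  have h6 : ((cuspD N c : ℕ) : ℤ) ∣ c' := hcop.dvd_of_dvd_mul_left h3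
  exact Nat.dvd_gcd (Int.natCast_dvd.mp h6) (cuspD_dvd N c)

theorem cuspD_eq_of_rel {N : ℕ} {a1 c1 a2 c2 : ℤ} (h1 : IsCoprime a1 c1)
    (h2 : IsCoprime a2 c2)
    (h : ∃ k : ℤ, (N : ℤ) ∣ a1 * c2 - a2 * c1 + k * (c1 * c2)) :
    cuspD N c1 = cuspD N c2 := by
  obtain ⟨k, hk⟩ := h
  refine Nat.dvd_antisymm (cuspD_dvd_of_rel h1 hk) (cuspD_dvd_of_rel (a' := a1) (k := -k) h2 ?_)
  have e : a2 * c1 - a1 * c2 + (-k) * (c2 * c1) = -(a1 * c2 - a2 * c1 + k * (c1 * c2)) := by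
    ring
  rw [e]
  exact (dvd_neg).mpr hk

/-- The key equivalence at a fixed denominator class `d`. -/
theorem cuspR_eq_iff_aux {N d : ℕ} (hN : N ≠ 0) {a1 c1 a2 c2 : ℤ}
    (hd1 : cuspD N c1 = d) (hd2 : cuspD N c2 = d) :
    cuspR N d a1 c1 = cuspR N d a2 c2 ↔
      ∃ k : ℤ, (N : ℤ) ∣ a1 * c2 - a2 * c1 + k * (c1 * c2) := by
  have hdpos : 0 < d := hd1 ▸ cuspD_pos hN c1
  have hgpos : 0 < cuspG N d := cuspG_pos hdpos
  have : NeZero (cuspG N d) := ⟨hgpos.ne'⟩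
  have hdN : d ∣ N := hd1 ▸ cuspD_dvd N c1
  -- write `c_i = d * c_i'`
  have hc1 : c1 = (d : ℤ) * (c1 / (d : ℤ)) :=
    (Int.mul_ediv_cancel' (hd1 ▸ cuspD_dvd_int N c1)).symm
  have hc2 : c2 = (d : ℤ) * (c2 / (d : ℤ)) :=
    (Int.mul_ediv_cancel' (hd2 ▸ cuspD_dvd_int N c2)).symm
  set c1' := c1 / (d : ℤ) with hc1'
  set c2' := c2 / (d : ℤ) with hc2'
  have hu1 : IsUnit ((c1' : ℤ) : ZMod (cuspG N d)) := by
    have := isUnit_div_cuspD hN c1
    rwa [hd1] at this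
  have hu2 : IsUnit ((c2' : ℤ) : ZMod (cuspG N d)) := by
    have := isUnit_div_cuspD hN c2
    rwa [hd2] at this
  have hcop1 : IsCoprime c1' ((N / d : ℕ) : ℤ) := by
    have := isCoprime_div_cuspD hN c1
    rwa [hd1] at this
  have hcop2 : IsCoprime c2' ((N / d : ℕ) : ℤ) := by
    have := isCoprime_div_cuspD hN c2
    rwa [hd2] at this
  have hNd : (N : ℤ) = (d : ℤ) * ((N / d : ℕ) : ℤ) := by
    rw [← Nat.cast_mul, Nat.mul_div_cancel' hdN]
  -- Step 1: equality of the invariants is a congruence mod `g`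
  have step1 : cuspR N d a1 c1 = cuspR N d a2 c2 ↔
      ((cuspG N d : ℕ) : ℤ) ∣ a1 * c2' - a2 * c1' := by
    unfold cuspR
    rw [(ZMod.val_injective (cuspG N d)).eq_iff]
    rw [← hc1', ← hc2']
    constructor
    · intro h
      have h' : ((a1 : ℤ) : ZMod (cuspG N d)) * (c2' : ℤ) = (a2 : ℤ) * (c1' : ℤ) := by
        have e1 : ((a1 : ℤ) : ZMod (cuspG N d)) * (c2' : ℤ) =
            ((a1 : ℤ) : ZMod (cuspG N d)) * ((c1' : ℤ) : ZMod (cuspG N d))⁻¹ *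
              ((c1' : ℤ) * (c2' : ℤ)) := by
          rw [mul_assoc, ← mul_assoc (((c1' : ℤ) : ZMod (cuspG N d))⁻¹),
            ZMod.inv_mul_of_unit _ hu1, one_mul]
        have e2 : ((a2 : ℤ) : ZMod (cuspG N d)) * (c1' : ℤ) =
            ((a2 : ℤ) : ZMod (cuspG N d)) * ((c2' : ℤ) : ZMod (cuspG N d))⁻¹ *
              ((c1' : ℤ) * (c2' : ℤ)) := by
          rw [mul_comm ((c1' : ℤ) : ZMod (cuspG N d)) (c2' : ℤ), mul_assoc,
            ← mul_assoc (((c2' : ℤ) : ZMod (cuspG N d))⁻¹),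
            ZMod.inv_mul_of_unit _ hu2, one_mul]
        rw [e1, e2, h]
      rw [← ZMod.intCast_zmod_eq_zero_iff_dvd]
      push_cast
      rw [h', sub_self]
    · intro h
      rw [← ZMod.intCast_zmod_eq_zero_iff_dvd] at h
      push_cast at h
      have h' : ((a1 : ℤ) : ZMod (cuspG N d)) * (c2' : ℤ) = (a2 : ℤ) * (c1' : ℤ) :=
        sub_eq_zero.mp h
      calc ((a1 : ℤ) : ZMod (cuspG N d)) * ((c1' : ℤ) : ZMod (cuspG N d))⁻¹
          = ((a1 : ℤ) : ZMod (cuspG N d)) * (c2' : ℤ) *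
              (((c1' : ℤ) : ZMod (cuspG N d))⁻¹ * ((c2' : ℤ) : ZMod (cuspG N d))⁻¹) := by
            rw [mul_assoc, mul_comm (((c1' : ℤ) : ZMod (cuspG N d))⁻¹),
              ← mul_assoc ((c2' : ℤ) : ZMod (cuspG N d)), ZMod.mul_inv_of_unit _ hu2, one_mul]
        _ = ((a2 : ℤ) : ZMod (cuspG N d)) * (c1' : ℤ) *
              (((c1' : ℤ) : ZMod (cuspG N d))⁻¹ * ((c2' : ℤ) : ZMod (cuspG N d))⁻¹) := by
            rw [h']
        _ = ((a2 : ℤ) : ZMod (cuspG N d)) * ((c2' : ℤ) : ZMod (cuspG N d))⁻¹ := by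
            rw [mul_assoc, ← mul_assoc ((c1' : ℤ) : ZMod (cuspG N d)),
              ZMod.mul_inv_of_unit _ hu1, one_mul]
  -- Step 2: the congruence mod `g` is solvability of the linear congruence mod `N / d`
  have step2 : ((cuspG N d : ℕ) : ℤ) ∣ a1 * c2' - a2 * c1' ↔
      ∃ k : ℤ, ((N / d : ℕ) : ℤ) ∣ (a1 * c2' - a2 * c1') + k * ((d : ℤ) * (c1' * c2')) := by
    constructor
    · intro h
      exact exists_int_dvd_add_mul (N / d) d (c1' * c2') _ (hcop1.mul_left hcop2) h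
    · rintro ⟨k, hk⟩
      have hg1 : ((cuspG N d : ℕ) : ℤ) ∣ ((N / d : ℕ) : ℤ) :=
        Int.natCast_dvd_natCast.mpr (cuspG_dvd_right N d)
      have hg2 : ((cuspG N d : ℕ) : ℤ) ∣ (d : ℤ) :=
        Int.natCast_dvd_natCast.mpr (cuspG_dvd_left N d)
      have h3 := hg1.trans hk
      have h4 : ((cuspG N d : ℕ) : ℤ) ∣ k * ((d : ℤ) * (c1' * c2')) :=
        Dvd.dvd.mul_left (Dvd.dvd.mul_right hg2 _) _
      exact (dvd_add_left h4).mp h3
  -- Step 3: multiply by `d`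
  have step3 : ∀ k : ℤ, (((N / d : ℕ) : ℤ) ∣ (a1 * c2' - a2 * c1') + k * ((d : ℤ) * (c1' * c2')) ↔
      (N : ℤ) ∣ a1 * c2 - a2 * c1 + k * (c1 * c2)) := by
    intro k
    have e : a1 * c2 - a2 * c1 + k * (c1 * c2) =
        (d : ℤ) * ((a1 * c2' - a2 * c1') + k * ((d : ℤ) * (c1' * c2'))) := by
      rw [hc1, hc2]; ring
    rw [e, hNd]
    exact (mul_dvd_mul_iff_left (by exact_mod_cast hdpos.ne')).symm
  rw [step1, step2]
  exact exists_congr step3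


/-- The complete invariant of a primitive column `(a; c)` modulo the equivalence generated by
scaling by units mod `N` and `a ↦ a + c`. -/
noncomputable def cuspInv (N : ℕ) (a c : ℤ) : (_ : ℕ) × ℕ :=
  ⟨cuspD N c, cuspR N (cuspD N c) a c⟩

/-- The finite set of values of `cuspInv`. -/
def cuspFinset (N : ℕ) : Finset ((_ : ℕ) × ℕ) :=
  N.divisors.sigma fun d => (Finset.range (cuspG N d)).filter fun r => (cuspG N d).Coprime r

theorem card_cuspFinset (N : ℕ) :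
    (cuspFinset N).card = ∑ d ∈ N.divisors, Nat.totient (Nat.gcd d (N / d)) := by
  unfold cuspFinset
  rw [Finset.card_sigma]
  rfl

theorem cuspInv_eq_iff {N : ℕ} (hN : N ≠ 0) {a1 c1 a2 c2 : ℤ} (h1 : IsCoprime a1 c1)
    (h2 : IsCoprime a2 c2) :
    cuspInv N a1 c1 = cuspInv N a2 c2 ↔
      ∃ k : ℤ, (N : ℤ) ∣ a1 * c2 - a2 * c1 + k * (c1 * c2) := by
  constructor
  · intro h
    unfold cuspInv at h
    rw [Sigma.mk.injEq] at h
    obtain ⟨hd, hr⟩ := h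
    have hr' : cuspR N (cuspD N c1) a1 c1 = cuspR N (cuspD N c2) a2 c2 := eq_of_heq hr
    rw [← hd] at hr'
    exact (cuspR_eq_iff_aux hN rfl hd.symm).mp hr'
  · intro h
    have hd := cuspD_eq_of_rel h1 h2 h
    unfold cuspInv
    have hr := (cuspR_eq_iff_aux hN rfl hd.symm).mpr h
    rw [Sigma.mk.injEq]
    refine ⟨hd, ?_⟩
    rw [← hd]
    exact heq_of_eq hr

theorem cuspInv_mem {N : ℕ} (hN : N ≠ 0) {a c : ℤ} (h : IsCoprime a c) :
    cuspInv N a c ∈ cuspFinset N := by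
  unfold cuspInv cuspFinset
  rw [Finset.mem_sigma]
  have hgpos : 0 < cuspG N (cuspD N c) := cuspG_pos (cuspD_pos hN c)
  have : NeZero (cuspG N (cuspD N c)) := ⟨hgpos.ne'⟩
  refine ⟨Nat.mem_divisors.mpr ⟨cuspD_dvd N c, hN⟩, ?_⟩
  rw [Finset.mem_filter, Finset.mem_range]
  refine ⟨ZMod.val_lt _, ?_⟩
  have hu : IsUnit (((a : ℤ) : ZMod (cuspG N (cuspD N c))) *
      (((c / (cuspD N c : ℤ) : ℤ)) : ZMod (cuspG N (cuspD N c)))⁻¹) := by
    refine (isUnit_of_isCoprime_cuspD h).mul ?_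
    exact IsUnit.of_mul_eq_one _ (ZMod.inv_mul_of_unit _ (isUnit_div_cuspD hN c))
  have := ZMod.val_coe_unit_coprime hu.unit
  rw [IsUnit.unit_spec] at this
  exact this.symm

theorem exists_cuspInv_eq {N : ℕ} (hN : N ≠ 0) {y : (_ : ℕ) × ℕ} (hy : y ∈ cuspFinset N) :
    ∃ a c : ℤ, IsCoprime a c ∧ cuspInv N a c = y := by
  obtain ⟨d, r⟩ := y
  unfold cuspFinset at hy
  rw [Finset.mem_sigma, Finset.mem_filter, Finset.mem_range] at hy
  obtain ⟨hd, hr, hcop⟩ := hy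
  have hdN : d ∣ N := Nat.dvd_of_mem_divisors hd
  have hdpos : 0 < d := Nat.pos_of_mem_divisors hd
  have : NeZero d := ⟨hdpos.ne'⟩
  have hgpos : 0 < cuspG N d := cuspG_pos hdpos
  have : NeZero (cuspG N d) := ⟨hgpos.ne'⟩
  obtain ⟨v, hv⟩ := ZMod.unitsMap_surjective (cuspG_dvd_left N d)
    (ZMod.unitOfCoprime r hcop.symm)
  have hv' : ((ZMod.cast (v : ZMod d) : ZMod (cuspG N d))) = (r : ZMod (cuspG N d)) := by
    have := congrArg (fun u : (ZMod (cuspG N d))ˣ => (u : ZMod (cuspG N d))) hv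
    simpa [ZMod.unitsMap, ZMod.castHom_apply] using this
  refine ⟨((v : ZMod d).val : ℤ), (d : ℤ), ?_, ?_⟩
  · rw [Nat.isCoprime_iff_coprime]
    exact ZMod.val_coe_unit_coprime v
  · have hD : cuspD N (d : ℤ) = d := by
      unfold cuspD
      rw [Int.natAbs_natCast]
      exact Nat.gcd_eq_left hdN
    unfold cuspInv
    rw [hD]
    congr 1
    unfold cuspR
    rw [Int.ediv_self (by exact_mod_cast hdpos.ne')]
    rw [Int.cast_one, ZMod.inv_one, mul_one, Int.cast_natCast, ZMod.natCast_val, hv']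
    exact ZMod.val_cast_of_lt hr


end Fermat.Agent.H73
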