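import Mathlib.NumberTheory.ModularForms.CongruenceSubgroups
import Mathlib.GroupTheory.GroupAction.Quotient
import Mathlib.SetTheory.Cardinal.Finite
import Fermat.Prelude.Def_ModularCurve_GenusNumerics
import Fermat.Agent.H73.CuspArith

/-!
# The number of cusps of `Γ₀(N)`

`⟨T⟩`-orbits on `SL(2, ℤ) ⧸ Γ₀(N)` are counted by `ModularCurve.cuspCount N`.
-/

set_option autoImplicit false

namespace Fermat.Agent.H73

open CongruenceSubgroup MatrixGroups Matrix.SpecialLinearGroup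

/-- The first column of a matrix in `SL(2, ℤ)` is primitive. -/
theorem isCoprime_col (g : SL(2, ℤ)) : IsCoprime (g 0 0) (g 1 0) := by
  have h := g.det_coe
  rw [Matrix.det_fin_two] at h
  exact ⟨g 1 1, -(g 0 1), by linear_combination h⟩

/-- Every primitive column is the first column of a matrix in `SL(2, ℤ)`. -/
theorem exists_SL2_col {a c : ℤ} (h : IsCoprime a c) :
    ∃ g : SL(2, ℤ), g 0 0 = a ∧ g 1 0 = c := by
  obtain ⟨u, v, huv⟩ := h
  refine ⟨⟨!![a, -v; c, u], ?_⟩, rfl, rfl⟩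
  rw [Matrix.det_fin_two_of]
  linear_combination huv

/-- The lower-left entry of `(T ^ k * g₁)⁻¹ * g₂`. -/
theorem T_zpow_mul_inv_mul_apply (k : ℤ) (g₁ g₂ : SL(2, ℤ)) :
    ((ModularGroup.T ^ k * g₁)⁻¹ * g₂) 1 0 =
      g₁ 0 0 * g₂ 1 0 - g₂ 0 0 * g₁ 1 0 + k * (g₁ 1 0 * g₂ 1 0) := by
  have e : (ModularGroup.T ^ k * g₁)⁻¹ * g₂ = g₁⁻¹ * (ModularGroup.T ^ (-k) * g₂) := by
    rw [mul_inv_rev, zpow_neg, mul_assoc]
  rw [e]
  have h1 : (g₁⁻¹ : SL(2, ℤ)).1 1 0 = - g₁.1 1 0 := by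
    rw [SL2_inv_expl]; rfl
  have h2 : (g₁⁻¹ : SL(2, ℤ)).1 1 1 = g₁.1 0 0 := by
    rw [SL2_inv_expl]; rfl
  have h3 : (ModularGroup.T ^ (-k) * g₂).1 0 0 = g₂.1 0 0 + (-k) * g₂.1 1 0 := by
    rw [coe_mul, ModularGroup.coe_T_zpow, Matrix.mul_apply, Fin.sum_univ_two]
    simp
  have h4 : (ModularGroup.T ^ (-k) * g₂).1 1 0 = g₂.1 1 0 := by
    rw [coe_mul, ModularGroup.coe_T_zpow, Matrix.mul_apply, Fin.sum_univ_two]
    simp
  show (g₁⁻¹ * (ModularGroup.T ^ (-k) * g₂)).1 1 0 = _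
  rw [coe_mul, Matrix.mul_apply, Fin.sum_univ_two, h1, h2, h3, h4]
  ring

/-- Two cosets are in the same `⟨T⟩`-orbit iff a linear congruence is solvable. -/
theorem mem_orbit_iff_exists_dvd (N : ℕ) (g₁ g₂ : SL(2, ℤ)) :
    ((g₂ : SL(2, ℤ) ⧸ Gamma0 N) ∈
        MulAction.orbit (Subgroup.zpowers ModularGroup.T) (g₁ : SL(2, ℤ) ⧸ Gamma0 N)) ↔
      ∃ k : ℤ, (N : ℤ) ∣ g₁ 0 0 * g₂ 1 0 - g₂ 0 0 * g₁ 1 0 + k * (g₁ 1 0 * g₂ 1 0) := by
  rw [MulAction.mem_orbit_iff]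
  constructor
  · rintro ⟨⟨z, hz⟩, h⟩
    obtain ⟨k, rfl⟩ := Subgroup.mem_zpowers_iff.mp hz
    refine ⟨k, ?_⟩
    have h' : ((ModularGroup.T ^ k * g₁ : SL(2, ℤ)) : SL(2, ℤ) ⧸ Gamma0 N) = g₂ := h
    rw [QuotientGroup.eq, Gamma0_mem, ZMod.intCast_zmod_eq_zero_iff_dvd,
      T_zpow_mul_inv_mul_apply] at h'
    exact h'
  · rintro ⟨k, hk⟩
    refine ⟨⟨ModularGroup.T ^ k, Subgroup.zpow_mem_zpowers _ k⟩, ?_⟩
    show ((ModularGroup.T ^ k * g₁ : SL(2, ℤ)) : SL(2, ℤ) ⧸ Gamma0 N) = g₂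
    rw [QuotientGroup.eq, Gamma0_mem, ZMod.intCast_zmod_eq_zero_iff_dvd,
      T_zpow_mul_inv_mul_apply]
    exact hk

/-- The invariant of a matrix: the invariant of its first column. -/
noncomputable def cuspInvSL (N : ℕ) (g : SL(2, ℤ)) : (_ : ℕ) × ℕ :=
  cuspInv N (g 0 0) (g 1 0)

theorem cuspInvSL_eq_iff {N : ℕ} (hN : N ≠ 0) (g₁ g₂ : SL(2, ℤ)) :
    cuspInvSL N g₁ = cuspInvSL N g₂ ↔
      (g₂ : SL(2, ℤ) ⧸ Gamma0 N) ∈
        MulAction.orbit (Subgroup.zpowers ModularGroup.T) (g₁ : SL(2, ℤ) ⧸ Gamma0 N) := by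
  rw [mem_orbit_iff_exists_dvd]
  exact cuspInv_eq_iff hN (isCoprime_col g₁) (isCoprime_col g₂)

/-- The invariant descends to the coset space. -/
noncomputable def cuspInvCoset (N : ℕ) (hN : N ≠ 0) : SL(2, ℤ) ⧸ Gamma0 N → (_ : ℕ) × ℕ :=
  Quotient.lift (cuspInvSL N) (by
    intro g₁ g₂ h
    rw [cuspInvSL_eq_iff hN]
    have h' : (g₁ : SL(2, ℤ) ⧸ Gamma0 N) = g₂ := Quotient.sound h
    rw [h']
    exact MulAction.mem_orbit_self _)

theorem cuspInvCoset_mk (N : ℕ) (hN : N ≠ 0) (g : SL(2, ℤ)) :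
    cuspInvCoset N hN (g : SL(2, ℤ) ⧸ Gamma0 N) = cuspInvSL N g := rfl

theorem cuspInvCoset_eq_iff {N : ℕ} (hN : N ≠ 0) (x y : SL(2, ℤ) ⧸ Gamma0 N) :
    cuspInvCoset N hN x = cuspInvCoset N hN y ↔
      MulAction.orbitRel (Subgroup.zpowers ModularGroup.T) (SL(2, ℤ) ⧸ Gamma0 N) x y := by
  induction x using QuotientGroup.induction_on with
  | H g₁ =>
    induction y using QuotientGroup.induction_on with
    | H g₂ =>
      rw [cuspInvCoset_mk, cuspInvCoset_mk, MulAction.orbitRel_apply, eq_comm,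
        cuspInvSL_eq_iff hN]

/-- The invariant descends to the orbit space. -/
noncomputable def cuspInvOrbit (N : ℕ) (hN : N ≠ 0) :
    MulAction.orbitRel.Quotient (Subgroup.zpowers ModularGroup.T) (SL(2, ℤ) ⧸ Gamma0 N) →
      (_ : ℕ) × ℕ :=
  Quotient.lift (cuspInvCoset N hN) (fun x y h => (cuspInvCoset_eq_iff hN x y).mpr h)

theorem cuspInvOrbit_injective (N : ℕ) (hN : N ≠ 0) :
    Function.Injective (cuspInvOrbit N hN) := by
  intro x y h
  induction x using Quotient.inductionOn with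
  | h x =>
    induction y using Quotient.inductionOn with
    | h y => exact Quotient.sound ((cuspInvCoset_eq_iff hN x y).mp h)

theorem range_cuspInvOrbit (N : ℕ) (hN : N ≠ 0) :
    Set.range (cuspInvOrbit N hN) = (cuspFinset N : Set ((_ : ℕ) × ℕ)) := by
  ext y
  constructor
  · rintro ⟨x, rfl⟩
    induction x using Quotient.inductionOn with
    | h x =>
      induction x using QuotientGroup.induction_on with
      | H g => exact cuspInv_mem hN (isCoprime_col g)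
  · intro hy
    obtain ⟨a, c, hac, rfl⟩ := exists_cuspInv_eq hN (Finset.mem_coe.mp hy)
    obtain ⟨g, rfl, rfl⟩ := exists_SL2_col hac
    exact ⟨Quotient.mk _ (g : SL(2, ℤ) ⧸ Gamma0 N), rfl⟩

/-- **The number of cusps of `Γ₀(N)`**: the number of `⟨T⟩`-orbits on `SL(2, ℤ) ⧸ Γ₀(N)` is
`∑ d ∣ N, φ (gcd (d, N / d))`. -/
theorem card_orbits_T (N : ℕ) [NeZero N] :
    Nat.card (MulAction.orbitRel.Quotient (Subgroup.zpowers ModularGroup.T)
      (SL(2, ℤ) ⧸ Gamma0 N)) = ModularCurve.cuspCount N := by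
  have hN : N ≠ 0 := NeZero.ne N
  have e := Equiv.ofInjective (cuspInvOrbit N hN) (cuspInvOrbit_injective N hN)
  rw [Nat.card_congr e, range_cuspInvOrbit N hN]
  rw [show Nat.card ((cuspFinset N : Set ((_ : ℕ) × ℕ))) = Nat.card (cuspFinset N) from rfl,
    Nat.card_eq_finsetCard, card_cuspFinset]
  rfl

end Fermat.Agent.H73
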