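/-
helper73: ESB-0 (P-ES, block ES-B): a function without zeros and poles is constant.
Proof: if `h` were transcendental then `F / K(h)` is finite (exchange lemma) and the fundamental
identity `∑_{zeros} ord = [F : K(h)] > 0` contradicts the absence of zeros; so `h` is algebraic
over the algebraically closed field `K`, hence a constant.
-/
import Fermat.Agent.H29.ESB.Interfaces
import Fermat.Agent.H29.FundamentalIdentity
import Fermat.Agent.H12.FunctionFieldBasics

set_option autoImplicit false

noncomputable section

open AlgebraicCurve IntermediateField

namespace Fermat.Agent.H73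

/-- A function of a function field of one variable (over an algebraically closed field of
characteristic zero) with no zeros is algebraic over the constants. -/
theorem isAlgebraic_of_forall_ord_nonpos {K F : Type} [Field K] [Field F] [Algebra K F]
    [IsAlgClosed K] [CharZero K] (x : F) (hfin : FiniteDimensional K⟮x⟯ F)
    (h : F) (hord : ∀ w : Place K F, w.ord h ≤ 0) : IsAlgebraic K h := by
  by_contra hna
  have htr : Transcendental K h := hna
  have := hfin
  have hfinh : FiniteDimensional K⟮h⟯ F :=
    Fermat.Agent.H12.finiteDimensional_adjoin_simple_of_transcendental x h htr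
  obtain ⟨-, hsum⟩ := Fermat.Agent.H29.fundamentalIdentity_zeros h htr
  have hempty : {v : Place K F | 0 < v.ord h} = ∅ := by
    ext v
    simp only [Set.mem_ofPred_eq, Set.mem_empty_iff_false, iff_false, not_lt]
    exact hord v
  rw [hempty] at hsum
  simp only [finsum_mem_empty] at hsum
  have hpos : 0 < Module.finrank K⟮h⟯ F := Module.finrank_pos
  have : (0 : ℤ) < (Module.finrank K⟮h⟯ F : ℤ) := by exact_mod_cast hpos
  omega

/-- **ESB-0** A function without zeros and poles is constant. -/
theorem esbConstantStatement : Fermat.Agent.H29.ConstantStatement := by
  intro K F _ _ _ _ _ x _ hfin h _ hord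
  have halg : IsAlgebraic K h :=
    isAlgebraic_of_forall_ord_nonpos x hfin h (fun w => (hord w).le)
  obtain ⟨c, hc⟩ := Fermat.Agent.H12.exists_algebraMap_eq_of_isAlgebraic halg
  exact ⟨c, hc⟩

end Fermat.Agent.H73

end
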