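/-
helper73 (P-ES / KL-DESC-c, row 405), abstract core: extension of a place along an algebraic
constant field extension, with ramification index one.

`F₁ / K₁` a field with a place `P₁`, `E ⊇ F₁` generated over `F₁` by the image of a field `K`
all of whose elements are integral over `K₁`.  Given the (Mathlib-only) statement
`ConstExtUnramifiedStatement`, there is a place `P` of `E / K` with `ord_P (f) = ord_{P₁} f`
for all `f ∈ F₁`.
-/
import Fermat.Agent.H93.KL.DescInterfaces
import Fermat.Agent.H29.PlaceBasics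

set_option autoImplicit false

noncomputable section

open AlgebraicCurve

namespace Fermat.Agent.H73.KLDesc

section chevalley

variable {F₁ E : Type} [Field F₁] [Field E]

/-- **Chevalley extension**: a valuation ring of `E` dominating the image of a valuation ring
of `F₁`. -/
theorem exists_valuationSubring_comap_eq (bc : F₁ →+* E) (O : ValuationSubring F₁) :
    ∃ V : ValuationSubring E, ∀ x : F₁, bc x ∈ V ↔ x ∈ O := by
  let ψ : O →+* E := bc.comp O.subtype
  have hψinj : Function.Injective ψ := bc.injective.comp Subtype.val_injective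
  let I : Ideal ψ.range := (IsLocalRing.maximalIdeal O).map ψ.rangeRestrict
  have hI : I ≠ ⊤ := by
    intro htop
    have h1 : (1 : ψ.range) ∈ I := by rw [htop]; trivial
    obtain ⟨x, hx, hx1⟩ := (Ideal.mem_map_iff_of_surjective ψ.rangeRestrict
      ψ.rangeRestrict_surjective).mp h1
    have hx' : ψ x = ψ 1 := by
      have := congrArg Subtype.val hx1
      simpa using this
    have : x = 1 := hψinj hx'
    rw [this] at hx
    exact (IsLocalRing.maximalIdeal.isMaximal O).ne_top
      ((Ideal.eq_top_iff_one _).mpr hx)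
  obtain ⟨V, hV1, hV2⟩ := Ideal.image_subset_nonunits_valuationSubring I hI
  refine ⟨V, fun x => ⟨fun hx => ?_, fun hx => ?_⟩⟩
  · by_contra hxO
    have hx0 : x ≠ 0 := fun h0 => hxO (h0 ▸ O.zero_mem)
    have hxi : x⁻¹ ∈ O := (O.mem_or_inv_mem x).resolve_left hxO
    have hmax : (⟨x⁻¹, hxi⟩ : O) ∈ IsLocalRing.maximalIdeal O := by
      rw [← ValuationSubring.coe_mem_nonunits_iff]
      show x⁻¹ ∈ O.nonunits
      rw [ValuationSubring.inv_mem_nonunits_iff]
      exact Or.inr hxO
    have hmem : ψ.rangeRestrict ⟨x⁻¹, hxi⟩ ∈ I := Ideal.mem_map_of_mem _ hmax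
    have hnon : bc x⁻¹ ∈ V.nonunits :=
      hV2 ⟨ψ.rangeRestrict ⟨x⁻¹, hxi⟩, hmem, rfl⟩
    rw [map_inv₀, ValuationSubring.inv_mem_nonunits_iff] at hnon
    rcases hnon with h0 | h
    · exact hx0 ((map_eq_zero bc).mp h0)
    · exact h hx
  · exact hV1 (show bc x ∈ ψ.range from ⟨⟨x, hx⟩, rfl⟩)

end chevalley

section dvr

variable {E : Type} [Field E]

/-- A valuation subring in which every nonzero element of the field is a unit times a power of
a fixed nonunit `τ` is a discrete valuation ring with uniformiser `τ`. -/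
theorem irreducible_and_dvr (V : ValuationSubring E) (τ : E) (hτ : τ ∈ V) (hτi : τ⁻¹ ∉ V)
    (hu : ∀ y : E, y ≠ 0 → ∃ n : ℤ, y * τ ^ n ∈ V ∧ (y * τ ^ n)⁻¹ ∈ V) :
    Irreducible (⟨τ, hτ⟩ : V) ∧ IsDiscreteValuationRing V := by
  have hτ0 : τ ≠ 0 := by
    rintro rfl
    rw [inv_zero] at hτi
    exact hτi V.zero_mem
  have hpowmem : ∀ k : ℤ, 0 ≤ k → τ ^ k ∈ V := by
    intro k hk
    obtain ⟨m, rfl⟩ := Int.eq_ofNat_of_zero_le hk
    rw [zpow_natCast]
    exact pow_mem hτ m
  have hnegpow : ∀ k : ℤ, k ≤ -1 → τ ^ k ∉ V := by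
    intro k hk hmem
    apply hτi
    have : τ⁻¹ = τ ^ k * τ ^ (-k - 1) := by
      rw [← zpow_add₀ hτ0, ← zpow_neg_one]
      congr 1
      omega
    rw [this]
    exact V.mul_mem _ _ hmem (hpowmem _ (by omega))
  -- elements of `V` have exponent `≤ 0`
  have hF2 : ∀ (y : E) (n : ℤ), y ≠ 0 → y ∈ V → (y * τ ^ n)⁻¹ ∈ V → n ≤ 0 := by
    intro y n hy0 hy h2
    by_contra hn
    rw [not_le] at hn
    apply hτi
    have : τ⁻¹ = (y * τ ^ n)⁻¹ * y * τ ^ (n - 1) := by
      rw [mul_inv, zpow_sub₀ hτ0, zpow_one]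
      field_simp
    rw [this]
    exact V.mul_mem _ _ (V.mul_mem _ _ h2 hy) (hpowmem _ (by omega))
  have hunit : ∀ a : V, (a : E)⁻¹ ∈ V → (a : E) ≠ 0 → IsUnit a := fun a ha ha0 =>
    isUnit_iff_exists_inv.mpr ⟨⟨(a : E)⁻¹, ha⟩, Subtype.ext (mul_inv_cancel₀ ha0)⟩
  have hinv : ∀ a : V, IsUnit a → (a : E)⁻¹ ∈ V := by
    intro a ha
    obtain ⟨b, hb⟩ := isUnit_iff_exists_inv.mp ha
    have hb' : (a : E) * (b : E) = 1 := congrArg Subtype.val hb
    have : (a : E)⁻¹ = (b : E) := inv_eq_of_mul_eq_one_right hb'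
    rw [this]
    exact b.2
  have hirr : Irreducible (⟨τ, hτ⟩ : V) := by
    rw [irreducible_iff]
    refine ⟨fun h => hτi (hinv _ h), fun a b hab => ?_⟩
    by_contra hcon
    rw [not_or] at hcon
    have habE : τ = (a : E) * (b : E) := congrArg Subtype.val hab
    have ha0 : (a : E) ≠ 0 := by
      intro h
      rw [h, zero_mul] at habE
      exact hτ0 habE
    have hb0 : (b : E) ≠ 0 := by
      intro h
      rw [h, mul_zero] at habE
      exact hτ0 habE
    obtain ⟨i, hi1, hi2⟩ := hu a ha0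
    obtain ⟨j, hj1, hj2⟩ := hu b hb0
    have hi : i ≤ -1 := by
      have h1 := hF2 a i ha0 a.2 hi2
      by_contra h
      have h0 : i = 0 := by omega
      subst h0
      rw [zpow_zero, mul_one] at hi2
      exact hcon.1 (hunit a hi2 ha0)
    have hj : j ≤ -1 := by
      have h1 := hF2 b j hb0 b.2 hj2
      by_contra h
      have h0 : j = 0 := by omega
      subst h0
      rw [zpow_zero, mul_one] at hj2
      exact hcon.2 (hunit b hj2 hb0)
    have h3 : τ ^ (1 + i + j) ∈ V := by
      have : τ ^ (1 + i + j) = ((a : E) * τ ^ i) * ((b : E) * τ ^ j) := by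
        rw [zpow_add₀ hτ0, zpow_add₀ hτ0, zpow_one]
        nth_rewrite 1 [habE]
        ring
      rw [this]
      exact V.mul_mem _ _ hi1 hj1
    exact hnegpow _ (by omega) h3
  have hfac : ∀ {x : V}, x ≠ 0 → ∃ n : ℕ, Associated ((⟨τ, hτ⟩ : V) ^ n) x := by
    intro x hx
    have hx0 : (x : E) ≠ 0 := fun h => hx (Subtype.ext h)
    obtain ⟨m, hm1, hm2⟩ := hu x hx0
    have hm : m ≤ 0 := hF2 x m hx0 x.2 hm2
    obtain ⟨n, hn⟩ : ∃ n : ℕ, m = -(n : ℤ) := ⟨(-m).toNat, by omega⟩
    refine ⟨n, ?_⟩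
    have hu' : IsUnit (⟨(x : E) * τ ^ m, hm1⟩ : V) :=
      hunit _ hm2 (mul_ne_zero hx0 (zpow_ne_zero _ hτ0))
    refine Associated.symm ⟨hu'.unit⁻¹, ?_⟩
    rw [Units.mul_inv_eq_iff_eq_mul, IsUnit.unit_spec]
    apply Subtype.ext
    show (x : E) = τ ^ n * ((x : E) * τ ^ m)
    rw [hn, zpow_neg, zpow_natCast]
    field_simp
  exact ⟨hirr, IsDiscreteValuationRing.ofHasUnitMulPowIrreducibleFactorization ⟨_, hirr, hfac⟩⟩

end dvr

section main

/-- **Place descent, abstract form.**  `E` is generated over `F₁` by the image of a field `K`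
of elements integral over the constant field `K₁` of `F₁`.  Then every place of `F₁ / K₁` extends
to a place of `E / K` with ramification index one. -/
theorem exists_place_of_constExt (h : Fermat.Agent.H93.KL.ConstExtUnramifiedStatement)
    (K₁ F₁ K E : Type) [Field K₁] [Field F₁] [Field K] [Field E] [CharZero K₁]
    [Algebra K₁ F₁] [Algebra F₁ E] [Algebra K₁ E] [IsScalarTower K₁ F₁ E] [Algebra K E]
    (hint : ∀ c : K, IsIntegral K₁ (algebraMap K E c))
    (hgen : IntermediateField.adjoin F₁ (Set.range (algebraMap K E)) = ⊤)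
    (P₁ : Place K₁ F₁) :
    ∃ P : Place K E, ∀ f : F₁, P.ord (algebraMap F₁ E f) = P₁.ord f := by
  obtain ⟨V, hV⟩ := exists_valuationSubring_comap_eq (algebraMap F₁ E) P₁.toValuationSubring
  obtain ⟨π, hπ⟩ := IsDiscreteValuationRing.exists_irreducible P₁.toValuationSubring
  have hπord : P₁.ord (π : F₁) = 1 := P₁.ord_coe_irreducible hπ
  have hπ0 : (π : F₁) ≠ 0 := by
    intro h0
    rw [h0, Place.ord_zero] at hπord
    omega
  have hπi : (π : F₁)⁻¹ ∉ P₁.toValuationSubring := by
    intro hmem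
    have := Fermat.Agent.H29.place_ord_nonneg_of_mem P₁ hmem
    rw [Place.ord_inv, hπord] at this
    omega
  have hunif : ∀ x : F₁, x ≠ 0 → ∃ n : ℤ, x * (π : F₁) ^ n ∈ P₁.toValuationSubring ∧
      (x * (π : F₁) ^ n)⁻¹ ∈ P₁.toValuationSubring := by
    intro x hx
    have hord : P₁.ord (x * (π : F₁) ^ (-P₁.ord x)) = 0 := by
      rw [P₁.ord_mul hx (zpow_ne_zero _ hπ0), P₁.ord_zpow, hπord]
      ring
    refine ⟨-P₁.ord x, Fermat.Agent.H29.place_mem_of_ord_nonneg P₁ hord.ge,
      Fermat.Agent.H29.place_mem_of_ord_nonneg P₁ ?_⟩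
    rw [Place.ord_inv, hord, neg_zero]
  have key := h K₁ F₁ E (Set.range (algebraMap K E)) (by rintro _ ⟨c, rfl⟩; exact hint c) hgen
    P₁.toValuationSubring V P₁.algebraMap_mem' hV (π : F₁) π.2 hπi hunif
  have hτ : algebraMap F₁ E (π : F₁) ∈ V := (hV _).mpr π.2
  have hτi : (algebraMap F₁ E (π : F₁))⁻¹ ∉ V := by
    rw [← map_inv₀]
    exact fun hmem => hπi ((hV _).mp hmem)
  obtain ⟨hirr, hdvr⟩ := irreducible_and_dvr V _ hτ hτi key
  -- the constants lie in `V`
  have hK₁V : ∀ a : K₁, algebraMap K₁ E a ∈ V := by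
    intro a
    rw [IsScalarTower.algebraMap_apply K₁ F₁ E]
    exact (hV _).mpr (P₁.algebraMap_mem' a)
  have hKV : ∀ c : K, algebraMap K E c ∈ V := by
    intro c
    letI : Algebra K₁ V := ((algebraMap K₁ E).codRestrict V.toSubring hK₁V).toAlgebra
    haveI : IsScalarTower K₁ V E := IsScalarTower.of_algebraMap_eq (fun a => rfl)
    have hc : IsIntegral V (algebraMap K E c) := (hint c).tower_top
    obtain ⟨a, ha⟩ := IsIntegrallyClosed.isIntegral_iff.mp hc
    rw [← ha]
    exact a.2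
  have hVtop : V ≠ ⊤ := by
    intro htop
    exact hτi (htop ▸ ValuationSubring.mem_top _)
  let P : Place K E :=
    { toValuationSubring := V
      algebraMap_mem' := hKV
      ne_top' := hVtop
      isPrincipalIdealRing' := inferInstance }
  refine ⟨P, fun f => ?_⟩
  rcases eq_or_ne f 0 with rfl | hf
  · simp
  obtain ⟨u, hu⟩ := P₁.exists_unit_mul_zpow hf hπ
  have hu0 : ((u : P₁.toValuationSubring) : F₁) ≠ 0 := by
    intro h0
    rw [h0, zero_mul] at hu
    exact hf hu
  have huV : algebraMap F₁ E ((u : P₁.toValuationSubring) : F₁) ∈ V :=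
    (hV _).mpr (u : P₁.toValuationSubring).2
  have huVi : (algebraMap F₁ E ((u : P₁.toValuationSubring) : F₁))⁻¹ ∈ V := by
    rw [← map_inv₀]
    refine (hV _).mpr ?_
    have := (u⁻¹ : P₁.toValuationSubringˣ).1.2
    have hcoe : (((u⁻¹ : P₁.toValuationSubringˣ) : P₁.toValuationSubring) : F₁)
        = ((u : P₁.toValuationSubring) : F₁)⁻¹ := by
      have h1 : ((u : P₁.toValuationSubring) : F₁) *
          (((u⁻¹ : P₁.toValuationSubringˣ) : P₁.toValuationSubring) : F₁) = 1 :=
        congrArg Subtype.val u.mul_inv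
      exact eq_inv_of_mul_eq_one_right h1
    rw [← hcoe]
    exact this
  have hordu : P.ord (algebraMap F₁ E ((u : P₁.toValuationSubring) : F₁)) = 0 := by
    have h1 := Fermat.Agent.H29.place_ord_nonneg_of_mem P huV
    have h2 := Fermat.Agent.H29.place_ord_nonneg_of_mem P huVi
    rw [Place.ord_inv] at h2
    omega
  have hordτ : P.ord (algebraMap F₁ E (π : F₁)) = 1 :=
    P.ord_coe_irreducible (π := ⟨_, hτ⟩) hirr
  conv_lhs => rw [hu]
  rw [map_mul, map_zpow₀,
    P.ord_mul ((map_ne_zero (algebraMap F₁ E)).mpr hu0)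
      (zpow_ne_zero _ ((map_ne_zero (algebraMap F₁ E)).mpr hπ0)),
    P.ord_zpow, hordu, hordτ]
  ring

end main

end Fermat.Agent.H73.KLDesc

end
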