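/-
helper73 (P-ES / KL-DESC-c, row 405): `PlaceDescentStatement` from
`ConstExtUnramifiedStatement`: every place of `F_{K₁} / K₁` is the restriction of a place of
`F_{ℚ̄} / ℚ̄` with ramification index one (Chevalley extension + the unramifiedness statement +
packaging as a `Place`).
-/
import Fermat.Agent.H73.KLPlaceDescCore

set_option autoImplicit false

noncomputable section

open AlgebraicCurve ModularCurve Fermat.Agent.H93.KL

namespace Fermat.Agent.H73.KLDesc

section

variable {K₁ : Type} [Field K₁] [Algebra ℚ K₁] (ι : K₁ →+* QBar)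
  (F₀ : IntermediateField ℚ (LaurentSeries ℚ))

/-- `klBc` maps constants to constants. -/
theorem klBc_algebraMap (a : K₁) :
    klBc ι F₀ (algebraMap K₁ ↥(laurentBaseChange K₁ F₀) a)
      = algebraMap QBar ↥(laurentBaseChange QBar F₀) (ι a) := by
  apply Subtype.ext
  show coeffMap ι (algebraMap K₁ (LaurentSeries K₁) a)
    = algebraMap QBar (LaurentSeries QBar) (ι a)
  rw [algebraMap_laurentSeries_eq_single, algebraMap_laurentSeries_eq_single, coeffMap_single]

/-- `klBc` of the base change of a rational series. -/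
theorem klBc_coeffEmb (w : LaurentSeries ℚ) (hw₁ : coeffEmb K₁ w ∈ laurentBaseChange K₁ F₀)
    (hw : coeffEmb QBar w ∈ laurentBaseChange QBar F₀) :
    klBc ι F₀ ⟨coeffEmb K₁ w, hw₁⟩ = ⟨coeffEmb QBar w, hw⟩ := by
  apply Subtype.ext
  show coeffMap ι (coeffEmb K₁ w) = coeffEmb QBar w
  rw [coeffEmb, coeffEmb, coeffMap_coeffMap]
  exact coeffMap_congr (Subsingleton.elim _ _) w

/-- `F_{ℚ̄}` is generated, as a field, by the constants and the image of `F_{K₁}`: subfield
form. -/
theorem mem_of_mem_closure (L : Subfield ↥(laurentBaseChange QBar F₀))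
    (hconst : ∀ c : QBar, algebraMap QBar ↥(laurentBaseChange QBar F₀) c ∈ L)
    (himg : ∀ f : ↥(laurentBaseChange K₁ F₀), klBc ι F₀ f ∈ L)
    (z : LaurentSeries QBar) (hz : z ∈ laurentBaseChange QBar F₀) :
    (⟨z, hz⟩ : ↥(laurentBaseChange QBar F₀)) ∈ L := by
  have hle : Subfield.closure
      (Set.range (algebraMap QBar (LaurentSeries QBar)) ∪
        (⇑(coeffEmb QBar) '' (F₀ : Set (LaurentSeries ℚ))))
      ≤ L.map ((laurentBaseChange QBar F₀).val : ↥(laurentBaseChange QBar F₀) →+*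
          LaurentSeries QBar) := by
    rw [Subfield.closure_le]
    rintro y (⟨c, rfl⟩ | ⟨w, hw, rfl⟩)
    · exact ⟨algebraMap QBar ↥(laurentBaseChange QBar F₀) c, hconst c, rfl⟩
    · have hw₁ : coeffEmb K₁ w ∈ laurentBaseChange K₁ F₀ :=
        coeffEmb_mem_laurentBaseChange K₁ hw
      have hw₀ : coeffEmb QBar w ∈ laurentBaseChange QBar F₀ :=
        coeffEmb_mem_laurentBaseChange QBar hw
      refine ⟨klBc ι F₀ ⟨coeffEmb K₁ w, hw₁⟩, himg _, ?_⟩
      rw [klBc_coeffEmb ι F₀ w hw₁ hw₀]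
      rfl
  obtain ⟨y, hy, hyz⟩ := hle (mem_laurentBaseChange_iff.mp hz)
  have : (⟨z, hz⟩ : ↥(laurentBaseChange QBar F₀)) = y := Subtype.ext hyz.symm
  rw [this]
  exact hy

end

/-- **KL-DESC-c**: place descent. -/
theorem placeDescent (h : ConstExtUnramifiedStatement) : PlaceDescentStatement := by
  intro F₀ K₁ _ _ ι P₁
  haveI : CharZero K₁ := charZero_of_injective_algebraMap (algebraMap ℚ K₁).injective
  letI algF : Algebra ↥(laurentBaseChange K₁ F₀) ↥(laurentBaseChange QBar F₀) :=
    (klBc ι F₀).toAlgebra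
  letI algK : Algebra K₁ ↥(laurentBaseChange QBar F₀) :=
    ((algebraMap QBar ↥(laurentBaseChange QBar F₀)).comp ι).toAlgebra
  haveI tower : IsScalarTower K₁ ↥(laurentBaseChange K₁ F₀) ↥(laurentBaseChange QBar F₀) :=
    IsScalarTower.of_algebraMap_eq (fun a => (klBc_algebraMap ι F₀ a).symm)
  -- constants are integral over `K₁`
  have hint : ∀ c : QBar,
      IsIntegral K₁ (algebraMap QBar ↥(laurentBaseChange QBar F₀) c) := by
    intro c
    have hc : IsIntegral ℚ c := ((AlgebraicClosure.isAlgebraic ℚ).isAlgebraic c).isIntegral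
    obtain ⟨p, hp, hpc⟩ := hc
    refine ⟨p.map (algebraMap ℚ K₁), hp.map _, ?_⟩
    rw [Polynomial.eval₂_map]
    have hcomp : (algebraMap K₁ ↥(laurentBaseChange QBar F₀)).comp (algebraMap ℚ K₁)
        = (algebraMap QBar ↥(laurentBaseChange QBar F₀)).comp (algebraMap ℚ QBar) :=
      Subsingleton.elim _ _
    rw [hcomp, ← Polynomial.hom_eval₂, hpc, map_zero]
  -- `F_{ℚ̄}` is generated over `F_{K₁}` by the constants
  have hgen : IntermediateField.adjoin ↥(laurentBaseChange K₁ F₀)
      (Set.range (algebraMap QBar ↥(laurentBaseChange QBar F₀))) = ⊤ := by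
    rw [eq_top_iff]
    rintro ⟨z, hz⟩ -
    exact mem_of_mem_closure ι F₀
      (IntermediateField.adjoin ↥(laurentBaseChange K₁ F₀)
        (Set.range (algebraMap QBar ↥(laurentBaseChange QBar F₀)))).toSubfield
      (fun c => IntermediateField.subset_adjoin _ _ ⟨c, rfl⟩)
      (fun f => IntermediateField.algebraMap_mem _ f) z hz
  obtain ⟨P, hP⟩ := exists_place_of_constExt h K₁ ↥(laurentBaseChange K₁ F₀) QBar
    ↥(laurentBaseChange QBar F₀) hint hgen P₁
  exact ⟨P, hP⟩

end Fermat.Agent.H73.KLDesc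

end
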