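/-
helper73 (P-CFT, row 607, SH-4): conjugation is trivial on level cohomology
(`ConjTrivialStatement`), and the Mackey square commutes on cohomology
(`MackeySquareStatement`).
-/
import Fermat.Agent.H97.Shap.Interfaces
import Fermat.Agent.H87.Cft.LvlSes
import Fermat.Agent.H19.Cft.HomologyApi

set_option autoImplicit false
set_option linter.style.haveILetI false
set_option linter.unusedSectionVars false

universe u

open CategoryTheory groupCohomology

namespace Fermat.Agent.H73.Shap4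

open Fermat.Agent.H13.Cft Fermat.Agent.H97.Shap Fermat.Agent.H19

noncomputable section

variable {k G : Type u} [CommRing k] [Group G]

/-! ### Conjugation as a natural transformation -/

/-- Conjugation by `g` is natural in the coefficients. -/
theorem lvlConj_naturality (𝒰 : LevelSys G) (g : G) {A B : Rep.{u} k G} (φ : A ⟶ B) :
    lvlMap 𝒰 φ ≫ lvlConj 𝒰 g B = lvlConj 𝒰 g A ≫ lvlMap 𝒰 φ := by
  ext n x : 3
  apply Subtype.ext
  funext y
  show B.ρ g (φ.hom (x.1 (conjInv g ∘ y))) = φ.hom (A.ρ g (x.1 (conjInv g ∘ y)))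
  exact (Rep.hom_comm_apply φ g _).symm

/-- Conjugation by `g` as a natural endomorphism of the level complex functor. -/
def lvlConjNat (𝒰 : LevelSys G) (g : G) : lvlFunctor (k := k) 𝒰 ⟶ lvlFunctor 𝒰 where
  app A := lvlConj 𝒰 g A
  naturality _ _ φ := lvlConj_naturality 𝒰 g φ

/-- A level `0`-cocycle is an invariant vector. -/
theorem rho_apply_of_lvlD_zero (𝒰 : LevelSys G) (A : Rep.{u} k G) (x : lvlCochains 𝒰 A 0)
    (hx : lvlD 𝒰 A 0 x = 0) (g : G) (y : Fin 0 → G) : A.ρ g (x.1 y) = x.1 y := by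
  have h1 := congrArg (fun z : lvlCochains 𝒰 A 1 => z.1 (fun _ => g)) hx
  simp only [lvlD_coe, inhomogeneousCochains.d_hom_apply] at h1
  have e1 : (fun i : Fin 0 => (fun _ : Fin 1 => g) i.succ) = y := Subsingleton.elim _ _
  have e2 : Fin.contractNth (0 : Fin 1) (· * ·) (fun _ : Fin 1 => g) = y :=
    Subsingleton.elim _ _
  rw [Fin.sum_univ_succ, Fin.sum_univ_zero, e1, e2] at h1
  simp only [Fin.val_zero, zero_add, pow_one, neg_smul, one_smul, add_zero,
    ZeroMemClass.coe_zero, Pi.zero_apply] at h1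
  exact eq_of_sub_eq_zero (by rw [sub_eq_add_neg]; exact h1)

/-- Conjugation fixes the level `0`-cocycles. -/
theorem lvlConj_zero_cocycle (𝒰 : LevelSys G) (g : G) (A : Rep.{u} k G)
    (x : lvlCochains 𝒰 A 0) (hx : lvlD 𝒰 A 0 x = 0) :
    ((lvlConj 𝒰 g A).f 0).hom x = x := by
  apply Subtype.ext
  funext y
  rw [lvlConj_f_coe]
  have e : (fun i => g⁻¹ * y i * g) = y := Subsingleton.elim _ _
  rw [e]
  exact rho_apply_of_lvlD_zero 𝒰 A x hx g y

/-- Conjugation is trivial on `H⁰`. -/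
theorem homologyMap_lvlConj_zero (𝒰 : LevelSys G) (g : G) (A : Rep.{u} k G) :
    HomologicalComplex.homologyMap (lvlConj 𝒰 g A) 0 = 𝟙 _ := by
  ext z
  obtain ⟨x, hx, rfl⟩ := lvlHMk_surjective 𝒰 A 0 z
  rw [lvlHMk_naturality 𝒰 A 0 𝒰 A (lvlConj 𝒰 g A) x hx]
  simp only [ModuleCat.hom_id, LinearMap.id_coe, id_eq]
  exact lvlHMk_congr 𝒰 A 0 (lvlConj_zero_cocycle 𝒰 g A x hx) _ hx

/-! ### Conjugation is trivial on level cohomology -/

/-- **SH-4** from abstract dimension shifting, acyclicity of `Maplvl` and the smoothness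
package (`lvlSes` is landed). -/
theorem conjTrivial (hDS : DimShiftEqStatement.{u}) (hAc : MapLvlAcyclicStatement.{u})
    (hSP : SmoothPackageStatement.{u}) : ConjTrivialStatement.{u} := by
  intro k G _ _ 𝒰 g A hA n
  have key := @hDS k _ (Rep.{u} k G) _ _ (IsSmooth 𝒰) (lvlFunctor 𝒰) (lvlFunctor 𝒰)
    (lvlConjNat 𝒰 g) (𝟙 _) ?_ ?_ ?_ n A hA
  · have h1 : HomologicalComplex.homologyMap ((lvlConjNat (k := k) 𝒰 g).app A) n =
        HomologicalComplex.homologyMap (lvlConj 𝒰 g A) n := rfl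
    have h2 : HomologicalComplex.homologyMap
        ((𝟙 (lvlFunctor (k := k) 𝒰) : lvlFunctor 𝒰 ⟶ lvlFunctor 𝒰).app A) n = 𝟙 _ := by
      rw [NatTrans.id_app]
      exact HomologicalComplex.homologyMap_id _ n
    rw [← h1, key, h2]
    rfl
  · -- exactness
    intro A' I Q f g' w hX hI
    have hses := @Fermat.Agent.H87.Cft.lvlSes k G _ _ 𝒰 (ShortComplex.mk f g' w) hX hI
    exact ⟨((ShortComplex.mk f g' w).map (lvlFunctor 𝒰)).zero,
      ((ShortComplex.mk f g' w).map (lvlFunctor 𝒰)).zero, hses, hses⟩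
  · -- effacement
    intro A' hA'
    obtain ⟨hsm, hmono, hsub⟩ := @hSP k G _ _ 𝒰
    haveI : Mono (mapLvlEmb 𝒰 A' hA') := hmono A' hA'
    have hX : (ShortComplex.mk (mapLvlEmb 𝒰 A' hA') (Limits.cokernel.π (mapLvlEmb 𝒰 A' hA'))
        (Limits.cokernel.condition _)).ShortExact :=
      { exact := ShortComplex.exact_cokernel _
        mono_f := inferInstance
        epi_g := inferInstance }
    refine ⟨mapLvl k 𝒰 A'.V, Limits.cokernel (mapLvlEmb 𝒰 A' hA'), mapLvlEmb 𝒰 A' hA',
      Limits.cokernel.π _, Limits.cokernel.condition _, hX, hsm A'.V, ?_, fun m => ?_⟩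
    · exact (hsub _ hX (hsm A'.V)).2
    · exact @hAc k G _ _ 𝒰 A'.V _ _ m
  · -- degree 0
    intro A' _
    have h1 : HomologicalComplex.homologyMap ((lvlConjNat (k := k) 𝒰 g).app A') 0 =
        HomologicalComplex.homologyMap (lvlConj 𝒰 g A') 0 := rfl
    rw [h1, homologyMap_lvlConj_zero, NatTrans.id_app]
    exact (HomologicalComplex.homologyMap_id _ 0).symm

/-! ### The Mackey square -/

section Mackey

variable {Γ : Type u} [Group Γ]

/-- The Mackey square commutes on cochains, up to conjugation by `g`. -/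
theorem mackeySquare_cochains (𝒰 : LevelSys G) (𝒱 : LevelSys Γ) (loc : Γ →* G)
    (hloc : 𝒱.Compat 𝒰 loc) (U : Subgroup G) (hU : ∃ N ∈ 𝒰.sets, N ≤ U) (g : G)
    (A : Rep.{u} k U) :
    lvlRes loc hloc (Rep.coind U.subtype A) ≫ mackeyMap loc U g hloc hU A =
      lvlConj 𝒰 g (Rep.coind U.subtype A) ≫ shapiroMap 𝒰 U hU A ≫
        lvlRes (mackeyLoc loc U g) (mackeyLoc_compat loc U g hloc hU) A := by
  ext n c : 3
  apply Subtype.ext
  funext γ
  show (c.1 (loc ∘ ((mackeySubgroup loc U g).subtype ∘ γ))).1 g =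
    ((Rep.coind U.subtype A).ρ g
      (c.1 (conjInv g ∘ (U.subtype ∘ (mackeyLoc loc U g ∘ γ))))).1 1
  have e : conjInv g ∘ (U.subtype ∘ (mackeyLoc loc U g ∘ γ)) =
      loc ∘ ((mackeySubgroup loc U g).subtype ∘ γ) := by
    funext i
    simp only [Function.comp_apply, conjInv_apply, Subgroup.coe_subtype, mackeyLoc_coe]
    group
  rw [e]
  show _ = (c.1 (loc ∘ ((mackeySubgroup loc U g).subtype ∘ γ))).1 (1 * g)
  rw [one_mul]

/-- **SH-4'** from the triviality of conjugation and the coinduction package. -/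
theorem mackeySquare (hCT : ConjTrivialStatement.{u}) (hCP : CoindPackageStatement.{u}) :
    MackeySquareStatement.{u} := by
  intro k G Γ _ _ _ 𝒰 𝒱 loc hloc U hU g A hA n
  have hsm : IsSmooth 𝒰 (Rep.coind U.subtype A) := (@hCP k G _ _ 𝒰 U hU).1 A hA
  have h1 := congrArg (fun f => HomologicalComplex.homologyMap f n)
    (mackeySquare_cochains 𝒰 𝒱 loc hloc U hU g A)
  simp only [HomologicalComplex.homologyMap_comp] at h1
  rw [h1, hCT 𝒰 g _ hsm n, Category.id_comp]

end Mackey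

end

end Fermat.Agent.H73.Shap4
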