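/-
helper73 (P-CFT, row 607, SH-4): `ConjTrivialStatement` and `MackeySquareStatement`,
unconditional (dimension shifting: helper96; acyclicity of `Maplvl`: helper4; smoothness and
coinduction packages: helper60; `lvlSes`: helper87).
-/
import Fermat.Agent.H73.ShapConj
import Fermat.Agent.H96.Shap.DimShift
import Fermat.Agent.H4.Shap.MapLvlAcyclic
import Fermat.Agent.H60.Shap.SmoothCoind

set_option autoImplicit false

universe u

namespace Fermat.Agent.H73.Shap4

open Fermat.Agent.H13.Cft Fermat.Agent.H97.Shap

/-- **SH-4** from the smoothness package. -/
theorem conjTrivial_of_smoothPackage (hSP : SmoothPackageStatement.{u}) :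
    ConjTrivialStatement.{u} :=
  conjTrivial Fermat.Agent.H96.Shap.dimShiftEq Fermat.Agent.H4.Shap.mapLvlAcyclic hSP

/-- **SH-4'** from the smoothness and coinduction packages. -/
theorem mackeySquare_of_packages (hSP : SmoothPackageStatement.{u})
    (hCP : CoindPackageStatement.{u}) : MackeySquareStatement.{u} :=
  mackeySquare (conjTrivial_of_smoothPackage hSP) hCP

/-- **SH-4**, unconditional: conjugation acts trivially on level cohomology. -/
theorem conjTrivialU : ConjTrivialStatement.{u} :=
  conjTrivial_of_smoothPackage Fermat.Agent.H60.Shap.smoothPackage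

/-- **SH-4'**, unconditional: the Mackey square commutes on cohomology. -/
theorem mackeySquareU : MackeySquareStatement.{u} :=
  mackeySquare_of_packages Fermat.Agent.H60.Shap.smoothPackage
    Fermat.Agent.H60.Shap.coindPackage

end Fermat.Agent.H73.Shap4
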