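/-
helper73 (P-CFT, row 503, KD-2): `KummerRamStatement`.

`L ⊆ ℚ̄` a number field containing `μ_p`, `α ^ p = a ∈ Lˣ`, `A` a place of `ℚ̄` over the prime `v`
of `L`.  If every element of the inertia group of `A` fixing `L` fixes `α`, then `p ∣ ord_v a`.

Dictionary `HeightOneSpectrum (𝓞 L)` <-> valuation subring of `ℚ̄`:
* `valuation_eq_one_of_notMem` (KEY LEMMA): `x ∈ 𝓞 L`, `x ∉ v` ⟹ `x` is a unit of `A`;
* `valuation_eq_one_of_valuation_eq_one`: `v(u) = 1` ⟹ `u` is a unit of `A`;
* `valuation_eq_zpow`: `A.valuation c = A.valuation π ^ (- ord_v c)` for a uniformizer `π` at `v`.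
-/
import Fermat.Agent.H54.Cft.KummerInterfaces
import Fermat.Agent.H8.KummerRam

set_option autoImplicit false
set_option linter.unusedSectionVars false
set_option linter.style.haveILetI false

open IsDedekindDomain NumberField

namespace Fermat.Agent.H73.KD2

open Fermat.Agent.H54.Cft

/-- `ℚ̄ / ℚ` is Galois (for the algebra instance found by instance search). -/
theorem isGalois_Qbar_kd2 : IsGalois ℚ (AlgebraicClosure ℚ) := by
  have h : (DivisionRing.toRatAlgebra : Algebra ℚ (AlgebraicClosure ℚ)) =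
      AlgebraicClosure.instAlgebra ℚ := Subsingleton.elim _ _
  rw [h]
  infer_instance

section Dictionary

variable (L : IntermediateField ℚ Qbar) [NumberField L] (A : ValuationSubring Qbar)
  (v : HeightOneSpectrum (𝓞 L))

/-- The integers of `L` lie in every valuation subring of `ℚ̄`. -/
theorem integer_mem (x : 𝓞 L) : (((x : L)) : Qbar) ∈ A := by
  have hx : IsIntegral ℤ (x : L) := x.2
  have hx1 : IsIntegral ℤ (((x : L)) : Qbar) := map_isIntegral_int (algebraMap L Qbar) hx
  have hx2 : IsIntegral A (((x : L)) : Qbar) := IsIntegral.tower_top (R := ℤ) hx1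
  obtain ⟨y, hy⟩ := IsIntegrallyClosed.algebraMap_eq_of_integral hx2
  rw [← hy]
  exact y.2

theorem integer_valuation_le_one (x : 𝓞 L) : A.valuation (((x : L)) : Qbar) ≤ 1 :=
  (A.valuation_le_one_iff _).mpr (integer_mem L A x)

variable {L A v}

/-- **KEY LEMMA**: an integer of `L` outside `v` is a unit of `A`. -/
theorem valuation_eq_one_of_notMem (hA : LiesOverHeightOne L A v) {x : 𝓞 L}
    (hx : x ∉ v.asIdeal) : A.valuation (((x : L)) : Qbar) = 1 := by
  haveI := v.isMaximal
  obtain ⟨y, m, hm, hym⟩ := Ideal.IsMaximal.exists_inv (I := v.asIdeal) inferInstance hx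
  have hmA : A.valuation (((m : L)) : Qbar) < 1 :=
    (A.mem_nonunits_iff).mp (hA m hm)
  have h1 : (((y : L)) : Qbar) * (((x : L)) : Qbar) = 1 - (((m : L)) : Qbar) := by
    have := congrArg (fun t : 𝓞 L => (((t : L)) : Qbar)) hym
    simp only [map_add, map_mul, map_one, IntermediateField.coe_add, IntermediateField.coe_mul,
      IntermediateField.coe_one] at this
    rw [← this]
    ring
  have h2 : A.valuation (1 - (((m : L)) : Qbar)) = 1 := by
    have := Valuation.map_one_sub_of_lt (v := A.valuation) hmA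
    exact this
  have h3 : A.valuation (((y : L)) : Qbar) * A.valuation (((x : L)) : Qbar) = 1 := by
    rw [← map_mul, h1, h2]
  have hy1 := integer_valuation_le_one L A y
  have hx1 := integer_valuation_le_one L A x
  apply le_antisymm hx1
  by_contra hlt
  rw [not_le] at hlt
  have : A.valuation (((y : L)) : Qbar) * A.valuation (((x : L)) : Qbar) < 1 :=
    mul_lt_one_of_nonneg_of_lt_one_right hy1 zero_le hlt
  rw [h3] at this
  exact lt_irrefl _ this

/-- A `v`-unit of `L` is a unit of `A`. -/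
theorem valuation_eq_one_of_valuation_eq_one (hA : LiesOverHeightOne L A v) {u : L}
    (hu : v.valuation L u = 1) : A.valuation (u : Qbar) = 1 := by
  obtain ⟨n, d, hnd⟩ := v.exists_primeCompl_mul_eq_of_integer u hu.le
  have hd : (d : 𝓞 L) ∉ v.asIdeal := d.2
  have hn : n ∉ v.asIdeal := by
    rw [← HeightOneSpectrum.valuation_eq_one_iff_notMem (K := L), ← hnd, map_mul, hu, one_mul,
      HeightOneSpectrum.valuation_eq_one_iff_notMem]
    exact hd
  have h1 := valuation_eq_one_of_notMem hA hd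
  have h2 := valuation_eq_one_of_notMem hA hn
  have h3 : (u : Qbar) * ((((d : 𝓞 L) : L)) : Qbar) = (((n : L)) : Qbar) := by
    have := congrArg (fun t : L => (t : Qbar)) hnd
    simpa using this
  have h4 := congrArg A.valuation h3
  rw [map_mul, h1, h2, mul_one] at h4
  exact h4

/-- **Formula**: `A.valuation c = A.valuation π ^ (- ord_v c)` for a uniformizer `π` at `v`. -/
theorem valuation_eq_zpow (hA : LiesOverHeightOne L A v) {π : 𝓞 L}
    (hπ : v.intValuation π = WithZero.exp (-1 : ℤ)) (c : Lˣ) :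
    A.valuation (((c : L)) : Qbar) =
      A.valuation (((π : L)) : Qbar) ^ (- Multiplicative.toAdd (v.valuationOfNeZero c)) := by
  set n : ℤ := Multiplicative.toAdd (v.valuationOfNeZero c) with hn
  have hπL : v.valuation L ((π : L)) = WithZero.exp (-1 : ℤ) := by
    rw [← hπ]
    exact v.valuation_of_algebraMap π
  have hπ0 : (π : L) ≠ 0 := by
    intro h
    rw [h, map_zero] at hπL
    exact WithZero.exp_ne_zero.symm hπL
  have hc : v.valuation L (c : L) = WithZero.exp n := by
    rw [← HeightOneSpectrum.valuationOfNeZero_eq]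
    rfl
  have hu : v.valuation L ((c : L) * (π : L) ^ n) = 1 := by
    rw [map_mul, map_zpow₀, hc, hπL, ← WithZero.exp_zsmul, ← WithZero.exp_add]
    simp
  have h1 := valuation_eq_one_of_valuation_eq_one hA hu
  have hπQ : (((π : L)) : Qbar) ≠ 0 := by
    intro h
    apply hπ0
    exact_mod_cast h
  have hvπ : A.valuation (((π : L)) : Qbar) ≠ 0 := (Valuation.ne_zero_iff _).mpr hπQ
  have h2 : (((((c : L) * (π : L) ^ n) : L)) : Qbar) =
      (((c : L)) : Qbar) * (((π : L)) : Qbar) ^ n := by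
    push_cast
    rfl
  rw [h2, map_mul, map_zpow₀] at h1
  rw [zpow_neg]
  exact eq_inv_of_mul_eq_one_left h1

/-- A rational prime in `v`. -/
theorem exists_prime_mem (v : HeightOneSpectrum (𝓞 L)) :
    ∃ ℓ : ℕ, ℓ.Prime ∧ ((ℓ : ℕ) : 𝓞 L) ∈ v.asIdeal := by
  haveI := v.isMaximal
  letI : Field (𝓞 L ⧸ v.asIdeal) := Ideal.Quotient.field v.asIdeal
  haveI : Finite (𝓞 L ⧸ v.asIdeal) := Ideal.finiteQuotientOfFreeOfNeBot v.asIdeal v.ne_bot
  obtain ⟨ℓ, hℓ⟩ := CharP.exists (𝓞 L ⧸ v.asIdeal)
  have hprime : ℓ.Prime :=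
    (CharP.char_is_prime_or_zero (𝓞 L ⧸ v.asIdeal) ℓ).resolve_right
      (CharP.char_ne_zero_of_finite (𝓞 L ⧸ v.asIdeal) ℓ)
  refine ⟨ℓ, hprime, ?_⟩
  rw [← Ideal.Quotient.eq_zero_iff_mem, map_natCast]
  exact CharP.cast_eq_zero (𝓞 L ⧸ v.asIdeal) ℓ

end Dictionary

/-- **KD-2**. -/
theorem kummerRam : KummerRamStatement := by
  intro p hp L _ hroots α a hαa A v hA hfix
  haveI := isGalois_Qbar_kd2
  obtain ⟨ℓ, hℓ, hℓv⟩ := exists_prime_mem v
  obtain ⟨π, hπ⟩ := v.intValuation_exists_uniformizer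
  have hℓA : ((ℓ : ℕ) : Qbar) ∈ A.nonunits := by
    have := hA _ hℓv
    simpa using this
  have hπv : π ∈ v.asIdeal := by
    rw [← v.intValuation_lt_one_iff_mem, hπ]
    rw [← WithZero.exp_zero, WithZero.exp_lt_exp]
    norm_num
  have hπ0 : (((π : L)) : Qbar) ≠ 0 := by
    intro h
    have h' : (π : L) = 0 := by exact_mod_cast h
    have h'' : π = 0 := by exact_mod_cast h'
    rw [h'', map_zero] at hπ
    exact WithZero.exp_ne_zero.symm hπ
  have hπ1 : A.valuation (((π : L)) : Qbar) < 1 := (A.mem_nonunits_iff).mp (hA π hπv)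
  have hunif : ∀ c ∈ L, c ≠ 0 → ∃ m : ℤ, A.valuation c = A.valuation (((π : L)) : Qbar) ^ m := by
    intro c hc hc0
    have hc0' : (⟨c, hc⟩ : L) ≠ 0 := by
      intro h
      apply hc0
      exact congrArg Subtype.val h
    exact ⟨_, valuation_eq_zpow hA hπ (Units.mk0 ⟨c, hc⟩ hc0')⟩
  have hdvd := Fermat.Agent.H8.dvd_of_inertia_fixes A hℓ hℓA L hp.out
    (π := (((π : L)) : Qbar)) (α := (((a : L)) : Qbar)) (A0 := α)
    (n := - Multiplicative.toAdd (v.valuationOfNeZero a))
    hroots (π : L).2 (a : L).2 hπ0 hπ1 hunif hαa (valuation_eq_zpow hA hπ a)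
    (fun σ hσ hσL => hfix σ hσ ((IntermediateField.mem_fixingSubgroup_iff L σ).mpr hσL))
  exact (dvd_neg.mp hdvd)

end Fermat.Agent.H73.KD2
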