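/-
P-S14, block T, subtask T-G1: the cocycle of a non-split admissible extension.
-/
import Fermat.Agent.H53.S14T.Interfaces

set_option autoImplicit false

namespace Fermat.Agent.H73

open Fermat.Agent.H53

section Basis

variable {p : ℕ} [Fact p.Prime] {V : Type} [AddCommGroup V] [Module (ZMod p) V]

/-- Coordinates with respect to `v₀ ∉ C`, `c₀ ∈ C`, `c₀ ≠ 0` are unique. -/
theorem coord_unique {C : Submodule (ZMod p) V} {c₀ v₀ : V} (hc₀C : c₀ ∈ C) (hc₀ : c₀ ≠ 0)
    (hv₀ : v₀ ∉ C) {a a' d d' : ZMod p} (h : a • v₀ + d • c₀ = a' • v₀ + d' • c₀) :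
    a = a' ∧ d = d' := by
  have h1 : (a - a') • v₀ = (d' - d) • c₀ := by
    rw [sub_smul, sub_smul]
    have := h
    rw [← sub_eq_zero] at this ⊢
    rw [← this]
    abel
  have haa : a = a' := by
    by_contra hne
    have hne' : a - a' ≠ 0 := sub_ne_zero.mpr hne
    apply hv₀
    have h2 : v₀ = (a - a')⁻¹ • ((d' - d) • c₀) := by
      rw [← h1, smul_smul, inv_mul_cancel₀ hne', one_smul]
    rw [h2]
    exact C.smul_mem _ (C.smul_mem _ hc₀C)
  refine ⟨haa, ?_⟩
  subst haa
  rw [sub_self, zero_smul] at h1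
  have h3 : d' - d = 0 := by
    rcases smul_eq_zero.mp h1.symm with h | h
    · exact h
    · exact absurd h hc₀
  exact (sub_eq_zero.mp h3).symm

/-- If `Nat.card C = p`, every element of `C` is a multiple of a nonzero `c₀ ∈ C`. -/
theorem exists_smul_eq_of_card {C : Submodule (ZMod p) V} (hcard : Nat.card C = p) {c₀ : V}
    (hc₀C : c₀ ∈ C) (hc₀ : c₀ ≠ 0) (c : V) (hc : c ∈ C) : ∃ d : ZMod p, c = d • c₀ := by
  have hp : p.Prime := Fact.out
  haveI : Finite C := Nat.finite_of_card_ne_zero (by rw [hcard]; exact hp.ne_zero)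
  let f : ZMod p → C := fun d => ⟨d • c₀, C.smul_mem d hc₀C⟩
  have hinj : Function.Injective f := by
    intro d d' hdd
    have h1 : d • c₀ = d' • c₀ := congrArg Subtype.val hdd
    have h2 : (d - d') • c₀ = 0 := by rw [sub_smul, h1, sub_self]
    rcases smul_eq_zero.mp h2 with h | h
    · exact sub_eq_zero.mp h
    · exact absurd h hc₀
  have hbij : Function.Bijective f :=
    hinj.bijective_of_nat_card_le (by rw [hcard, Nat.card_zmod])
  obtain ⟨d, hd⟩ := hbij.2 ⟨c, hc⟩
  exact ⟨d, (congrArg Subtype.val hd).symm⟩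

/-- If `Nat.card V = p ^ 2`, every element of `V` is `a • v₀ + d • c₀`. -/
theorem exists_coord_of_card (hcardV : Nat.card V = p ^ 2) {C : Submodule (ZMod p) V} {c₀ v₀ : V}
    (hc₀C : c₀ ∈ C) (hc₀ : c₀ ≠ 0) (hv₀ : v₀ ∉ C) (v : V) :
    ∃ a d : ZMod p, v = a • v₀ + d • c₀ := by
  have hp : p.Prime := Fact.out
  haveI : Finite V := Nat.finite_of_card_ne_zero (by rw [hcardV]; exact pow_ne_zero _ hp.ne_zero)
  let g : ZMod p × ZMod p → V := fun x => x.1 • v₀ + x.2 • c₀
  have hinj : Function.Injective g := by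
    rintro ⟨a, d⟩ ⟨a', d'⟩ h
    obtain ⟨h1, h2⟩ := coord_unique hc₀C hc₀ hv₀ (a := a) (a' := a') (d := d) (d' := d') h
    rw [h1, h2]
  have hbij : Function.Bijective g :=
    hinj.bijective_of_nat_card_le (by rw [hcardV, Nat.card_prod, Nat.card_zmod, sq])
  obtain ⟨⟨a, d⟩, had⟩ := hbij.2 v
  exact ⟨a, d, had.symm⟩

end Basis

/-- **T-G1**: the cocycle of a non-split admissible extension. -/
theorem cocycleStatement : Fermat.Agent.H53.CocycleStatement := by
  intro p _ _ V _ _ _ _ C hadm hns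
  classical
  have hp : p.Prime := Fact.out
  have hcardC : Nat.card C = p := hadm.card_sub
  have hcardV : Nat.card V = p ^ 2 := hadm.card_total
  haveI hVfin : Finite V :=
    Nat.finite_of_card_ne_zero (by rw [hcardV]; exact pow_ne_zero _ hp.ne_zero)
  haveI hCfin : Finite C := Nat.finite_of_card_ne_zero (by rw [hcardC]; exact hp.ne_zero)
  -- a nonzero element of `C`
  obtain ⟨c₀, hc₀C, hc₀⟩ : ∃ c₀ ∈ C, c₀ ≠ 0 := by
    by_contra hcon
    push Not at hcon
    have hsub : Subsingleton C := ⟨fun x y => Subtype.ext ((hcon x x.2).trans (hcon y y.2).symm)⟩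
    have : Nat.card C = 1 := Nat.card_unique
    rw [hcardC] at this
    exact hp.one_lt.ne' this
  -- an element outside `C`
  obtain ⟨v₀, hv₀⟩ : ∃ v₀ : V, v₀ ∉ C := by
    by_contra hcon
    push Not at hcon
    have hbij : Function.Bijective (Subtype.val : C → V) :=
      ⟨Subtype.val_injective, fun v => ⟨⟨v, hcon v⟩, rfl⟩⟩
    have := Nat.card_eq_of_bijective _ hbij
    rw [hcardC, hcardV] at this
    have h2 : p ^ 2 = p ^ 1 := by rw [pow_one]; exact this.symm
    have := Nat.pow_right_injective hp.two_le h2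
    omega
  have hF1 := fun c hc => exists_smul_eq_of_card hcardC hc₀C hc₀ c hc
  have hF2 := fun v => exists_coord_of_card hcardV hc₀C hc₀ hv₀ v
  have huniq : ∀ {a a' d d' : ZMod p}, a • v₀ + d • c₀ = a' • v₀ + d' • c₀ → a = a' ∧ d = d' :=
    fun h => coord_unique hc₀C hc₀ hv₀ h
  -- the character and the cocycle
  set ω : GQ → ZMod p := fun σ => (ExtCitation.cycloExp p σ : ZMod p) with hω
  have hb_ex : ∀ σ : GQ, ∃ d : ZMod p, σ • v₀ - ω σ • v₀ = d • c₀ :=
    fun σ => hF1 _ (hadm.cyclo_quot σ v₀)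
  choose b hb using hb_ex
  have hv : ∀ σ : GQ, σ • v₀ = ω σ • v₀ + b σ • c₀ := fun σ => by
    rw [← hb σ]; abel
  have hc : ∀ σ : GQ, σ • c₀ = c₀ := fun σ => hadm.fixed_sub σ c₀ hc₀C
  -- action on a general vector
  have hact : ∀ (σ : GQ) (a d : ZMod p),
      σ • (a • v₀ + d • c₀) = (a * ω σ) • v₀ + (a * b σ + d) • c₀ := by
    intro σ a d
    rw [smul_add, smul_comm σ a v₀, smul_comm σ d c₀, hv, hc, smul_add, smul_smul, smul_smul,
      add_smul]
    abel
  -- multiplicativity and the cocycle identity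
  have hmul : ∀ σ τ : GQ, ω (σ * τ) = ω τ * ω σ ∧ b (σ * τ) = ω τ * b σ + b τ := by
    intro σ τ
    have h1 : (σ * τ) • v₀ = (ω τ * ω σ) • v₀ + (ω τ * b σ + b τ) • c₀ := by
      rw [mul_smul, hv τ, hact]
    rw [hv (σ * τ)] at h1
    exact huniq h1
  have hone : ω 1 = 1 ∧ b 1 = 0 := by
    have h1 : (1 : GQ) • v₀ = (1 : ZMod p) • v₀ + (0 : ZMod p) • c₀ := by
      rw [one_smul, one_smul, zero_smul, add_zero]
    rw [hv 1] at h1
    exact huniq h1
  have hωne : ∀ σ : GQ, ω σ ≠ 0 := by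
    intro σ h0
    have h1 := (hmul σ⁻¹ σ).1
    rw [inv_mul_cancel, hone.1, h0, zero_mul] at h1
    exact one_ne_zero h1
  -- characterisation of the kernel
  have hker : ∀ σ : GQ, (ω σ = 1 ∧ b σ = 0) ↔ ∀ v : V, σ • v = v := by
    intro σ
    constructor
    · rintro ⟨h1, h2⟩ v
      obtain ⟨a, d, rfl⟩ := hF2 v
      rw [hact, h1, h2, mul_one, mul_zero, zero_add]
    · intro h
      have h1 : σ • v₀ = (1 : ZMod p) • v₀ + (0 : ZMod p) • c₀ := by
        rw [h v₀, one_smul, zero_smul, add_zero]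
      rw [hv σ] at h1
      exact huniq h1
  refine ⟨b, fun σ τ => (hmul σ τ).2, ?_, ?_, ?_, ?_⟩
  · -- non-vanishing on the kernel of `ω`
    by_contra hcon
    push Not at hcon
    apply hns
    -- `b (σ σ₀) = b (σ₀ σ)`
    have hcomm : ∀ σ σ₀ : GQ, b (σ * σ₀) = b (σ₀ * σ) := by
      intro σ σ₀
      set c : GQ := σ * σ₀ * (σ₀ * σ)⁻¹ with hcdef
      have hcg : c * (σ₀ * σ) = σ * σ₀ := by
        rw [hcdef, inv_mul_cancel_right]
      have h1 := hmul c (σ₀ * σ)
      rw [hcg] at h1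
      have hωc : ω c = 1 := by
        have h2 : ω (σ₀ * σ) * ω c = ω (σ₀ * σ) * 1 := by
          rw [← h1.1, mul_one, (hmul σ σ₀).1, (hmul σ₀ σ).1, mul_comm]
        exact mul_left_cancel₀ (hωne _) h2
      rw [h1.2, hcon c hωc, mul_zero, zero_add]
    have hrel : ∀ σ σ₀ : GQ, b σ * (ω σ₀ - 1) = b σ₀ * (ω σ - 1) := by
      intro σ σ₀
      have h1 := hcomm σ σ₀
      rw [(hmul σ σ₀).2, (hmul σ₀ σ).2] at h1
      linear_combination h1
    obtain ⟨x, hx⟩ : ∃ x : ZMod p, ∀ σ : GQ, b σ = (ω σ - 1) * x := by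
      by_cases hex : ∃ σ₀ : GQ, ω σ₀ ≠ 1
      · obtain ⟨σ₀, hσ₀⟩ := hex
        have hne : ω σ₀ - 1 ≠ 0 := sub_ne_zero.mpr hσ₀
        refine ⟨b σ₀ / (ω σ₀ - 1), fun σ => ?_⟩
        have := hrel σ σ₀
        field_simp
        linear_combination this
      · push Not at hex
        refine ⟨0, fun σ => ?_⟩
        rw [mul_zero]
        exact hcon σ (hex σ)
    -- the complement
    set w : V := v₀ + x • c₀ with hw
    have hσw : ∀ σ : GQ, σ • w = ω σ • w := by
      intro σ
      have h1 : w = (1 : ZMod p) • v₀ + x • c₀ := by rw [hw, one_smul]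
      rw [h1, hact, smul_add, smul_smul, smul_smul, one_mul, mul_one, hx σ]
      congr 2
      ring
    refine ⟨Submodule.span (ZMod p) {w}, ?_, ?_⟩
    · intro σ y hy
      obtain ⟨a, rfl⟩ := Submodule.mem_span_singleton.mp hy
      rw [smul_comm σ a w, hσw, smul_smul]
      exact Submodule.mem_span_singleton.mpr ⟨_, rfl⟩
    · rw [isCompl_iff]
      constructor
      · rw [Submodule.disjoint_def]
        intro y hyC hy
        obtain ⟨a, rfl⟩ := Submodule.mem_span_singleton.mp hy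
        have ha : a = 0 := by
          by_contra hane
          apply hv₀
          have h1 : v₀ = a⁻¹ • (a • w) - x • c₀ := by
            rw [smul_smul, inv_mul_cancel₀ hane, one_smul, hw]
            abel
          rw [h1]
          exact C.sub_mem (C.smul_mem _ hyC) (C.smul_mem _ hc₀C)
        rw [ha, zero_smul]
      · rw [Submodule.codisjoint_iff_exists_add_eq]
        intro v
        obtain ⟨a, d, rfl⟩ := hF2 v
        refine ⟨(d - a * x) • c₀, a • w, C.smul_mem _ hc₀C,
          Submodule.mem_span_singleton.mpr ⟨a, rfl⟩, ?_⟩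
        rw [hw, smul_add, smul_smul, sub_smul]
        abel
  · -- openness
    have hset : {σ : GQ | (ExtCitation.cycloExp p σ : ZMod p) = 1 ∧ b σ = 0} =
        {σ : GQ | ∀ v : V, σ • v = v} := by
      ext σ
      exact hker σ
    rw [hset]
    exact hadm.open_kernel
  · -- inertia outside `p`
    intro ℓ hℓ hℓp A hA τ hτ
    exact (hker τ).mpr (fun v => hadm.unramified_outside ℓ hℓ hℓp A hA τ hτ v)
  · -- decomposition group at `p`
    intro A hA τ hτ hωτ
    obtain ⟨C', hC'stab, hcompl⟩ := hadm.locally_split A hA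
    obtain ⟨c, w', hcC, hw'C', hsum⟩ :=
      Submodule.codisjoint_iff_exists_add_eq.mp hcompl.codisjoint v₀
    obtain ⟨x', rfl⟩ := hF1 c hcC
    have hw' : w' = (1 : ZMod p) • v₀ + (-x') • c₀ := by
      rw [one_smul, neg_smul, ← hsum]
      abel
    have h1 : τ • w' = w' + b τ • c₀ := by
      have hωτ' : ω τ = 1 := hωτ
      rw [hw', hact, hωτ', mul_one, one_mul, add_smul]
      abel
    have h2 : b τ • c₀ ∈ C' := by
      have h3 : b τ • c₀ = τ • w' - w' := by rw [h1]; abel
      rw [h3]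
      exact C'.sub_mem (hC'stab τ hτ w' hw'C') hw'C'
    have h4 : b τ • c₀ = 0 :=
      Submodule.disjoint_def.mp hcompl.disjoint _ (C.smul_mem _ hc₀C) h2
    rcases smul_eq_zero.mp h4 with h | h
    · exact h
    · exact absurd h hc₀

end Fermat.Agent.H73
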