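/-
P-S14, subtask S14-CORE3: the case `p = 3` of the core statement.
In `K = ℚ(ζ₃)` a singular element of the `ω²`-eigenspace is a cube.
-/
import Fermat.Agent.H13.S14Interfaces

set_option autoImplicit false

open scoped NumberField nonZeroDivisors

namespace Fermat.Agent.H73

open Polynomial Fermat.Agent.H13

section Aut

variable {K : Type} [Field K] [NumberField K] [IsCyclotomicExtension {3} ℚ K]

/-- The nontrivial automorphism of `ℚ(ζ₃)`. -/
theorem exists_aut_sq {ζ : K} (hζ : IsPrimitiveRoot ζ 3) : ∃ σ : K ≃ₐ[ℚ] K, σ ζ = ζ ^ 2 := by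
  have hirr : Irreducible (cyclotomic 3 ℚ) := cyclotomic.irreducible_rat (by norm_num)
  have hζ2 : IsPrimitiveRoot (ζ ^ 2) 3 := hζ.pow_of_coprime 2 (by decide)
  have h1 : minpoly ℚ (IsPrimitiveRoot.powerBasis ℚ hζ).gen =
      minpoly ℚ (IsPrimitiveRoot.powerBasis ℚ hζ2).gen := by
    rw [IsPrimitiveRoot.powerBasis_gen, IsPrimitiveRoot.powerBasis_gen,
      ← hζ.minpoly_eq_cyclotomic_of_irreducible hirr,
      ← hζ2.minpoly_eq_cyclotomic_of_irreducible hirr]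
  refine ⟨(IsPrimitiveRoot.powerBasis ℚ hζ).equivOfMinpoly (IsPrimitiveRoot.powerBasis ℚ hζ2) h1,
    ?_⟩
  have h2 := PowerBasis.equivOfMinpoly_gen (IsPrimitiveRoot.powerBasis ℚ hζ)
    (IsPrimitiveRoot.powerBasis ℚ hζ2) h1
  rw [IsPrimitiveRoot.powerBasis_gen, IsPrimitiveRoot.powerBasis_gen] at h2
  exact h2

/-- In `ℚ(ζ₃)`, `ζ ^ r` is not a cube unless `3 ∣ r`. -/
theorem three_dvd_of_pow_eq_cube {ζ : K} (hζ : IsPrimitiveRoot ζ 3) {r : ℕ} {ν : K}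
    (h : ζ ^ r = ν ^ 3) : 3 ∣ r := by
  have hν9 : ν ^ 9 = 1 := by
    have : ν ^ 9 = (ν ^ 3) ^ 3 := by ring
    rw [this, ← h, ← pow_mul, mul_comm, pow_mul, hζ.pow_eq_one, one_pow]
  have hfin : IsOfFinOrder ν := isOfFinOrder_iff_pow_eq_one.mpr ⟨9, by norm_num, hν9⟩
  obtain ⟨t, -, ht⟩ := hζ.exists_pow_or_neg_mul_pow_of_isOfFinOrder (by decide) hfin
  have hζ3 : ∀ t : ℕ, (ζ ^ t) ^ 3 = 1 := fun t => by
    rw [← pow_mul, mul_comm, pow_mul, hζ.pow_eq_one, one_pow]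
  rcases ht with ht | ht
  · rw [ht, hζ3] at h
    exact (hζ.pow_eq_one_iff_dvd r).mp h
  · have h3 : (-ζ ^ t) ^ 3 = -1 := by
      rw [neg_pow, hζ3]; norm_num
    rw [ht, h3] at h
    have h4 : ζ ^ (2 * r) = 1 := by
      rw [mul_comm, pow_mul, h]; norm_num
    have h5 : 3 ∣ 2 * r := (hζ.pow_eq_one_iff_dvd _).mp h4
    exact (Nat.Coprime.dvd_mul_left (by decide : Nat.Coprime 3 2)).mp h5

/-- Every unit of `𝓞 ℚ(ζ₃)` is `± ζ ^ r`. -/
theorem unit_eq_pow_or_neg_pow {ζ : K} (hζ : IsPrimitiveRoot ζ 3) (u : (𝓞 K)ˣ) :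
    ∃ r : ℕ, ((u : 𝓞 K) : K) = ζ ^ r ∨ ((u : 𝓞 K) : K) = -ζ ^ r := by
  have hmem := IsCyclotomicExtension.Rat.Three.Units.mem hζ u
  have hη : (((IsPrimitiveRoot.isUnit (hζ.toInteger_isPrimitiveRoot) (by decide)).unit :
      (𝓞 K)ˣ) : 𝓞 K) = hζ.toInteger := rfl
  have hcoe : ((hζ.toInteger : 𝓞 K) : K) = ζ := rfl
  simp only [List.mem_cons, List.not_mem_nil, or_false] at hmem
  rcases hmem with h | h | h | h | h | h
  · exact ⟨0, Or.inl (by rw [h]; simp)⟩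
  · exact ⟨0, Or.inr (by rw [h]; simp)⟩
  · exact ⟨1, Or.inl (by rw [h, hη, hcoe, pow_one])⟩
  · refine ⟨1, Or.inr ?_⟩
    rw [h, Units.val_neg, hη]
    simp [hcoe]
  · refine ⟨2, Or.inl ?_⟩
    rw [h, Units.val_pow_eq_pow_val, hη]
    simp [hcoe]
  · refine ⟨2, Or.inr ?_⟩
    rw [h, Units.val_neg, Units.val_pow_eq_pow_val, hη]
    simp [hcoe]

/-- Algebraic heart of CORE3: `α = w μ³` with `w` a unit, in the `ω²`-eigenspace, is a cube. -/
theorem cube_of_unit_mul_cube {ζ : K} (hζ : IsPrimitiveRoot ζ 3) {α μ : K} (hα : α ≠ 0)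
    (w : (𝓞 K)ˣ) (hw : α = ((w : 𝓞 K) : K) * μ ^ 3) (heig : IsOmegaSqElt 3 ζ α) :
    ∃ β : K, α = β ^ 3 := by
  obtain ⟨r, hr⟩ := unit_eq_pow_or_neg_pow hζ w
  -- write `α = ζ ^ r * μ' ^ 3`
  obtain ⟨μ', hμ'⟩ : ∃ μ' : K, α = ζ ^ r * μ' ^ 3 := by
    rcases hr with hr | hr
    · exact ⟨μ, by rw [hw, hr]⟩
    · exact ⟨-μ, by rw [hw, hr]; ring⟩
  have hμ'0 : μ' ≠ 0 := by
    rintro rfl
    apply hα
    rw [hμ']
    simp
  obtain ⟨σ, hσ⟩ := exists_aut_sq hζ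
  obtain ⟨κ, hκ⟩ := heig σ 2 hσ
  have hσα : σ α ≠ 0 := (map_ne_zero σ).mpr hα
  have hκ0 : κ ≠ 0 := by
    rintro rfl
    apply hσα
    rw [hκ]
    simp
  -- compare
  have h1 : σ α = ζ ^ (2 * r) * (σ μ') ^ 3 := by
    rw [hμ', map_mul, map_pow, map_pow, hσ, ← pow_mul]
  have hζ3 : ζ ^ 3 = 1 := hζ.pow_eq_one
  have h2 : α ^ (2 ^ 2) * κ ^ 3 = ζ ^ r * (ζ ^ r * μ' ^ 4 * κ) ^ 3 := by
    rw [hμ']
    have : (ζ ^ r) ^ 3 = 1 := by rw [← pow_mul, mul_comm, pow_mul, hζ3, one_pow]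
    calc (ζ ^ r * μ' ^ 3) ^ (2 ^ 2) * κ ^ 3
        = ζ ^ r * ((ζ ^ r) ^ 3 * (μ' ^ 4 * κ) ^ 3) := by ring
      _ = ζ ^ r * (1 * (μ' ^ 4 * κ) ^ 3) := by rw [this]
      _ = ζ ^ r * ((ζ ^ r) ^ 3 * (μ' ^ 4 * κ) ^ 3) := by rw [this]
      _ = ζ ^ r * (ζ ^ r * μ' ^ 4 * κ) ^ 3 := by ring
  have hden : ζ ^ r * μ' ^ 4 * κ ≠ 0 :=
    mul_ne_zero (mul_ne_zero (pow_ne_zero _ (hζ.ne_zero (by norm_num))) (pow_ne_zero _ hμ'0)) hκ0
  have hσμ : σ μ' ≠ 0 := (map_ne_zero σ).mpr hμ'0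
  -- `ζ ^ r = ((ζ^r μ'^4 κ) / σ μ')^3 * ζ^(2r) / ... ` ; get `ζ ^ r` as a cube
  have h3 : ζ ^ r * (ζ ^ r * μ' ^ 4 * κ) ^ 3 = ζ ^ (2 * r) * (σ μ') ^ 3 := by
    rw [← h2, ← hκ, h1]
  have h4 : ζ ^ r = (ζ ^ r * μ' ^ 4 * κ / σ μ') ^ 3 := by
    have hζr : ζ ^ r ≠ 0 := pow_ne_zero _ (hζ.ne_zero (by norm_num))
    have h5 : ζ ^ (2 * r) = ζ ^ r * ζ ^ r := by rw [two_mul, pow_add]
    rw [h5] at h3
    have h6 : (ζ ^ r * μ' ^ 4 * κ) ^ 3 = ζ ^ r * (σ μ') ^ 3 := by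
      apply mul_left_cancel₀ hζr
      rw [h3]; ring
    rw [div_pow, h6]
    field_simp
  have hdvd : 3 ∣ r := three_dvd_of_pow_eq_cube hζ h4
  have hζr1 : ζ ^ r = 1 := (hζ.pow_eq_one_iff_dvd r).mpr hdvd
  exact ⟨μ', by rw [hμ', hζr1, one_mul]⟩

end Aut

section Singular

variable {K : Type} [Field K] [NumberField K]

/-- In a number field whose ring of integers is a PID, a singular element (for the exponent `n`)
is a unit times an `n`-th power. -/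
theorem exists_unit_mul_pow_of_isSingular [IsPrincipalIdealRing (𝓞 K)] (n : ℕ) (hn : 0 < n)
    {α : K} (hα : α ≠ 0) (hsing : IsSingular n α) :
    ∃ (w : (𝓞 K)ˣ) (μ : K), α = algebraMap (𝓞 K) K (w : 𝓞 K) * μ ^ n := by
  classical
  have hinj : Function.Injective (algebraMap (𝓞 K) K) := IsFractionRing.injective (𝓞 K) K
  have hcoe0 : ∀ z : 𝓞 K, z ≠ 0 → (algebraMap (𝓞 K) K z) ≠ 0 := fun z hz h =>
    hz (hinj (by rw [h, map_zero]))
  obtain ⟨a, b, hb, hab⟩ := IsFractionRing.div_surjective (A := 𝓞 K) α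
  have hb0 : b ≠ 0 := nonZeroDivisors.ne_zero hb
  have hbK : algebraMap (𝓞 K) K b ≠ 0 := hcoe0 b hb0
  have ha0 : a ≠ 0 := by
    rintro rfl
    apply hα
    rw [← hab]
    simp
  -- main case `0 < n`
  obtain ⟨m, rfl⟩ : ∃ m, n = m + 1 := ⟨n - 1, by omega⟩
  set x : 𝓞 K := a * b ^ m with hx
  have hx0 : x ≠ 0 := mul_ne_zero ha0 (pow_ne_zero _ hb0)
  have hαx : α * (algebraMap (𝓞 K) K b) ^ (m + 1) = algebraMap (𝓞 K) K x := by
    rw [hx, map_mul, map_pow, ← hab, pow_succ]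
    field_simp
  have hcount : ∀ p : Associates (𝓞 K), Irreducible p →
      (m + 1) ∣ p.count (Associates.mk x).factors := by
    intro p hp
    obtain ⟨π, rfl⟩ := Associates.mk_surjective p
    have hπirr : Irreducible π := Associates.irreducible_mk.mp hp
    have hπ : Prime π := UniqueFactorizationMonoid.irreducible_iff_prime.mp hπirr
    have hP : (Ideal.span {π} : Ideal (𝓞 K)).IsPrime :=
      (Ideal.span_singleton_prime hπ.ne_zero).mpr hπ
    have hPbot : (Ideal.span {π} : Ideal (𝓞 K)) ≠ ⊥ := by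
      rw [Ne, Ideal.span_singleton_eq_bot]
      exact hπ.ne_zero
    obtain ⟨β, hβ, y₁, y₂, hy₁, hy₂, hrel⟩ := hsing _ hP hPbot
    rw [Ideal.mem_span_singleton] at hy₁ hy₂
    have hy₁0 : y₁ ≠ 0 := fun h => hy₁ (h ▸ dvd_zero π)
    have hy₂0 : y₂ ≠ 0 := fun h => hy₂ (h ▸ dvd_zero π)
    obtain ⟨c, e, he, hce⟩ := IsFractionRing.div_surjective (A := 𝓞 K) β
    have he0 : e ≠ 0 := nonZeroDivisors.ne_zero he
    have heK : algebraMap (𝓞 K) K e ≠ 0 := hcoe0 e he0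
    have hc0 : c ≠ 0 := by
      rintro rfl
      apply hβ
      rw [← hce]
      simp
    have hrel' : x * c ^ (m + 1) * y₂ = y₁ * (b * e) ^ (m + 1) := by
      apply hinj
      simp only [map_mul, map_pow]
      rw [← hαx]
      have h2 : α * β ^ (m + 1) * (algebraMap (𝓞 K) K y₂) = algebraMap (𝓞 K) K y₁ := hrel
      rw [← h2, ← hce, div_pow]
      field_simp
      ring
    have hcm : c ^ (m + 1) ≠ 0 := pow_ne_zero _ hc0
    have hbe : b * e ≠ 0 := mul_ne_zero hb0 he0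
    have h1 := congrArg (fun z => (Associates.mk π).count (Associates.mk z).factors) hrel'
    simp only [Associates.mk_mul_mk.symm, Associates.mk_pow] at h1
    rw [Associates.count_mul (mul_ne_zero (Associates.mk_ne_zero.mpr hx0)
        (pow_ne_zero _ (Associates.mk_ne_zero.mpr hc0))) (Associates.mk_ne_zero.mpr hy₂0) hp,
      Associates.count_mul (Associates.mk_ne_zero.mpr hx0)
        (pow_ne_zero _ (Associates.mk_ne_zero.mpr hc0)) hp,
      Associates.count_pow (Associates.mk_ne_zero.mpr hc0) hp,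
      Associates.count_mul (Associates.mk_ne_zero.mpr hy₁0)
        (pow_ne_zero _ (mul_ne_zero (Associates.mk_ne_zero.mpr hb0)
          (Associates.mk_ne_zero.mpr he0))) hp,
      Associates.count_pow (mul_ne_zero (Associates.mk_ne_zero.mpr hb0)
          (Associates.mk_ne_zero.mpr he0)) hp] at h1
    have hz₁ : (Associates.mk π).count (Associates.mk y₁).factors = 0 := by
      by_contra hne
      exact hy₁ ((Associates.count_ne_zero_iff_dvd hy₁0 hπirr).mp hne)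
    have hz₂ : (Associates.mk π).count (Associates.mk y₂).factors = 0 := by
      by_contra hne
      exact hy₂ ((Associates.count_ne_zero_iff_dvd hy₂0 hπirr).mp hne)
    rw [hz₁, hz₂, add_zero, zero_add] at h1
    -- `count x + (m+1) * A = (m+1) * B`
    have h3 : (Associates.mk π).count (Associates.mk x).factors =
        (m + 1) * (Associates.mk π).count (Associates.mk b * Associates.mk e).factors -
          (m + 1) * (Associates.mk π).count (Associates.mk c).factors := by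
      omega
    rw [h3, ← Nat.mul_sub]
    exact Dvd.intro _ rfl
  obtain ⟨B, hB⟩ := Associates.is_pow_of_dvd_count (Associates.mk_ne_zero.mpr hx0) hcount
  obtain ⟨d, rfl⟩ := Associates.mk_surjective B
  rw [← Associates.mk_pow] at hB
  obtain ⟨u, hu⟩ := Associates.mk_eq_mk_iff_associated.mp hB
  -- `x * u = d ^ (m+1)`
  refine ⟨u⁻¹, algebraMap (𝓞 K) K d / algebraMap (𝓞 K) K b, ?_⟩
  have huinv : algebraMap (𝓞 K) K ((u⁻¹ : (𝓞 K)ˣ) : 𝓞 K) * algebraMap (𝓞 K) K (u : 𝓞 K) = 1 := by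
    rw [← map_mul]
    simp
  have hxu : algebraMap (𝓞 K) K x * algebraMap (𝓞 K) K (u : 𝓞 K) =
      (algebraMap (𝓞 K) K d) ^ (m + 1) := by
    rw [← map_mul, hu, map_pow]
  have hbpow : (algebraMap (𝓞 K) K b) ^ (m + 1) ≠ 0 := pow_ne_zero _ hbK
  have hα' : α = algebraMap (𝓞 K) K x / (algebraMap (𝓞 K) K b) ^ (m + 1) := by
    rw [← hαx]
    field_simp
  rw [hα', div_pow, ← hxu]
  field_simp
  linear_combination (-(algebraMap (𝓞 K) K x)) * huinv

end Singular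

/-- **CORE3** (unconditional). -/
theorem core3 : Core3Statement := by
  intro K _ _ _ ζ hζ α hα hsing heig
  haveI : IsPrincipalIdealRing (𝓞 K) := IsCyclotomicExtension.Rat.three_pid K
  obtain ⟨w, μ, hw⟩ := exists_unit_mul_pow_of_isSingular 3 (by norm_num) hα hsing
  exact cube_of_unit_mul_cube hζ hα w hw heig

/-- **CORE3**, assuming the bridge `C1` (`SingularIdealStatement`). -/
theorem core3_of_singularIdeal (hC1 : SingularIdealStatement) : Core3Statement := by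
  intro K _ _ _ ζ hζ α hα hsing heig
  haveI : Fact (Nat.Prime 3) := ⟨Nat.prime_three⟩
  haveI : IsPrincipalIdealRing (𝓞 K) := IsCyclotomicExtension.Rat.three_pid K
  obtain ⟨I, hI⟩ := hC1 3 K α hα hsing
  obtain ⟨μ, hμ⟩ :=
    (FractionalIdeal.isPrincipal_iff (I : FractionalIdeal (𝓞 K)⁰ K)).mp inferInstance
  have h1 : FractionalIdeal.spanSingleton (𝓞 K)⁰ α =
      FractionalIdeal.spanSingleton (𝓞 K)⁰ (μ ^ 3) := by
    rw [hI, Units.val_pow_eq_pow_val, hμ, FractionalIdeal.spanSingleton_pow]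
  obtain ⟨u, hu⟩ := FractionalIdeal.spanSingleton_eq_spanSingleton.mp h1
  -- `hu : u • α = μ ^ 3`
  have hu' : ((u : 𝓞 K) : K) * α = μ ^ 3 := by
    rw [← hu]
    rfl
  have huinv : (((u⁻¹ : (𝓞 K)ˣ) : 𝓞 K) : K) * ((u : 𝓞 K) : K) = 1 := by
    rw [← map_mul (algebraMap (𝓞 K) K)]
    simp
  have hw : α = (((u⁻¹ : (𝓞 K)ˣ) : 𝓞 K) : K) * μ ^ 3 := by
    rw [← hu', ← mul_assoc, huinv, one_mul]
  exact cube_of_unit_mul_cube hζ hα u⁻¹ hw heig

end Fermat.Agent.H73
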