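import Fermat.Agent.H72.FDT.Interfaces
import Fermat.Agent.H62.IdealZeta
import Fermat.Agent.H15.S14Neg

/-!
# P-FDT, row FDT-A (helper73): the degree-one prime count

For a number field `M` and a finite set `S` of natural numbers,
`∑_{ℓ ∉ S prime} #{u prime of M : N(u) = ℓ} · ℓ^(-s) = log (1/(s-1)) + O(1)` as `s → 1⁺`.

Proof: `exp P(s) ≤ ζ_M(s) ≤ exp (P(s) + 2 P(2))` for the prime zeta sum `P(s) = ∑_v N(v)^(-s)`
(helper62), `(s-1) ζ_M(s) → ρ > 0`, and the primes of non-prime norm or of norm in `S`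
contribute a bounded amount (helper15).
-/

set_option autoImplicit false

open Filter Topology IsDedekindDomain NumberField Ideal

namespace Fermat.Agent.H73

variable (M : Type) [Field M] [NumberField M]

/-- The set of primes of `M` of prime norm outside `S` (degree-one primes away from `S`). -/
def goodPrimes (S : Finset ℕ) : Set (HeightOneSpectrum (𝓞 M)) :=
  {v | (absNorm v.asIdeal).Prime ∧ absNorm v.asIdeal ∉ S}

/-- The primes outside `goodPrimes` are negligible: `∑ 1/N(v)` converges. -/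
theorem summable_compl_goodPrimes (S : Finset ℕ) :
    Summable (fun v : ((goodPrimes M S)ᶜ : Set (HeightOneSpectrum (𝓞 M))) =>
      Fermat.Agent.H62.primeTerm M 1 v.1) := by
  classical
  set f : HeightOneSpectrum (𝓞 M) → ℝ := fun v => Fermat.Agent.H62.primeTerm M 1 v with hf
  have hf0 : ∀ v, 0 ≤ f v := fun v => (Fermat.Agent.H62.primeTerm_pos M 1 v).le
  have hfinv : ∀ v, f v = ((absNorm v.asIdeal : ℝ))⁻¹ := by
    intro v
    simp only [hf, Fermat.Agent.H62.primeTerm]
    rw [Real.rpow_neg_one]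
  let T : ℕ → Set (HeightOneSpectrum (𝓞 M)) :=
    fun p => {v | ¬ (absNorm v.asIdeal).Prime ∨ absNorm v.asIdeal = p}
  have hT : ∀ p, Summable ((T p).indicator f) := by
    intro p
    rw [← summable_subtype_iff_indicator]
    have h := Fermat.Agent.H15.summable_inv_absNorm_not_degOne M p
    refine h.congr ?_
    intro v
    simp only [Function.comp_apply]
    exact (hfinv v.1).symm
  have hsum : Summable (fun v => (T 0).indicator f v + ∑ p ∈ S, (T p).indicator f v) :=
    (hT 0).add (summable_sum fun p _ => hT p)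
  have hind : Summable ((goodPrimes M S)ᶜ.indicator f) := by
    refine Summable.of_nonneg_of_le (fun v => Set.indicator_nonneg (fun v _ => hf0 v) v) ?_ hsum
    intro v
    by_cases hv : v ∈ (goodPrimes M S)ᶜ
    · rw [Set.indicator_of_mem hv]
      have hv' : ¬ ((absNorm v.asIdeal).Prime ∧ absNorm v.asIdeal ∉ S) := hv
      by_cases hprime : (absNorm v.asIdeal).Prime
      · have hS : absNorm v.asIdeal ∈ S := by
          by_contra h
          exact hv' ⟨hprime, h⟩
        have h1 : 0 ≤ (T 0).indicator f v := Set.indicator_nonneg (fun v _ => hf0 v) v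
        have h2 : f v ≤ ∑ p ∈ S, (T p).indicator f v := by
          have hmem : v ∈ T (absNorm v.asIdeal) := Or.inr rfl
          have h3 : (T (absNorm v.asIdeal)).indicator f v = f v := Set.indicator_of_mem hmem f
          rw [← h3]
          exact Finset.single_le_sum (f := fun p => (T p).indicator f v)
            (fun p _ => Set.indicator_nonneg (fun v _ => hf0 v) v) hS
        linarith
      · have hmem : v ∈ T 0 := Or.inl hprime
        rw [Set.indicator_of_mem hmem]
        have h2 : 0 ≤ ∑ p ∈ S, (T p).indicator f v :=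
          Finset.sum_nonneg fun p _ => Set.indicator_nonneg (fun v _ => hf0 v) v
        linarith
    · rw [Set.indicator_of_notMem hv]
      have h1 : 0 ≤ (T 0).indicator f v := Set.indicator_nonneg (fun v _ => hf0 v) v
      have h2 : 0 ≤ ∑ p ∈ S, (T p).indicator f v :=
        Finset.sum_nonneg fun p _ => Set.indicator_nonneg (fun v _ => hf0 v) v
      linarith
  exact summable_subtype_iff_indicator.mpr hind

/-- The fibres of the norm on primes are finite. -/
instance finite_primes_absNorm_eq (n : ℕ) :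
    Finite {u : HeightOneSpectrum (𝓞 M) // absNorm u.asIdeal = n} := by
  have hfin : {I : Ideal (𝓞 M) | absNorm I = n}.Finite := Ideal.finite_setOfPred_absNorm_eq n
  have : Finite {I : Ideal (𝓞 M) // absNorm I = n} := hfin
  refine Finite.of_injective
    (fun u : {u : HeightOneSpectrum (𝓞 M) // absNorm u.asIdeal = n} =>
      (⟨u.1.asIdeal, u.2⟩ : {I : Ideal (𝓞 M) // absNorm I = n})) ?_
  intro u w h
  have h' : u.1.asIdeal = w.1.asIdeal := congrArg Subtype.val h
  exact Subtype.ext (HeightOneSpectrum.ext h')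

/-- Regrouping of the sum over the good primes by their norm. -/
noncomputable def goodPrimesEquiv (S : Finset ℕ) :
    (goodPrimes M S) ≃
      (Σ ℓ : {ℓ : ℕ // ℓ.Prime ∧ ℓ ∉ S},
        {u : HeightOneSpectrum (𝓞 M) // absNorm u.asIdeal = (ℓ : ℕ)}) where
  toFun v := ⟨⟨absNorm v.1.asIdeal, v.2⟩, ⟨v.1, rfl⟩⟩
  invFun x := ⟨x.2.1, by
    show (absNorm x.2.1.asIdeal).Prime ∧ absNorm x.2.1.asIdeal ∉ S
    rw [x.2.2]
    exact x.1.2⟩
  left_inv v := rfl
  right_inv := by
    rintro ⟨⟨ℓ, hℓ⟩, ⟨u, hu⟩⟩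
    have hu' : absNorm u.asIdeal = ℓ := hu
    subst hu'
    rfl

theorem tsum_goodPrimes_eq (S : Finset ℕ) {s : ℝ} (hs : 1 < s) :
    ∑' v : (goodPrimes M S), Fermat.Agent.H62.primeTerm M s v.1 =
      ∑' ℓ : {ℓ : ℕ // ℓ.Prime ∧ ℓ ∉ S},
        (Nat.card {u : HeightOneSpectrum (𝓞 M) // absNorm u.asIdeal = (ℓ : ℕ)} : ℝ) *
          ((ℓ : ℕ) : ℝ) ^ (-s) := by
  set g : (Σ ℓ : {ℓ : ℕ // ℓ.Prime ∧ ℓ ∉ S},
      {u : HeightOneSpectrum (𝓞 M) // absNorm u.asIdeal = (ℓ : ℕ)}) → ℝ :=
    fun x => Fermat.Agent.H62.primeTerm M s x.2.1 with hg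
  have h1 : ∑' v : (goodPrimes M S), Fermat.Agent.H62.primeTerm M s v.1 = ∑' x, g x := by
    rw [← (goodPrimesEquiv M S).tsum_eq g]
    rfl
  have hsum : Summable g := by
    have h0 : Summable (fun v : (goodPrimes M S) => Fermat.Agent.H62.primeTerm M s v.1) :=
      (Fermat.Agent.H62.summable_primeTerm M hs).subtype _
    have h2 : Summable (fun v : (goodPrimes M S) => g (goodPrimesEquiv M S v)) := h0
    exact (goodPrimesEquiv M S).summable_iff.mp h2
  rw [h1, hsum.tsum_sigma]
  refine tsum_congr fun ℓ => ?_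
  have h3 : ∀ u : {u : HeightOneSpectrum (𝓞 M) // absNorm u.asIdeal = (ℓ : ℕ)},
      g ⟨ℓ, u⟩ = ((ℓ : ℕ) : ℝ) ^ (-s) := by
    intro u
    simp only [hg, Fermat.Agent.H62.primeTerm]
    rw [u.2]
  rw [tsum_congr h3, tsum_const, nsmul_eq_mul]

/-- **(FDT-A)** the degree-one prime count. -/
theorem degOneCountStatement : Fermat.Agent.H72.DegOneCountStatement := by
  intro M _ _ S
  set ρ := dedekindZeta_residue M with hρ
  have hρpos : 0 < ρ := dedekindZeta_residue_pos M
  set P2 := Fermat.Agent.H62.primeZetaSum M 2 with hP2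
  set C2 := ∑' v : ((goodPrimes M S)ᶜ : Set (HeightOneSpectrum (𝓞 M))),
    Fermat.Agent.H62.primeTerm M 1 v.1 with hC2
  refine ⟨|Real.log (2 * ρ)| + (|Real.log (ρ / 2)| + 2 * P2) + C2, ?_⟩
  filter_upwards [Fermat.Agent.H62.eventually_idealZeta_bounds M, self_mem_nhdsWithin]
    with s hb hs
  have hs1 : (1 : ℝ) < s := hs
  have hs0 : 0 < s - 1 := by linarith
  have hζpos := Fermat.Agent.H62.idealZeta_pos M hs1
  set ζ := Fermat.Agent.H62.idealZeta M s with hζ
  set P := Fermat.Agent.H62.primeZetaSum M s with hP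
  have hP2nn : 0 ≤ P2 := Fermat.Agent.H62.primeZetaSum_nonneg M 2
  -- Step 1: P = log (1/(s-1)) + O(1)
  have h1 : P ≤ Real.log ζ :=
    (Real.le_log_iff_exp_le hζpos).mpr (Fermat.Agent.H62.exp_primeZetaSum_le M hs1)
  have h2 : Real.log ζ ≤ P + 2 * P2 :=
    (Real.log_le_iff_le_exp hζpos).mpr (Fermat.Agent.H62.idealZeta_le_exp M hs1)
  have hlog : Real.log ζ = Real.log ((s - 1) * ζ) + Real.log (1 / (s - 1)) := by
    rw [← Real.log_mul (mul_pos hs0 hζpos).ne' (one_div_pos.mpr hs0).ne']
    congr 1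
    field_simp
  have h3 : Real.log ((s - 1) * ζ) ≤ Real.log (2 * ρ) :=
    Real.log_le_log (mul_pos hs0 hζpos) hb.2
  have h4 : Real.log (ρ / 2) ≤ Real.log ((s - 1) * ζ) :=
    Real.log_le_log (by positivity) hb.1
  -- Step 2: split the prime zeta sum
  have hsumP := Fermat.Agent.H62.summable_primeTerm M hs1
  have hsplit := hsumP.tsum_subtype_add_tsum_subtype_compl (goodPrimes M S)
  set A := ∑' v : (goodPrimes M S), Fermat.Agent.H62.primeTerm M s v.1 with hA
  set B := ∑' v : ((goodPrimes M S)ᶜ : Set (HeightOneSpectrum (𝓞 M))),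
    Fermat.Agent.H62.primeTerm M s v.1 with hB
  have hAB : A + B = P := hsplit
  have hB0 : 0 ≤ B := tsum_nonneg fun v => (Fermat.Agent.H62.primeTerm_pos M s v.1).le
  have hBC : B ≤ C2 := by
    refine Summable.tsum_le_tsum (fun v => Fermat.Agent.H62.primeTerm_anti M hs1.le v.1) ?_
      (summable_compl_goodPrimes M S)
    exact hsumP.subtype _
  have hC2nn : 0 ≤ C2 := hB0.trans hBC
  -- Step 3: regroup
  rw [← tsum_goodPrimes_eq M S hs1]
  have hAeq : A = P - B := by linarith
  rw [← hA, abs_le]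
  have e1 := le_abs_self (Real.log (2 * ρ))
  have e2 := neg_abs_le (Real.log (ρ / 2))
  have e3 := abs_nonneg (Real.log (2 * ρ))
  have e4 := abs_nonneg (Real.log (ρ / 2))
  constructor <;> linarith

end Fermat.Agent.H73
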