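/-
P-DIM (S20), subtask AS-1: existence of a free homogeneous generating system of
`M_*(Γ₀(N))` over `M_*(SL₂(ℤ))` (glue of the abstract free-module lemma with the
analytic inputs: level-one structure, regular sequence `E₄, E₆`, finite dimensionality).
-/
import Fermat.Agent.H19.Gens
import Fermat.Agent.H7.DimBridge
import Fermat.Agent.H80.GradedFree
import Fermat.Agent.H79.RegularSeq
import Fermat.Agent.H96.LevelOneStructure

set_option autoImplicit false

namespace Fermat.Agent.H73

open UpperHalfPlane ModularForm CongruenceSubgroup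
open scoped MatrixGroups Manifold

open Fermat.Agent.H19 Fermat.Agent.H7

/-- There is a free homogeneous generating system of the graded module `M_*(Γ₀(N))` over the
graded ring `M_*(SL₂(ℤ))`. -/
theorem exists_isGens (N : ℕ) [NeZero N] :
    ∃ (J : Type) (k : J → ℤ) (f : J → ℍ → ℂ), IsGens N J k f := by
  obtain ⟨J, k, f, hnonneg, hmem, hgen, huniq⟩ :=
    Fermat.Agent.H80.exists_free_generators (A := ℍ → ℂ)
      (fun K => MFsub N K) (fun m => MFsub 1 m) (⇑E₄) (⇑E₆)
      -- hR0
      (by
        intro r hr
        obtain ⟨c, hc⟩ := IsMF.eq_const_of_weight_zero (N := 1) hr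
        refine ⟨c, ?_⟩
        rw [hc]
        rfl)
      -- hRneg
      (by
        intro m hm
        rw [eq_bot_iff]
        intro r hr
        rw [Submodule.mem_bot]
        exact IsMF.eq_zero_of_neg (N := 1) hm hr)
      -- hMneg
      (by
        intro K hK
        rw [eq_bot_iff]
        intro r hr
        rw [Submodule.mem_bot]
        exact IsMF.eq_zero_of_neg (N := N) hK hr)
      -- hRR
      (by
        intro m n a ha b hb
        exact IsMF.mul (N := 1) ha hb)
      -- hRM
      (by
        intro m K r hr φ hφ
        exact IsMF.mul (N := N) hr hφ)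
      -- h1
      (IsMF.const 1 1)
      -- he4
      (isMF_one_coe E₄)
      -- he6
      (isMF_one_coe E₆)
      -- hRdecomp
      (by
        intro m hm r hr
        obtain ⟨F, hF⟩ := (isMF_one_iff m r).mp hr
        obtain ⟨a, b, hab⟩ := Fermat.Agent.H96.levelOne_decomp hm F
        refine ⟨⇑a, isMF_one_coe a, ⇑b, isMF_one_coe b, ?_⟩
        rw [← hF]
        funext z
        exact hab z)
      -- hfin
      (fun K => finiteDimensional_MFsub N K)
      -- hreg4
      (by
        intro K φ hφ h
        exact Fermat.Agent.H79.E4_mul_eq_zero (N := N) (k := K) hφ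
          (fun z => congrFun h z))
      -- hreg6
      (by
        intro K φ hφ ψ hψ h
        obtain ⟨χ, hχ, hφχ⟩ := Fermat.Agent.H79.regular_E4_E6 (N := N) K hφ hψ
          (fun z => congrFun h z)
        exact ⟨χ, hχ, funext hφχ⟩)
  exact ⟨J, k, f, ⟨hnonneg, hmem, hgen, huniq⟩⟩

end Fermat.Agent.H73
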