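/-
helper73 (P-FF, row 557, FF-D-SEP): `EqvSeparatesStatement`.

`G_ℚ`-equivariant functions `Z → ℚ̄` separate the points of a finite smooth `G_ℚ`-set `Z`.
-/
import Fermat.Agent.H68.FFD.Interfaces

set_option autoImplicit false
set_option linter.style.haveILetI false

noncomputable section

namespace Fermat.Agent.H73.FFDSep

open Fermat.Agent.H10.FF Fermat.Agent.H72.FF Fermat.Agent.H68.FFD

/-- `ℚ̄ / ℚ` is Galois (for the algebra instance found by instance search). -/
theorem isGalois_Qbar_ffd : IsGalois ℚ (AlgebraicClosure ℚ) := by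
  have h : (DivisionRing.toRatAlgebra : Algebra ℚ (AlgebraicClosure ℚ)) =
      AlgebraicClosure.instAlgebra ℚ := Subsingleton.elim _ _
  rw [h]
  infer_instance

/-- An open subgroup `H` of `G_ℚ` is the fixing subgroup of its fixed field: an element outside
`H` moves some element fixed by `H`. -/
theorem exists_fixed_moved (H : Subgroup GQ) (hH : IsOpen (H : Set GQ)) (τ : GQ) (hτ : τ ∉ H) :
    ∃ α : Qb, (∀ σ ∈ H, σ α = α) ∧ τ α ≠ α := by
  haveI := isGalois_Qbar_ffd
  have hcl : IsClosed (H : Set GQ) := Subgroup.isClosed_of_isOpen H hH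
  have hfix := InfiniteGalois.fixingSubgroup_fixedField (k := ℚ) (K := Qb) ⟨H, hcl⟩
  by_contra hcon
  push Not at hcon
  apply hτ
  have : τ ∈ (IntermediateField.fixedField H).fixingSubgroup := by
    rw [IntermediateField.mem_fixingSubgroup_iff]
    intro x hx
    apply hcon x
    intro σ hσ
    exact (IntermediateField.mem_fixedField_iff H x).mp hx σ hσ
  have h2 : τ ∈ (⟨H, hcl⟩ : ClosedSubgroup GQ).toSubgroup := by
    rw [← hfix]
    exact this
  exact h2

/-- The stabiliser of a point of a smooth `G_ℚ`-set is open. -/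
theorem isOpen_stabilizer {Z : Type} [MulAction GQ Z] (hs : IsSmoothOn (Set.univ : Set Z))
    (z : Z) : IsOpen ((MulAction.stabilizer GQ z : Subgroup GQ) : Set GQ) := by
  obtain ⟨E, hE, hfix⟩ := hs
  haveI := hE
  have hle : E.fixingSubgroup ≤ MulAction.stabilizer GQ z := by
    intro σ hσ
    rw [MulAction.mem_stabilizer_iff]
    exact hfix σ ((IntermediateField.mem_fixingSubgroup_iff E σ).mp hσ) z (Set.mem_univ z)
  exact Subgroup.isOpen_mono hle (IntermediateField.fixingSubgroup_isOpen E)

/-- **FF-D-SEP.** -/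
theorem eqvSeparates : EqvSeparatesStatement := by
  intro Z _ _ hs z z' hzz'
  classical
  by_cases horb : z' ∈ MulAction.orbit GQ z
  · -- `z' = τ • z`
    obtain ⟨τ, hτ⟩ := MulAction.mem_orbit_iff.mp horb
    have hτH : τ ∉ MulAction.stabilizer GQ z := by
      intro h
      apply hzz'
      rw [← hτ]
      exact (MulAction.mem_stabilizer_iff.mp h).symm
    obtain ⟨α, hα, hτα⟩ := exists_fixed_moved (MulAction.stabilizer GQ z)
      (isOpen_stabilizer hs z) τ hτH
    -- the value at `σ • z` is `σ α`
    have hwd : ∀ σ σ' : GQ, σ • z = σ' • z → σ α = σ' α := by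
      intro σ σ' h
      have hmem : σ'⁻¹ * σ ∈ MulAction.stabilizer GQ z := by
        rw [MulAction.mem_stabilizer_iff, mul_smul, h, inv_smul_smul]
      have := hα _ hmem
      rw [AlgEquiv.mul_apply] at this
      have h2 := congrArg σ' this
      rw [← AlgEquiv.mul_apply, mul_inv_cancel, AlgEquiv.one_apply] at h2
      exact h2
    let f : Z → Qb := fun w =>
      if h : w ∈ MulAction.orbit GQ z then (MulAction.mem_orbit_iff.mp h).choose α else 0
    have hf : ∀ σ : GQ, f (σ • z) = σ α := by
      intro σ
      have hmem : σ • z ∈ MulAction.orbit GQ z := MulAction.mem_orbit z σ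
      simp only [f, dif_pos hmem]
      exact hwd _ _ (MulAction.mem_orbit_iff.mp hmem).choose_spec
    refine ⟨f, ?_, ?_⟩
    · intro σ w
      by_cases hw : w ∈ MulAction.orbit GQ z
      · obtain ⟨ρ, rfl⟩ := MulAction.mem_orbit_iff.mp hw
        rw [← mul_smul, hf, hf, AlgEquiv.mul_apply]
      · have hw' : σ • w ∉ MulAction.orbit GQ z := by
          intro h
          apply hw
          obtain ⟨ρ, hρ⟩ := MulAction.mem_orbit_iff.mp h
          refine MulAction.mem_orbit_iff.mpr ⟨σ⁻¹ * ρ, ?_⟩
          rw [mul_smul, hρ, inv_smul_smul]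
        simp only [f, dif_neg hw, dif_neg hw', map_zero]
    · have h1 : f z = α := by
        have := hf 1
        rwa [one_smul, AlgEquiv.one_apply] at this
      have h2 : f z' = τ α := by
        rw [← hτ]
        exact hf τ
      rw [h1, h2]
      exact fun h => hτα h.symm
  · -- indicator of the orbit of `z`
    refine ⟨fun w => if w ∈ MulAction.orbit GQ z then 1 else 0, ?_, ?_⟩
    · intro σ w
      by_cases hw : w ∈ MulAction.orbit GQ z
      · have hw' : σ • w ∈ MulAction.orbit GQ z := by
          obtain ⟨ρ, rfl⟩ := MulAction.mem_orbit_iff.mp hw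
          exact MulAction.mem_orbit_iff.mpr ⟨σ * ρ, mul_smul _ _ _⟩
        simp only [if_pos hw, if_pos hw', map_one]
      · have hw' : σ • w ∉ MulAction.orbit GQ z := by
          intro h
          apply hw
          obtain ⟨ρ, hρ⟩ := MulAction.mem_orbit_iff.mp h
          refine MulAction.mem_orbit_iff.mpr ⟨σ⁻¹ * ρ, ?_⟩
          rw [mul_smul, hρ, inv_smul_smul]
        simp only [if_neg hw, if_neg hw', map_zero]
    · simp only [if_pos (MulAction.mem_orbit_self z), if_neg horb]
      exact one_ne_zero

end Fermat.Agent.H73.FFDSep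

end
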