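import Mathlib

/-!
# P-CHEB, row CHEB-E (helper73), algebraic core

Let `K/ℚ` be a finite Galois extension, `G = Gal(K/ℚ)`, `P` a prime of `𝓞 K` over the rational
prime `p`, unramified over `ℤ`.  Then

* an element of `G` acting trivially on `𝓞 K / P` is trivial (`eq_one_of_forall_sub_mem`);
* an element `g` of `G` with `g x ≡ x ^ p mod P` for all `x` generates the decomposition group
  of `P` (`zpowers_eq_stabilizer_of_frob`).
-/

set_option autoImplicit false

open NumberField Ideal IsDedekindDomain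
open scoped Pointwise

namespace Fermat.Agent.H73.ChebCore

variable {K : Type*} [Field K] [NumberField K] [IsGalois ℚ K]

omit [NumberField K] [IsGalois ℚ K] in
/-- A prime of `𝓞 K` containing the prime number `p` lies over `(p)`. -/
theorem liesOver_span_of_mem {p : ℕ} (hp : p.Prime) (P : Ideal (𝓞 K)) [hP : P.IsPrime]
    (hpP : ((p : ℕ) : 𝓞 K) ∈ P) : P.LiesOver (Ideal.span {(p : ℤ)}) := by
  refine (Ideal.liesOver_span_iff hP.ne_top (Nat.prime_iff_prime_int.mp hp)).mpr ?_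
  simpa using hpP

/-- In the unramified case the inertia group is trivial. -/
theorem inertia_eq_bot {p : ℕ} (hp : p.Prime) (P : Ideal (𝓞 K)) [hP : P.IsPrime]
    (hpP : ((p : ℕ) : 𝓞 K) ∈ P) (hun : Algebra.IsUnramifiedAt ℤ P) :
    Ideal.inertia (K ≃ₐ[ℚ] K) P = ⊥ := by
  have hlo : P.LiesOver (Ideal.span {(p : ℤ)}) := liesOver_span_of_mem hp P hpP
  have hpp : (Ideal.span {(p : ℤ)}).IsPrime :=
    (Ideal.span_singleton_prime (by exact_mod_cast hp.ne_zero)).mpr (Nat.prime_iff_prime_int.mp hp)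
  have hmax : (Ideal.span {(p : ℤ)}).IsMaximal :=
    hpp.isMaximal (by simpa using hp.ne_zero)
  have hfin : Finite (ℤ ⧸ Ideal.span {(p : ℤ)}) := by
    have : NeZero p := ⟨hp.ne_zero⟩
    exact Finite.of_equiv _ (Int.quotientSpanNatEquivZMod p).symm.toEquiv
  have hcard := Ideal.card_inertia_eq_ramificationIdxIn (G := K ≃ₐ[ℚ] K)
    (Ideal.span {(p : ℤ)}) P
  rw [Ideal.ramificationIdxIn_eq_ramificationIdx (Ideal.span {(p : ℤ)}) P (K ≃ₐ[ℚ] K),
    Ideal.ramificationIdx_eq_one_of_isUnramifiedAt] at hcard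
  exact Subgroup.eq_bot_of_card_eq _ hcard

/-- An element of the Galois group acting trivially modulo an unramified prime is trivial. -/
theorem eq_one_of_forall_sub_mem {p : ℕ} (hp : p.Prime) (P : Ideal (𝓞 K)) [hP : P.IsPrime]
    (hpP : ((p : ℕ) : 𝓞 K) ∈ P) (hun : Algebra.IsUnramifiedAt ℤ P) (g : K ≃ₐ[ℚ] K)
    (hg : ∀ x : 𝓞 K, g • x - x ∈ P) : g = 1 := by
  have h : g ∈ Ideal.inertia (K ≃ₐ[ℚ] K) P := hg
  rw [inertia_eq_bot hp P hpP hun] at h
  exact Subgroup.mem_bot.mp h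

/-- The decomposition group of an unramified prime has order the residue degree. -/
theorem card_stabilizer_eq_inertiaDeg {p : ℕ} (hp : p.Prime) (P : Ideal (𝓞 K)) [hP : P.IsPrime]
    (hpP : ((p : ℕ) : 𝓞 K) ∈ P) (hun : Algebra.IsUnramifiedAt ℤ P) :
    Nat.card (MulAction.stabilizer (K ≃ₐ[ℚ] K) P) = P.inertiaDeg ℤ := by
  have hlo : P.LiesOver (Ideal.span {(p : ℤ)}) := liesOver_span_of_mem hp P hpP
  have hpp : (Ideal.span {(p : ℤ)}).IsPrime :=
    (Ideal.span_singleton_prime (by exact_mod_cast hp.ne_zero)).mpr (Nat.prime_iff_prime_int.mp hp)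
  have hmax : (Ideal.span {(p : ℤ)}).IsMaximal :=
    hpp.isMaximal (by simpa using hp.ne_zero)
  have hfin : Finite (ℤ ⧸ Ideal.span {(p : ℤ)}) := by
    have : NeZero p := ⟨hp.ne_zero⟩
    exact Finite.of_equiv _ (Int.quotientSpanNatEquivZMod p).symm.toEquiv
  have hcard := Ideal.card_stabilizer_eq (G := K ≃ₐ[ℚ] K) (Ideal.span {(p : ℤ)}) P
  rw [Ideal.ramificationIdxIn_eq_ramificationIdx (Ideal.span {(p : ℤ)}) P (K ≃ₐ[ℚ] K),
    Ideal.ramificationIdx_eq_one_of_isUnramifiedAt, one_mul,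
    Ideal.inertiaDegIn_eq_inertiaDeg (Ideal.span {(p : ℤ)}) P (K ≃ₐ[ℚ] K)] at hcard
  exact hcard

omit [IsGalois ℚ K] in
/-- A Frobenius-like element stabilises the prime. -/
theorem mem_stabilizer_of_frob {p : ℕ} (hp : p.Prime) (P : Ideal (𝓞 K)) [hP : P.IsPrime]
    (g : K ≃ₐ[ℚ] K) (hg : ∀ x : 𝓞 K, g • x - x ^ p ∈ P) :
    g ∈ MulAction.stabilizer (K ≃ₐ[ℚ] K) P := by
  have key : ∀ y : 𝓞 K, g • y ∈ P ↔ y ∈ P := by
    intro y
    constructor
    · intro h
      have h1 : y ^ p ∈ P := by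
        have := P.sub_mem h (hg y)
        simpa using this
      exact hP.mem_of_pow_mem p h1
    · intro h
      have h1 : y ^ p ∈ P := P.pow_mem_of_mem h p hp.pos
      have := P.add_mem (hg y) h1
      simpa using this
  rw [MulAction.mem_stabilizer_iff]
  ext x
  rw [Ideal.mem_pointwise_smul_iff_inv_smul_mem, ← key (g⁻¹ • x), smul_inv_smul]

omit [IsGalois ℚ K] in
/-- Powers of a Frobenius-like element. -/
theorem pow_smul_sub_pow_mem {p : ℕ} (P : Ideal (𝓞 K))
    (g : K ≃ₐ[ℚ] K) (hg : ∀ x : 𝓞 K, g • x - x ^ p ∈ P) (j : ℕ) (x : 𝓞 K) :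
    g ^ j • x - x ^ (p ^ j) ∈ P := by
  induction j generalizing x with
  | zero => simp
  | succ j ih =>
    have h1 : g ^ (j + 1) • x = g • (g ^ j • x) := by
      rw [pow_succ', mul_smul]
    have h2 : g • (g ^ j • x) - (g ^ j • x) ^ p ∈ P := hg _
    have h3 : (g ^ j • x) ^ p - (x ^ (p ^ j)) ^ p ∈ P :=
      Ideal.mem_of_dvd P (sub_dvd_pow_sub_pow _ _ p) (ih x)
    have h4 : x ^ (p ^ (j + 1)) = (x ^ (p ^ j)) ^ p := by
      rw [← pow_mul, pow_succ]
    rw [h1, h4]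
    have := P.add_mem h2 h3
    simpa using this

/-- **Frobenius generates the decomposition group** of an unramified prime. -/
theorem zpowers_eq_stabilizer_of_frob {p : ℕ} (hp : p.Prime) (P : Ideal (𝓞 K)) [hP : P.IsPrime]
    (hpP : ((p : ℕ) : 𝓞 K) ∈ P) (hun : Algebra.IsUnramifiedAt ℤ P) (g : K ≃ₐ[ℚ] K)
    (hg : ∀ x : 𝓞 K, g • x - x ^ p ∈ P) :
    Subgroup.zpowers g = MulAction.stabilizer (K ≃ₐ[ℚ] K) P := by
  classical
  have hlo : P.LiesOver (Ideal.span {(p : ℤ)}) := liesOver_span_of_mem hp P hpP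
  have hmem := mem_stabilizer_of_frob hp P g hg
  have hcard := card_stabilizer_eq_inertiaDeg hp P hpP hun
  set f := P.inertiaDeg ℤ with hf
  set k := orderOf g with hk
  have hkpos : 0 < k := orderOf_pos g
  -- `k ∣ f`
  have hkf : k ∣ f := by
    rw [← hcard]
    exact Subgroup.orderOf_dvd_natCard _ hmem
  have hfpos : 0 < f := by
    rw [← hcard]
    exact Nat.card_pos
  -- `f ≤ k`
  have hP0 : P ≠ ⊥ := by
    intro h
    rw [h, Ideal.mem_bot] at hpP
    exact hp.ne_zero (by exact_mod_cast hpP)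
  have hPmax : P.IsMaximal := hP.isMaximal hP0
  let _ : Field (𝓞 K ⧸ P) := Ideal.Quotient.field P
  have hfinq : Finite (𝓞 K ⧸ P) := Ideal.finiteQuotientOfFreeOfNeBot P hP0
  let _ : Fintype (𝓞 K ⧸ P) := Fintype.ofFinite _
  have hcardq : Fintype.card (𝓞 K ⧸ P) = p ^ f := by
    rw [← Nat.card_eq_fintype_card, hf, Ideal.pow_inertiaDeg p P, Ideal.absNorm_apply,
      Submodule.cardQuot_apply]
  have hroot : ∀ a : 𝓞 K ⧸ P, a ^ (p ^ k) = a := by
    intro a
    obtain ⟨x, rfl⟩ := Ideal.Quotient.mk_surjective a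
    have h1 := pow_smul_sub_pow_mem P g hg k x
    rw [hk, pow_orderOf_eq_one, one_smul] at h1
    rw [← map_pow]
    exact (Ideal.Quotient.eq.mpr h1).symm
  have hpk : 1 < p ^ k := Nat.one_lt_pow hkpos.ne' hp.one_lt
  have hle : p ^ f ≤ p ^ k := by
    rw [← hcardq]
    have hsub : (Finset.univ : Finset (𝓞 K ⧸ P)).val ⊆
        (Polynomial.X ^ (p ^ k) - Polynomial.X : Polynomial (𝓞 K ⧸ P)).roots := by
      intro a _
      rw [Polynomial.mem_roots (FiniteField.X_pow_card_sub_X_ne_zero _ hpk)]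
      simp [hroot a]
    have := Polynomial.card_le_degree_of_subset_roots hsub
    rw [FiniteField.X_pow_card_sub_X_natDegree_eq _ hpk] at this
    simpa using this
  have hfk : f ≤ k := (Nat.pow_le_pow_iff_right hp.one_lt).mp hle
  have hkeq : k = f := le_antisymm (Nat.le_of_dvd hfpos hkf) hfk
  refine Subgroup.eq_of_le_of_card_ge (Subgroup.zpowers_le.mpr hmem) ?_
  rw [hcard, Nat.card_zpowers, ← hk, hkeq]

end Fermat.Agent.H73.ChebCore
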