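import Fermat.Agent.H73.ChebBridgeCore
import Fermat.Agent.H62.Cheb.Interfaces
import Fermat.Agent.H49.S14.PlaceOverPrime
import Fermat.Agent.H4.Inertia

/-!
# P-CHEB, row CHEB-E (helper73): the bridge to the prelude language

A prime `v ∣ p` of a finite Galois `K ⊆ ℚ̄`, `p` unramified in `K`, lies under a place `A` of `ℚ̄`
over `p`; every Frobenius element at `A` restricts to a generator of the decomposition group of
`v`, and the inertia group at `A` acts trivially on `K`.
-/

set_option autoImplicit false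

open NumberField Ideal IsDedekindDomain
open scoped Pointwise

namespace Fermat.Agent.H73

/-- A Frobenius element at `A` acts as `c ↦ c ^ q` modulo the maximal ideal of `A`. -/
theorem frob_sub_pow_mem_nonunits {K L : Type*} [Field K] [Field L] [Algebra K L]
    (A : ValuationSubring L) {τ : L ≃ₐ[K] L} {q : ℕ} (hτ : A.IsFrobeniusAt τ q) {c : L}
    (hc : c ∈ A) : τ c - c ^ q ∈ A.nonunits := by
  obtain ⟨hτD, hτF⟩ := hτ
  have h2 := hτF (IsLocalRing.residue A ⟨c, hc⟩)
  have h3 : IsLocalRing.residue A ((⟨τ, hτD⟩ : A.decompositionSubgroup K) • (⟨c, hc⟩ : A)) =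
      IsLocalRing.residue A ((⟨c, hc⟩ : A) ^ q) := by
    rw [map_pow, ← h2]
    rfl
  have h4 : ((⟨τ, hτD⟩ : A.decompositionSubgroup K) • (⟨c, hc⟩ : A)) - (⟨c, hc⟩ : A) ^ q ∈
      IsLocalRing.maximalIdeal A := by
    rw [← Ideal.Quotient.eq]
    exact h3
  have h5 := (A.valuation_lt_one_iff _).mp h4
  rw [ValuationSubring.mem_nonunits_iff]
  exact h5

/-- **(CHEB-E)** the bridge statement. -/
theorem bridge : Fermat.Agent.H62.Cheb.BridgeStatement := by
  intro K _ _ p hp hdisc v hpv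
  have hP : v.asIdeal.IsPrime := v.isPrime
  obtain ⟨A, ℓ, hℓ, hAℓ, hint0, hcenter0⟩ :=
    Fermat.Agent.H49.placeOverPrime K K.val v.asIdeal v.isPrime v.ne_bot
  have hint : ∀ x : 𝓞 K, ((x : K) : AlgebraicClosure ℚ) ∈ A := hint0
  have hcenter : ∀ x : 𝓞 K, ((x : K) : AlgebraicClosure ℚ) ∈ A.nonunits ↔ x ∈ v.asIdeal :=
    hcenter0
  have hun : Algebra.IsUnramifiedAt ℤ v.asIdeal :=
    (NumberField.not_dvd_discr_iff_forall_mem K (𝓞 K) (Nat.prime_iff_prime_int.mp hp)).mp hdisc
      v.asIdeal v.isPrime (by simpa using hpv)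
  -- the restriction to `K` commutes with the inclusion
  have hres : ∀ (τ : AlgebraicClosure ℚ ≃ₐ[ℚ] AlgebraicClosure ℚ) (y : 𝓞 K),
      ((((AlgEquiv.restrictNormalHom K τ) • y : 𝓞 K) : K) : AlgebraicClosure ℚ) =
        τ ((y : K) : AlgebraicClosure ℚ) := by
    intro τ y
    exact AlgEquiv.restrictNormal_commutes τ K (y : K)
  refine ⟨A, ?_, ?_, ?_, ?_⟩
  · have h := (hcenter ((p : ℕ) : 𝓞 K)).mpr hpv
    have h' : ((((p : ℕ) : 𝓞 K) : K) : AlgebraicClosure ℚ) = ((p : ℕ) : AlgebraicClosure ℚ) := by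
      simp
    rw [h'] at h
    exact h
  · intro x
    exact (hcenter x).symm
  · intro ι hι x hx
    have hg1 : AlgEquiv.restrictNormalHom K ι = 1 := by
      refine ChebCore.eq_one_of_forall_sub_mem hp v.asIdeal hpv hun _ (fun y => ?_)
      rw [← hcenter]
      have h1 := Fermat.Agent.H4.inertia_sub_mem_nonunits A hι (hint y)
      have h2 : ((((AlgEquiv.restrictNormalHom K ι • y - y : 𝓞 K)) : K) : AlgebraicClosure ℚ) =
          ι ((y : K) : AlgebraicClosure ℚ) - ((y : K) : AlgebraicClosure ℚ) := by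
        rw [← hres ι y]
        simp
      rw [h2]
      exact h1
    have h3 := AlgEquiv.restrictNormal_commutes ι K ⟨x, hx⟩
    have h4 : ι.restrictNormal K = 1 := hg1
    rw [h4] at h3
    exact h3.symm
  · intro τ hτ
    refine ChebCore.zpowers_eq_stabilizer_of_frob hp v.asIdeal hpv hun _ (fun y => ?_)
    rw [← hcenter]
    have h1 := frob_sub_pow_mem_nonunits A hτ (hint y)
    have h2 : ((((AlgEquiv.restrictNormalHom K τ • y - y ^ p : 𝓞 K)) : K) : AlgebraicClosure ℚ) =
        τ ((y : K) : AlgebraicClosure ℚ) - ((y : K) : AlgebraicClosure ℚ) ^ p := by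
      rw [← hres τ y]
      simp
    rw [h2]
    exact h1

end Fermat.Agent.H73
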