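/-
helper73 (P-CHEB phase 2, row 448, CH2-FROBCOUNT): `FrobCountStatement`.

`K/ℚ` Galois, `ζ ∈ K` a primitive `m`-th root of unity, `g ∈ Gal(K/ℚ)` with `⟨g⟩` acting
faithfully on `ζ`, `g ζ = ζ ^ a`.  For a prime `p ∤ m disc K`, `p ≡ a mod m`: every prime `P ∣ p`
of `K` with decomposition group inside `⟨g⟩` has Frobenius `g`; these primes form one orbit of
the centraliser of `g` with stabiliser `⟨g⟩`.  Hence
`#{degree-one primes of K^⟨g⟩ over p} ≤ |Z(g)| / ord g`, and it is `0` unless `g` is a Frobenius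
over `p`.
-/
import Fermat.Agent.H62.Cheb2.Interfaces
import Fermat.Agent.H62.Cheb.DegOne
import Fermat.Agent.H39.ChebCounting
import Fermat.Agent.H73.ChebBridgeCore
import Fermat.Agent.H3.FrobAssembly

set_option autoImplicit false
set_option linter.unusedSectionVars false

noncomputable section

open NumberField Ideal IsDedekindDomain
open scoped Pointwise Classical

namespace Fermat.Agent.H73.FrobCount

open Fermat.Agent.H62.Cheb Fermat.Agent.H62.Cheb2

variable {K : Type} [Field K] [NumberField K] [IsGalois ℚ K]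

/-- unramifiedness from the discriminant -/
theorem isUnramifiedAt_of_not_dvd_discr {p : ℕ} (hp : p.Prime)
    (hdisc : ¬ ((p : ℤ) ∣ NumberField.discr K)) (P : Ideal (𝓞 K)) [hP : P.IsPrime]
    (hpP : ((p : ℕ) : 𝓞 K) ∈ P) : Algebra.IsUnramifiedAt ℤ P :=
  (NumberField.not_dvd_discr_iff_forall_mem K (𝓞 K) (Nat.prime_iff_prime_int.mp hp)).mp hdisc
    P hP (by simpa using hpP)

/-- **Uniqueness of the Frobenius** at an unramified prime. -/
theorem frob_unique {p : ℕ} (hp : p.Prime) (P : Ideal (𝓞 K)) [hP : P.IsPrime]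
    (hpP : ((p : ℕ) : 𝓞 K) ∈ P) (hun : Algebra.IsUnramifiedAt ℤ P) (g g' : K ≃ₐ[ℚ] K)
    (hg : ∀ x : 𝓞 K, g • x - x ^ p ∈ P) (hg' : ∀ x : 𝓞 K, g' • x - x ^ p ∈ P) : g = g' := by
  have hstab : g ∈ MulAction.stabilizer (K ≃ₐ[ℚ] K) P :=
    Fermat.Agent.H73.ChebCore.mem_stabilizer_of_frob hp P g hg
  have hstab' : g⁻¹ • P = P := by
    have := (MulAction.stabilizer (K ≃ₐ[ℚ] K) P).inv_mem hstab
    exact MulAction.mem_stabilizer_iff.mp this
  have key : ∀ x : 𝓞 K, (g⁻¹ * g') • x - x ∈ P := by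
    intro x
    have h1 : g' • x - g • x ∈ P := by
      have := P.sub_mem (hg' x) (hg x)
      simpa using this
    have h2 : g⁻¹ • (g' • x - g • x) ∈ g⁻¹ • P := Ideal.smul_mem_pointwise_smul _ _ _ h1
    rw [hstab', smul_sub, inv_smul_smul, ← mul_smul] at h2
    exact h2
  have := Fermat.Agent.H73.ChebCore.eq_one_of_forall_sub_mem hp P hpP hun (g⁻¹ * g') key
  exact (inv_mul_eq_one.mp this)

omit [IsGalois ℚ K] in
/-- An integer prime to `p` is not in a prime over `p`. -/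
theorem natCast_notMem {p m : ℕ} (hp : p.Prime) (hpm : ¬ p ∣ m) (P : Ideal (𝓞 K))
    [hP : P.IsPrime] (hpP : ((p : ℕ) : 𝓞 K) ∈ P) : ((m : ℕ) : 𝓞 K) ∉ P := by
  intro hmP
  have hcop : Nat.Coprime m p := (Nat.Coprime.symm ((Nat.Prime.coprime_iff_not_dvd hp).mpr hpm))
  have h1 : ((Nat.gcd m p : ℕ) : 𝓞 K) ∈ P := by
    have hb := Nat.gcd_eq_gcd_ab m p
    have h2 : (((Nat.gcd m p : ℕ) : ℤ) : 𝓞 K) ∈ P := by
      rw [hb]
      push_cast
      exact P.add_mem (P.mul_mem_right _ hmP) (P.mul_mem_right _ hpP)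
    simpa using h2
  rw [hcop] at h1
  exact hP.ne_top (P.eq_top_of_isUnit_mem (by simpa using h1) isUnit_one)

omit [IsGalois ℚ K] in
/-- **The Frobenius acts on roots of unity of order prime to `p` by `p`-th power.** -/
theorem frob_apply_root {p m : ℕ} [NeZero m] (hp : p.Prime) (hpm : ¬ p ∣ m) (P : Ideal (𝓞 K))
    [hP : P.IsPrime] (hpP : ((p : ℕ) : 𝓞 K) ∈ P) {ζ : K} (hζ : IsPrimitiveRoot ζ m)
    (φ : K ≃ₐ[ℚ] K) (hφ : ∀ x : 𝓞 K, φ • x - x ^ p ∈ P) : φ ζ = ζ ^ p := by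
  have hcard : Nat.card (ℤ ⧸ P.under ℤ) = p := by
    rw [Fermat.Agent.H3.Frob.under_int_eq_span hP hp hpP, Int.card_ideal_quot]
  have H : (MulSemiringAction.toAlgHom ℤ (𝓞 K) φ).IsArithFrobAt P := by
    intro x
    rw [hcard]
    exact hφ x
  have hζ'pow : hζ.toInteger ^ m = 1 := hζ.toInteger_isPrimitiveRoot.pow_eq_one
  have h1 := AlgHom.IsArithFrobAt.apply_of_pow_eq_one H hζ'pow (natCast_notMem hp hpm P hpP)
  rw [hcard] at h1
  have h1' := congrArg (algebraMap (𝓞 K) K) h1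
  rw [map_pow] at h1'
  exact h1'

/-- **Key local lemma**: for `p ∤ m disc K`, `p ≡ a mod m`, every prime over `p` whose
decomposition group lies in `⟨g⟩` has Frobenius `g`. -/
theorem frob_of_stabilizer_le {m : ℕ} [NeZero m] {ζ : K} (hζ : IsPrimitiveRoot ζ m)
    (g : K ≃ₐ[ℚ] K) (hfaith : ∀ h ∈ Subgroup.zpowers g, h ζ = ζ → h = 1)
    (a : ZMod m) (hgζ : g ζ = ζ ^ a.val) {p : ℕ} (hp : p.Prime) (hpm : ¬ p ∣ m)
    (hpa : ((p : ℕ) : ZMod m) = a) (P : Ideal (𝓞 K)) [hP : P.IsPrime]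
    (hpP : ((p : ℕ) : 𝓞 K) ∈ P)
    (hle : MulAction.stabilizer (K ≃ₐ[ℚ] K) P ≤ Subgroup.zpowers g) :
    ∀ x : 𝓞 K, g • x - x ^ p ∈ P := by
  obtain ⟨φ, hφ⟩ := Fermat.Agent.H3.Frob.exists_frob hP hp hpP
  have hφmem : φ ∈ Subgroup.zpowers g :=
    hle (Fermat.Agent.H73.ChebCore.mem_stabilizer_of_frob hp P φ hφ)
  have h1 : φ ζ = ζ ^ p := frob_apply_root hp hpm P hpP hζ φ hφ
  have h2 : ζ ^ p = ζ ^ a.val := by
    rw [pow_eq_pow_mod p hζ.pow_eq_one, ← hpa, ZMod.val_natCast]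
  have h3 : g⁻¹ * φ = 1 := by
    apply hfaith
    · exact Subgroup.mul_mem _ (Subgroup.inv_mem _ (Subgroup.mem_zpowers g)) hφmem
    · rw [AlgEquiv.mul_apply, h1, h2, ← hgζ]
      exact g.symm_apply_apply ζ
  have h4 : φ = g := (inv_mul_eq_one.mp h3).symm
  rw [← h4]
  exact hφ


/-- Frobenius in the language of the interface. -/
theorem isFrobAt_of_frob (g : K ≃ₐ[ℚ] K) {p : ℕ} (P : Ideal (𝓞 K)) [hP : P.IsPrime]
    (hpP : ((p : ℕ) : 𝓞 K) ∈ P) (hg : ∀ x : 𝓞 K, g • x - x ^ p ∈ P) : IsFrobAt K g p P :=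
  ⟨hP, hpP, fun x => hg x⟩

/-- **Pair count**: for `p ∤ m disc K`, `p ≡ a mod m`, the pairs `(𝔓, h)`, `𝔓 ∣ p`,
`h ∈ Z(𝔓) ≤ ⟨g⟩` inject into the centraliser of `g`; if there is such a pair then `g` is a
Frobenius over `p`. -/
theorem pairCount_le {m : ℕ} [NeZero m] {ζ : K} (hζ : IsPrimitiveRoot ζ m)
    (g : K ≃ₐ[ℚ] K) (hfaith : ∀ h ∈ Subgroup.zpowers g, h ζ = ζ → h = 1)
    (a : ZMod m) (hgζ : g ζ = ζ ^ a.val) {p : ℕ} (hp : p.Prime) (hpm : ¬ p ∣ m)
    (hdisc : ¬ ((p : ℤ) ∣ NumberField.discr K))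
    (hpa : ((p : ℕ) : ZMod m) = a) :
    pairCount K (Subgroup.zpowers g) p ≤
        Nat.card (Subgroup.centralizer ({g} : Set (K ≃ₐ[ℚ] K))) ∧
      (pairCount K (Subgroup.zpowers g) p ≠ 0 → ∃ v : Ideal (𝓞 K), IsFrobAt K g p v) := by
  by_cases hne : Nonempty {x : HeightOneSpectrum (𝓞 K) × (K ≃ₐ[ℚ] K) //
    ((p : ℕ) : 𝓞 K) ∈ x.1.asIdeal ∧ x.2 ∈ MulAction.stabilizer (K ≃ₐ[ℚ] K) x.1.asIdeal ∧
      MulAction.stabilizer (K ≃ₐ[ℚ] K) x.1.asIdeal ≤ Subgroup.zpowers g}
  · obtain ⟨⟨⟨v₀, h₀⟩, hv₀, hh₀, hle₀⟩⟩ := hne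
    simp only at hv₀ hh₀ hle₀
    have hfrob₀ := frob_of_stabilizer_le hζ g hfaith a hgζ hp hpm hpa v₀.asIdeal hv₀ hle₀
    refine ⟨?_, fun _ => ⟨v₀.asIdeal, isFrobAt_of_frob g v₀.asIdeal hv₀ hfrob₀⟩⟩
    -- the transporters
    have hex : ∀ v : HeightOneSpectrum (𝓞 K), ((p : ℕ) : 𝓞 K) ∈ v.asIdeal →
        ∃ c : K ≃ₐ[ℚ] K, v.asIdeal = c • v₀.asIdeal := by
      intro v hv
      have hunder : v₀.asIdeal.under ℤ = v.asIdeal.under ℤ := by
        rw [Fermat.Agent.H3.Frob.under_int_eq_span v₀.isPrime hp hv₀,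
          Fermat.Agent.H3.Frob.under_int_eq_span v.isPrime hp hv]
      exact Algebra.IsInvariant.exists_smul_of_under_eq ℤ (𝓞 K) (K ≃ₐ[ℚ] K) v₀.asIdeal
        v.asIdeal hunder
    let c : HeightOneSpectrum (𝓞 K) → (K ≃ₐ[ℚ] K) := fun v =>
      if hv : ((p : ℕ) : 𝓞 K) ∈ v.asIdeal then (hex v hv).choose else 1
    have hc : ∀ v : HeightOneSpectrum (𝓞 K), ((p : ℕ) : 𝓞 K) ∈ v.asIdeal →
        v.asIdeal = c v • v₀.asIdeal := by
      intro v hv
      simp only [c, dif_pos hv]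
      exact (hex v hv).choose_spec
    -- the transporters centralise `g`
    have hcent : ∀ v : HeightOneSpectrum (𝓞 K), ((p : ℕ) : 𝓞 K) ∈ v.asIdeal →
        MulAction.stabilizer (K ≃ₐ[ℚ] K) v.asIdeal ≤ Subgroup.zpowers g →
        c v * g = g * c v := by
      intro v hv hle
      have hfrob := frob_of_stabilizer_le hζ g hfaith a hgζ hp hpm hpa v.asIdeal hv hle
      have hconj := Fermat.Agent.H3.Frob.frob_conj hfrob₀ (c v)⁻¹
      rw [inv_inv, ← hc v hv] at hconj
      have hun := isUnramifiedAt_of_not_dvd_discr hp hdisc v.asIdeal hv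
      have := frob_unique hp v.asIdeal hv hun _ _ hconj hfrob
      calc c v * g = (c v * g * (c v)⁻¹) * c v := by group
        _ = g * c v := by rw [this]
    refine Nat.card_le_card_of_injective
      (fun x => (⟨x.1.2 * c x.1.1, ?_⟩ :
        Subgroup.centralizer ({g} : Set (K ≃ₐ[ℚ] K)))) ?_
    · obtain ⟨⟨v, h⟩, hv, hh, hle⟩ := x
      simp only at hv hh hle ⊢
      rw [Subgroup.mem_centralizer_iff]
      intro y hy
      rw [Set.mem_singleton_iff] at hy
      subst hy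
      obtain ⟨k, rfl⟩ := Subgroup.mem_zpowers_iff.mp (hle hh)
      have h1 := hcent v hv hle
      have h2 : y * y ^ k = y ^ k * y := (Commute.self_zpow y k)
      calc y * (y ^ k * c v) = (y * y ^ k) * c v := by rw [mul_assoc]
        _ = y ^ k * (y * c v) := by rw [h2, mul_assoc]
        _ = y ^ k * c v * y := by rw [← h1, mul_assoc]
    · rintro ⟨⟨v, h⟩, hv, hh, hle⟩ ⟨⟨v', h'⟩, hv', hh', hle'⟩ heq
      simp only [Subtype.mk.injEq] at heq
      simp only at hv hh hle hv' hh' hle'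
      have e1 : (h * c v) • v₀.asIdeal = v.asIdeal := by
        rw [mul_smul, ← hc v hv]
        exact MulAction.mem_stabilizer_iff.mp hh
      have e2 : (h' * c v') • v₀.asIdeal = v'.asIdeal := by
        rw [mul_smul, ← hc v' hv']
        exact MulAction.mem_stabilizer_iff.mp hh'
      have hvv : v = v' := by
        apply HeightOneSpectrum.ext
        rw [← e1, ← e2, heq]
      subst hvv
      have : h = h' := mul_right_cancel heq
      subst this
      rfl
  · rw [not_nonempty_iff] at hne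
    have h0 : pairCount K (Subgroup.zpowers g) p = 0 := by
      rw [pairCount]
      exact Nat.card_of_isEmpty
    rw [h0]
    exact ⟨Nat.zero_le _, fun h => absurd rfl h⟩


/-- **Per-prime bound**: for `p ∤ m disc K`, `p ≡ a mod m`, the number of degree-one primes of
`K^⟨g⟩` over `p` is at most `|Z(g)| / ord g`, and it is `0` unless `g` is a Frobenius over `p`. -/
theorem primeCount_le {m : ℕ} [NeZero m] {ζ : K} (hζ : IsPrimitiveRoot ζ m)
    (g : K ≃ₐ[ℚ] K) (hfaith : ∀ h ∈ Subgroup.zpowers g, h ζ = ζ → h = 1)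
    (a : ZMod m) (hgζ : g ζ = ζ ^ a.val) {p : ℕ} (hp : p.Prime) (hpm : ¬ p ∣ m)
    (hdisc : ¬ ((p : ℤ) ∣ NumberField.discr K))
    (hpa : ((p : ℕ) : ZMod m) = a) :
    (primeCount (IntermediateField.fixedField (Subgroup.zpowers g)) p : ℝ) ≤
        (Nat.card (Subgroup.centralizer ({g} : Set (K ≃ₐ[ℚ] K))) : ℝ) / (orderOf g : ℝ) ∧
      (primeCount (IntermediateField.fixedField (Subgroup.zpowers g)) p ≠ 0 →
        ∃ v : Ideal (𝓞 K), IsFrobAt K g p v) := by
  have hcount := Fermat.Agent.H39.counting K (Subgroup.zpowers g) p hp hdisc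
  rw [Nat.card_zpowers] at hcount
  obtain ⟨h1, h2⟩ := pairCount_le hζ g hfaith a hgζ hp hpm hdisc hpa
  have hpos : (0 : ℝ) < (orderOf g : ℝ) := by exact_mod_cast orderOf_pos g
  constructor
  · rw [le_div_iff₀ hpos]
    rw [← hcount] at h1
    have : ((orderOf g * primeCount (IntermediateField.fixedField (Subgroup.zpowers g)) p : ℕ)
        : ℝ) ≤ (Nat.card (Subgroup.centralizer ({g} : Set (K ≃ₐ[ℚ] K))) : ℝ) := by
      exact_mod_cast h1
    push_cast at this
    linarith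
  · intro h
    apply h2
    rw [← hcount]
    exact Nat.mul_ne_zero (orderOf_pos g).ne' h

/-- the primes dividing a nonzero integer -/
theorem finite_primes_dvd_int {n : ℤ} (hn : n ≠ 0) :
    {p : Nat.Primes | ((p : ℕ) : ℤ) ∣ n}.Finite := by
  have h1 : {k : ℕ | k ∣ n.natAbs}.Finite :=
    (Nat.divisors n.natAbs).finite_toSet.subset fun k hk => by
      simp only [Finset.mem_coe, Nat.mem_divisors]
      exact ⟨hk, Int.natAbs_ne_zero.mpr hn⟩
  refine Set.Finite.of_finite_image (f := fun p : Nat.Primes => (p : ℕ)) (h1.subset ?_)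
    (fun p _ q _ h => Subtype.ext h)
  rintro _ ⟨p, hp, rfl⟩
  exact Int.natCast_dvd.mp hp

/-- the primes in a finite set of naturals -/
theorem finite_primes_mem (T : Finset ℕ) : {p : Nat.Primes | (p : ℕ) ∈ T}.Finite := by
  refine Set.Finite.of_finite_image (f := fun p : Nat.Primes => (p : ℕ))
    (T.finite_toSet.subset ?_) (fun p _ q _ h => Subtype.ext h)
  rintro _ ⟨p, hp, rfl⟩
  exact hp

/-- **CH2-FROBCOUNT**. -/
theorem frobCount : FrobCountStatement := by
  intro K _ _ _ m _ ζ hζ g hfaith a hgζ T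
  have hfin1 : {p : Nat.Primes | ((p : ℕ) : ℤ) ∣ (m : ℤ)}.Finite :=
    finite_primes_dvd_int (by exact_mod_cast NeZero.ne m)
  have hfin2 : {p : Nat.Primes | ((p : ℕ) : ℤ) ∣ NumberField.discr K}.Finite :=
    finite_primes_dvd_int (NumberField.discr_ne_zero K)
  have hfin3 : {p : Nat.Primes | (p : ℕ) ∈ T}.Finite := finite_primes_mem T
  obtain ⟨Bad, hBad⟩ : ∃ Bad : Finset Nat.Primes, ∀ p : Nat.Primes, p ∈ Bad ↔
      (((p : ℕ) : ℤ) ∣ (m : ℤ) ∨ ((p : ℕ) : ℤ) ∣ NumberField.discr K ∨ (p : ℕ) ∈ T) := by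
    refine ⟨(hfin1.union (hfin2.union hfin3)).toFinset, fun p => ?_⟩
    simp only [Set.Finite.mem_toFinset, Set.mem_union, Set.mem_ofPred_eq]
  refine ⟨∑ p ∈ Bad,
    (primeCount (IntermediateField.fixedField (Subgroup.zpowers g)) p : ℝ), fun s hs => ?_⟩
  have hc0 : (0 : ℝ) ≤ (Nat.card (Subgroup.centralizer ({g} : Set (K ≃ₐ[ℚ] K))) : ℝ) /
      (orderOf g : ℝ) := by positivity
  -- the three families
  have hpow_nonneg : ∀ p : Nat.Primes, (0 : ℝ) ≤ ((p : ℕ) : ℝ) ^ (-s) := fun p =>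
    Real.rpow_nonneg (Nat.cast_nonneg _) _
  have hpow_le_one : ∀ p : Nat.Primes, ((p : ℕ) : ℝ) ^ (-s) ≤ 1 := fun p => by
    apply Real.rpow_le_one_of_one_le_of_nonpos
    · exact_mod_cast p.2.one_le
    · linarith
  have hsummE : Summable fun p : Nat.Primes =>
      (primeCount (IntermediateField.fixedField (Subgroup.zpowers g)) p : ℝ) *
        ((p : ℕ) : ℝ) ^ (-s) :=
    (degOneAsymptotic (IntermediateField.fixedField (Subgroup.zpowers g))).1 s hs
  have hsummP : Summable fun p : Nat.Primes => ((p : ℕ) : ℝ) ^ (-s) :=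
    Nat.Primes.summable_rpow.mpr (by linarith)
  have hsummL : Summable fun p : Nat.Primes =>
      if (((p : ℕ) : ZMod m) = a) then
        (primeCount (IntermediateField.fixedField (Subgroup.zpowers g)) p : ℝ) *
          ((p : ℕ) : ℝ) ^ (-s) else 0 := by
    refine Summable.of_nonneg_of_le (fun p => ?_) (fun p => ?_) hsummE
    · split_ifs
      · exact mul_nonneg (Nat.cast_nonneg _) (hpow_nonneg p)
      · exact le_rfl
    · split_ifs
      · exact le_rfl
      · exact mul_nonneg (Nat.cast_nonneg _) (hpow_nonneg p)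
  have hsummF : Summable fun p : Nat.Primes =>
      if p ∈ frobPrimes K {g} ∧ (p : ℕ) ∉ T then ((p : ℕ) : ℝ) ^ (-s) else 0 := by
    refine Summable.of_nonneg_of_le (fun p => ?_) (fun p => ?_) hsummP
    · split_ifs
      · exact hpow_nonneg p
      · exact le_rfl
    · split_ifs
      · exact le_rfl
      · exact hpow_nonneg p
  have hsummB : Summable fun p : Nat.Primes =>
      if p ∈ Bad then
        (primeCount (IntermediateField.fixedField (Subgroup.zpowers g)) p : ℝ) else 0 := by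
    apply summable_of_ne_finset_zero (s := Bad)
    intro p hp
    rw [if_neg hp]
  have hterm : ∀ p : Nat.Primes,
      (if (((p : ℕ) : ZMod m) = a) then
        (primeCount (IntermediateField.fixedField (Subgroup.zpowers g)) p : ℝ) *
          ((p : ℕ) : ℝ) ^ (-s) else 0) ≤
      ((Nat.card (Subgroup.centralizer ({g} : Set (K ≃ₐ[ℚ] K))) : ℝ) / (orderOf g : ℝ)) *
          (if p ∈ frobPrimes K {g} ∧ (p : ℕ) ∉ T then ((p : ℕ) : ℝ) ^ (-s) else 0) +
        (if p ∈ Bad then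
          (primeCount (IntermediateField.fixedField (Subgroup.zpowers g)) p : ℝ) else 0) := by
    intro p
    have hF0 : (0 : ℝ) ≤
        ((Nat.card (Subgroup.centralizer ({g} : Set (K ≃ₐ[ℚ] K))) : ℝ) / (orderOf g : ℝ)) *
          (if p ∈ frobPrimes K {g} ∧ (p : ℕ) ∉ T then ((p : ℕ) : ℝ) ^ (-s) else 0) := by
      apply mul_nonneg hc0
      split_ifs
      · exact hpow_nonneg p
      · exact le_rfl
    have hcnt0 : (0 : ℝ) ≤
        (primeCount (IntermediateField.fixedField (Subgroup.zpowers g)) p : ℝ) :=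
      Nat.cast_nonneg _
    by_cases hbad : p ∈ Bad
    · rw [if_pos hbad]
      have h1 : (if (((p : ℕ) : ZMod m) = a) then
          (primeCount (IntermediateField.fixedField (Subgroup.zpowers g)) p : ℝ) *
            ((p : ℕ) : ℝ) ^ (-s) else 0) ≤
          (primeCount (IntermediateField.fixedField (Subgroup.zpowers g)) p : ℝ) := by
        split_ifs
        · exact mul_le_of_le_one_right hcnt0 (hpow_le_one p)
        · exact hcnt0
      linarith
    · rw [if_neg hbad, add_zero]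
      rw [hBad] at hbad
      push Not at hbad
      obtain ⟨hb1, hb2, hb3⟩ := hbad
      by_cases hpa : (((p : ℕ) : ZMod m) = a)
      · rw [if_pos hpa]
        have hpm : ¬ (p : ℕ) ∣ m := fun h => hb1 (by exact_mod_cast h)
        obtain ⟨h1, h2⟩ := primeCount_le hζ g hfaith a hgζ p.2 hpm hb2 hpa
        by_cases h0 : primeCount (IntermediateField.fixedField (Subgroup.zpowers g)) p = 0
        · rw [h0, Nat.cast_zero, zero_mul]
          exact hF0
        · have hmem : p ∈ frobPrimes K {g} := by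
            obtain ⟨v, hv⟩ := h2 h0
            exact ⟨hb2, g, Set.mem_singleton g, v, hv⟩
          rw [if_pos ⟨hmem, hb3⟩]
          exact mul_le_mul_of_nonneg_right h1 (hpow_nonneg p)
      · rw [if_neg hpa]
        exact hF0
  calc classDegOneSum (IntermediateField.fixedField (Subgroup.zpowers g)) m a s
      ≤ ∑' p : Nat.Primes,
          (((Nat.card (Subgroup.centralizer ({g} : Set (K ≃ₐ[ℚ] K))) : ℝ) / (orderOf g : ℝ)) *
            (if p ∈ frobPrimes K {g} ∧ (p : ℕ) ∉ T then ((p : ℕ) : ℝ) ^ (-s) else 0) +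
          (if p ∈ Bad then
            (primeCount (IntermediateField.fixedField (Subgroup.zpowers g)) p : ℝ) else 0)) :=
        Summable.tsum_le_tsum hterm hsummL ((hsummF.mul_left _).add hsummB)
    _ = ((Nat.card (Subgroup.centralizer ({g} : Set (K ≃ₐ[ℚ] K))) : ℝ) / (orderOf g : ℝ)) *
          frobSum K {g} T s + ∑ p ∈ Bad,
            (primeCount (IntermediateField.fixedField (Subgroup.zpowers g)) p : ℝ) := by
        rw [Summable.tsum_add (hsummF.mul_left _) hsummB, tsum_mul_left, frobSum]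
        congr 1
        rw [tsum_eq_sum (s := Bad) (fun p hp => if_neg hp)]
        exact Finset.sum_congr rfl fun p hp => if_pos hp

end Fermat.Agent.H73.FrobCount

end
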