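/-
helper73 (P-ES, row 573, KL-N-TAME-GB): a good basis of `E` in the chart `x` is a good basis of
the tame Kummer layer `E₁ = E[s]`, `s ^ e = x - c`, in the chart `s`.
-/
import Fermat.Agent.H22.ES.KLSetting
import Fermat.Agent.H89.KLGauss
import Fermat.Agent.H70.KL.TameAvg
import Fermat.Agent.H70.KL.TameNorm

set_option autoImplicit false
set_option linter.style.haveILetI false
set_option linter.unusedSectionVars false

noncomputable section

open Polynomial Fermat.Agent.H22.KL Fermat.Agent.H70.KL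
open Fermat.Agent.H67.KLConn (PiDvd)

namespace Fermat.Agent.H73.KLTameGB

/-! ### Generic base change of a basis along an embedding of fields -/

section Generic

variable {E E₁ : Type} [Field E] [Field E₁] (ι : E →+* E₁) (K : Subfield E) (K₁ : Subfield E₁)
  (hK : ∀ k ∈ K, ι k ∈ K₁)

/-- the restriction `K → K₁` of `ι` -/
def resHom (hK : ∀ k ∈ K, ι k ∈ K₁) : K →+* K₁ where
  toFun k := ⟨ι k, hK k k.2⟩
  map_one' := Subtype.ext (by simp)
  map_mul' a b := Subtype.ext (by simp)
  map_zero' := Subtype.ext (by simp)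
  map_add' a b := Subtype.ext (by simp)

@[simp] theorem coe_resHom (k : K) : ((resHom ι K K₁ hK k : K₁) : E₁) = ι (k : E) := rfl

variable {n : ℕ} (b : Module.Basis (Fin n) K E) (b₁ : Module.Basis (Fin n) K₁ E₁)
  (hb : ∀ i, b₁ i = ι (b i))

include hb in
theorem map_eq_sum (y : E) : ι y = ∑ i, resHom ι K K₁ hK (b.repr y i) • b₁ i := by
  conv_lhs => rw [← b.sum_repr y]
  rw [map_sum]
  refine Finset.sum_congr rfl fun i _ => ?_
  rw [hb i, Subfield.smul_def, Subfield.smul_def, smul_eq_mul, smul_eq_mul, map_mul]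
  rfl

include hb in
theorem repr_map (y : E) (i : Fin n) : b₁.repr (ι y) i = resHom ι K K₁ hK (b.repr y i) := by
  rw [map_eq_sum ι K K₁ hK b b₁ hb y, Module.Basis.repr_sum_self]

include hb in
theorem trace_map (z : E) :
    Algebra.trace K₁ E₁ (ι z) = resHom ι K K₁ hK (Algebra.trace K E z) := by
  rw [Algebra.trace_eq_matrix_trace b₁, Algebra.trace_eq_matrix_trace b, Matrix.trace,
    Matrix.trace, map_sum]
  refine Finset.sum_congr rfl fun i _ => ?_
  rw [Matrix.diag_apply, Matrix.diag_apply, Algebra.leftMulMatrix_eq_repr_mul,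
    Algebra.leftMulMatrix_eq_repr_mul, hb i, ← map_mul, repr_map ι K K₁ hK b b₁ hb]

include hb in
theorem discr_map :
    Algebra.discr K₁ (fun i => b₁ i) = resHom ι K K₁ hK (Algebra.discr K (fun i => b i)) := by
  rw [Algebra.discr_def, Algebra.discr_def, RingHom.map_det]
  congr 1
  ext i j
  rw [RingHom.mapMatrix_apply, Matrix.map_apply, Algebra.traceMatrix_apply,
    Algebra.traceMatrix_apply, Algebra.traceForm_apply, Algebra.traceForm_apply, hb i, hb j,
    ← map_mul, trace_map ι K K₁ hK b b₁ hb]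

end Generic


/-! ### The tame Kummer layer -/

section Main

variable {A : Type} [CommRing A] [IsDomain A] [IsDiscreteValuationRing A] {E E₁ : Type}
  [Field E] [Field E₁] [Algebra A E] [Algebra E E₁] [Algebra A E₁] [IsScalarTower A E E₁]
  {x : E} {c : A} {e : ℕ} {ζ : A} {s : E₁} {σ : E₁ →ₐ[E] E₁}

/-- (a) `ι (K₀(x)) ⊆ K₀(s)`. -/
theorem algebraMap_mem_chartField (T : TameSetup x c e ζ s σ) :
    ∀ k ∈ chartField A E x, algebraMap E E₁ k ∈ chartField A E₁ s := by
  have hle : chartField A E x ≤ (chartField A E₁ s).comap (algebraMap E E₁) := by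
    apply Subfield.closure_le.mpr
    intro y hy
    obtain ⟨R, rfl⟩ := (Fermat.Agent.H89.klg_mem_chartRing_iff x y).mp hy
    show algebraMap E E₁ (aeval x R) ∈ chartField A E₁ s
    rw [T.algebraMap_aeval]
    exact Subfield.subset_closure (Fermat.Agent.H89.klg_aeval_mem_chartRing s _)
  exact fun k hk => hle hk

omit [IsDomain A] [IsDiscreteValuationRing A] in
theorem aeval_mem_chartField (y : E) (R : A[X]) : aeval y R ∈ chartField A E y :=
  Subfield.subset_closure (Fermat.Agent.H89.klg_aeval_mem_chartRing y R)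

omit [IsDomain A] [IsDiscreteValuationRing A] in
theorem self_mem_chartField (y : E) : y ∈ chartField A E y :=
  Subfield.subset_closure (Algebra.self_mem_adjoin_singleton A y)

/-- (b) `pr (K₀(s)) ⊆ K₀(x)`. -/
theorem pr_mem_chartField (T : TameSetup x c e ζ s σ) {Y : E₁}
    (hY : Y ∈ chartField A E₁ s) : T.pr Y ∈ chartField A E x := by
  obtain ⟨P, Q, rfl⟩ := Fermat.Agent.H89.klg_mem_closure hY
  by_cases hQ : aeval s Q = 0
  · rw [hQ, div_zero, T.pr_zero]
    exact zero_mem _
  · have hn0 := T.aeval_normPoly_ne_zero hQ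
    have hn1 : algebraMap E E₁ (aeval x (prPoly c e (normPoly ζ e Q))) ≠ 0 :=
      (_root_.map_ne_zero _).mpr hn0
    have h1 : aeval s P / aeval s Q = aeval s (P * conjPoly ζ e Q) *
        algebraMap E E₁ (aeval x (prPoly c e (normPoly ζ e Q)))⁻¹ := by
      have h2 := T.aeval_mul_conjPoly Q
      rw [map_inv₀, map_mul, div_eq_iff hQ]
      calc aeval s P = aeval s P * (algebraMap E E₁ (aeval x (prPoly c e (normPoly ζ e Q))) *
            (algebraMap E E₁ (aeval x (prPoly c e (normPoly ζ e Q))))⁻¹) := by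
            rw [mul_inv_cancel₀ hn1, mul_one]
        _ = aeval s P * aeval s (conjPoly ζ e Q) *
            (algebraMap E E₁ (aeval x (prPoly c e (normPoly ζ e Q))))⁻¹ * aeval s Q := by
            rw [← h2]
            ring
    rw [h1, T.pr_mul_algebraMap, T.pr_aeval]
    exact mul_mem (aeval_mem_chartField x _) (inv_mem (aeval_mem_chartField x _))

/-- (d1) the image of a basis is linearly independent over `K₀(s)`. -/
theorem linearIndependent_lift (T : TameSetup x c e ζ s σ) {n : ℕ}
    (b : Module.Basis (Fin n) (chartField A E x) E) :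
    LinearIndependent (chartField A E₁ s) (fun i => algebraMap E E₁ (b i)) := by
  rw [Fintype.linearIndependent_iff]
  intro g hg i
  have hkey : ∀ m : ℕ, ∀ j, T.pr (s ^ m * (g j : E₁)) = 0 := by
    intro m
    have hmem : ∀ j, T.pr (s ^ m * (g j : E₁)) ∈ chartField A E x := fun j =>
      pr_mem_chartField T (mul_mem (pow_mem (self_mem_chartField s) m) (g j).2)
    have h1 : ∑ j, (⟨T.pr (s ^ m * (g j : E₁)), hmem j⟩ : chartField A E x) • b j = 0 := by
      have h2 := congrArg (fun Y => T.pr (s ^ m * Y)) hg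
      simp only [mul_zero, T.pr_zero, Finset.mul_sum, T.pr_sum] at h2
      rw [← h2]
      refine Finset.sum_congr rfl fun j _ => ?_
      rw [Subfield.smul_def, Subfield.smul_def, smul_eq_mul, smul_eq_mul, ← mul_assoc,
        T.pr_mul_algebraMap]
    have h3 := (Fintype.linearIndependent_iff.mp b.linearIndependent) _ h1
    intro j
    exact congrArg Subtype.val (h3 j)
  have h4 : (g i : E₁) = 0 := T.eq_zero_of_pr_eq_zero fun m _ => hkey m i
  exact Subtype.ext h4

/-- (d2) the image of a basis spans `E₁` over `K₀(s)`. -/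
theorem span_lift (T : TameSetup x c e ζ s σ) {n : ℕ}
    (b : Module.Basis (Fin n) (chartField A E x) E) :
    ⊤ ≤ Submodule.span (chartField A E₁ s) (Set.range fun i => algebraMap E E₁ (b i)) := by
  intro Y _
  have hι : ∀ y : E, algebraMap E E₁ y ∈
      Submodule.span (chartField A E₁ s) (Set.range fun i => algebraMap E E₁ (b i)) := by
    intro y
    have h1 : algebraMap E E₁ y = ∑ i,
        (⟨algebraMap E E₁ (b.repr y i), algebraMap_mem_chartField T _ (b.repr y i).2⟩ :
          chartField A E₁ s) • algebraMap E E₁ (b i) := by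
      conv_lhs => rw [← b.sum_repr y]
      rw [map_sum]
      refine Finset.sum_congr rfl fun i _ => ?_
      rw [Subfield.smul_def, Subfield.smul_def, smul_eq_mul, smul_eq_mul, map_mul]
    rw [h1]
    exact Submodule.sum_mem _ fun i _ =>
      Submodule.smul_mem _ _ (Submodule.subset_span ⟨i, rfl⟩)
  rw [T.fourier_pr Y]
  refine Submodule.sum_mem _ fun m _ => ?_
  have h2 : (s ^ m)⁻¹ * algebraMap E E₁ (T.pr (s ^ m * Y)) =
      (⟨(s ^ m)⁻¹, inv_mem (pow_mem (self_mem_chartField s) m)⟩ : chartField A E₁ s) •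
        algebraMap E E₁ (T.pr (s ^ m * Y)) := by
    rw [Subfield.smul_def, smul_eq_mul]
  rw [h2]
  exact Submodule.smul_mem _ _ (hι _)

/-- (f) integrality over `A[x]` lifts to integrality over `A[s]`. -/
theorem mem_chartClosure_lift (T : TameSetup x c e ζ s σ) {y : E}
    (hy : y ∈ chartClosure A E x) : algebraMap E E₁ y ∈ chartClosure A E₁ s := by
  rw [Fermat.Agent.H89.klg_mem_chartClosure_iff] at hy ⊢
  obtain ⟨Q, hQm, hQ⟩ := Fermat.Agent.H89.klg_exists_monic_lift hy
  obtain ⟨Q₁, hQ₁m, hQ₁⟩ := T.intS_algebraMap ⟨Q, hQm, hQ⟩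
  refine Fermat.Agent.H89.klg_isIntegral_of_coeff_mem (chartRing A E₁ s) _
    (Q₁.map (evalHom A s)) (hQ₁m.map _) (fun i => ?_) ?_
  · rw [Polynomial.coeff_map]
    exact Fermat.Agent.H89.klg_aeval_mem_chartRing s _
  · rw [Polynomial.eval_map]
    exact hQ₁

/-- (g) non-divisibility by `ϖ` lifts. -/
theorem not_piDvd_lift (T : TameSetup x c e ζ s σ) (ϖ : A) {d : E}
    (hd : ¬ PiDvd ϖ (chartRing A E x) 1 d) :
    ¬ PiDvd ϖ (chartRing A E₁ s) 1 (algebraMap E E₁ d) := by
  rintro ⟨r, hr, h⟩
  apply hd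
  obtain ⟨R, rfl⟩ := (Fermat.Agent.H89.klg_mem_chartRing_iff s r).mp hr
  refine ⟨aeval x (prPoly c e R), Fermat.Agent.H89.klg_aeval_mem_chartRing x _, ?_⟩
  have h1 := congrArg T.pr h
  rw [T.pr_algebraMap, Algebra.smul_def, T.pr_algebraMapA_mul, T.pr_aeval] at h1
  rw [h1, Algebra.smul_def]

/-- **KL-N-TAME-GB**: a good basis of `E` in the chart `x` gives a good basis of the tame Kummer
layer `E₁ = E[s]`, `s ^ e = x - c`, in the chart `s` (same basis elements, same discriminant). -/
theorem goodBasis_lift (T : TameSetup x c e ζ s σ) (hx : Transcendental A x) {ϖ : A}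
    (hϖ : Irreducible ϖ) (h : GoodBasis A E ϖ x) : GoodBasis A E₁ ϖ s := by
  have _hx := hx
  have _hϖ := hϖ
  obtain ⟨n, b, hbint, hbd⟩ := h
  let b₁ : Module.Basis (Fin n) (chartField A E₁ s) E₁ :=
    Module.Basis.mk (linearIndependent_lift T b) (span_lift T b)
  have hb₁ : ∀ i, b₁ i = algebraMap E E₁ (b i) := fun i => by
    simp only [b₁, Module.Basis.mk_apply]
  refine ⟨n, b₁, fun i => ?_, ?_⟩
  · rw [hb₁ i]
    exact mem_chartClosure_lift T (hbint i)
  · rw [discr_map (algebraMap E E₁) (chartField A E x) (chartField A E₁ s)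
      (algebraMap_mem_chartField T) b b₁ hb₁, coe_resHom]
    exact not_piDvd_lift T ϖ hbd

end Main

end Fermat.Agent.H73.KLTameGB

end
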