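/-
P-S05, subtask S05-BR (backup): a real-valued additive valuation on `AlgebraicClosure ℚ`
attached to a valuation subring lying over a prime `q` (the valuation has rank one).
-/
import Mathlib
import Fermat.Agent.H71.AddVal
import Fermat.Agent.H4.IntVal
import Fermat.Prelude.Def_FLTPrelim_Ramification

set_option autoImplicit false

namespace Fermat.Agent.H73

open Polynomial

section RankOne

variable {L : Type*} [Field L]

/-- The valuation of a nonzero integer is a natural power of the valuation of `q`. -/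
theorem val_intCast_eq_pow (A : ValuationSubring L) {q : ℕ} (hqp : q.Prime)
    (hq : A.valuation (q : L) < 1) {n : ℤ} (hn : n ≠ 0) :
    ∃ k : ℕ, A.valuation (n : L) = A.valuation (q : L) ^ k := by
  have hfin : FiniteMultiplicity (q : ℤ) n := by
    rw [Int.finiteMultiplicity_iff]
    exact ⟨by simpa using hqp.ne_one, hn⟩
  obtain ⟨c, hc, hdvd⟩ := hfin.exists_eq_pow_mul_and_not_dvd
  refine ⟨multiplicity (q : ℤ) n, ?_⟩
  have h1 : A.valuation (c : L) = 1 :=
    Fermat.Agent.H4.val_intCast_eq_one_of_not_dvd A hqp hq hdvd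
  have h2 : (n : L) = (q : L) ^ (multiplicity (q : ℤ) n) * (c : L) := by
    have := congrArg (fun z : ℤ => (z : L)) hc
    push_cast at this
    exact this
  rw [h2, map_mul, map_pow, h1, mul_one]

theorem val_natCast_prime_ne_zero [CharZero L] (A : ValuationSubring L) {q : ℕ}
    (hqp : q.Prime) :
    A.valuation (q : L) ≠ 0 := by
  rw [Valuation.ne_zero_iff]
  exact_mod_cast hqp.ne_zero

/-- The valuation of a nonzero rational is an integral power of the valuation of `q`. -/
theorem val_ratCast_eq_zpow [CharZero L] [Algebra ℚ L] (A : ValuationSubring L) {q : ℕ}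
    (hqp : q.Prime)
    (hq : A.valuation (q : L) < 1) {c : ℚ} (hc : c ≠ 0) :
    ∃ m : ℤ, A.valuation (algebraMap ℚ L c) = A.valuation (q : L) ^ m := by
  obtain ⟨k₁, h₁⟩ := val_intCast_eq_pow A hqp hq (Rat.num_ne_zero.mpr hc)
  obtain ⟨k₂, h₂⟩ := val_intCast_eq_pow A hqp hq (n := (c.den : ℤ))
    (by exact_mod_cast c.den_ne_zero)
  refine ⟨(k₁ : ℤ) - k₂, ?_⟩
  have hq0 : A.valuation (q : L) ≠ 0 := val_natCast_prime_ne_zero A hqp
  have hc' : algebraMap ℚ L c = (c.num : L) / (c.den : L) := by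
    rw [eq_ratCast]
    exact Rat.cast_def c
  have h₂' : A.valuation ((c.den : ℕ) : L) = A.valuation (q : L) ^ k₂ := by
    have := h₂
    push_cast at this
    exact this
  rw [hc', map_div₀, zpow_sub₀ hq0, zpow_natCast, zpow_natCast, h₁, h₂']

end RankOne

section Group

variable {Γ : Type*} [CommGroupWithZero Γ]

/-- Pure group-with-zero algebra: from `g^mi * a^i = g^mj * a^j` with `i < j` we get
`a^(j-i) = g^(mi-mj)`. -/
theorem pow_eq_zpow_of_lt {a g : Γ} (ha : a ≠ 0) (hg : g ≠ 0) {i j : ℕ} (hij : i < j)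
    {mi mj : ℤ} (h : g ^ mi * a ^ i = g ^ mj * a ^ j) :
    ∃ n : ℕ, 0 < n ∧ ∃ m : ℤ, a ^ n = g ^ m := by
  refine ⟨j - i, Nat.sub_pos_of_lt hij, mi - mj, ?_⟩
  have hai : a ^ i ≠ 0 := pow_ne_zero _ ha
  have hgj : g ^ mj ≠ 0 := zpow_ne_zero _ hg
  have hj : a ^ j = a ^ i * a ^ (j - i) := by
    rw [← pow_add]
    congr 1
    omega
  rw [hj] at h
  rw [zpow_sub₀ hg]
  field_simp
  calc a ^ (j - i) * g ^ mj = (g ^ mj * (a ^ i * a ^ (j - i))) / a ^ i := by
        field_simp
    _ = (g ^ mi * a ^ i) / a ^ i := by rw [h]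
    _ = g ^ mi := by field_simp

theorem pow_eq_zpow_of_ne {a g : Γ} (ha : a ≠ 0) (hg : g ≠ 0) {i j : ℕ} (hij : i ≠ j)
    {mi mj : ℤ} (h : g ^ mi * a ^ i = g ^ mj * a ^ j) :
    ∃ n : ℕ, 0 < n ∧ ∃ m : ℤ, a ^ n = g ^ m := by
  rcases lt_or_gt_of_ne hij with h1 | h1
  · exact pow_eq_zpow_of_lt ha hg h1 h
  · exact pow_eq_zpow_of_lt ha hg h1 h.symm

end Group

section RankOne2

variable {L : Type*} [Field L] [CharZero L] [Algebra ℚ L]

/-- Rank one: a power of the valuation of a nonzero algebraic element is an integral power of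
the valuation of `q`. -/
theorem exists_pow_eq_zpow (A : ValuationSubring L) {q : ℕ} (hqp : q.Prime)
    (hq : A.valuation (q : L) < 1) {x : L} (hx : x ≠ 0) (halg : IsAlgebraic ℚ x) :
    ∃ n : ℕ, 0 < n ∧ ∃ m : ℤ, A.valuation x ^ n = A.valuation (q : L) ^ m := by
  classical
  obtain ⟨P, hP0, hPx⟩ := halg
  have hg0 : A.valuation (q : L) ≠ 0 := val_natCast_prime_ne_zero A hqp
  have hvx : A.valuation x ≠ 0 := (Valuation.ne_zero_iff _).mpr hx
  have hsum : ∑ i ∈ P.support, algebraMap ℚ L (P.coeff i) * x ^ i = 0 := by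
    rw [← hPx, Polynomial.aeval_def, Polynomial.eval₂_eq_sum, Polynomial.sum_def]
  have hne : P.support.Nonempty := Polynomial.support_nonempty.mpr hP0
  obtain ⟨j, hj, hmax⟩ := Finset.exists_max_image P.support
    (fun i => A.valuation (algebraMap ℚ L (P.coeff i) * x ^ i)) hne
  by_contra hcon
  have hlt : ∀ i ∈ P.support \ {j},
      A.valuation (algebraMap ℚ L (P.coeff i) * x ^ i) <
        A.valuation (algebraMap ℚ L (P.coeff j) * x ^ j) := by
    intro i hi
    rw [Finset.mem_sdiff, Finset.mem_singleton] at hi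
    refine lt_of_le_of_ne (hmax i hi.1) ?_
    intro heq
    apply hcon
    obtain ⟨mi, hmi⟩ := val_ratCast_eq_zpow A hqp hq (Polynomial.mem_support_iff.mp hi.1)
    obtain ⟨mj, hmj⟩ := val_ratCast_eq_zpow A hqp hq (Polynomial.mem_support_iff.mp hj)
    rw [map_mul, map_mul, map_pow, map_pow, hmi, hmj] at heq
    exact pow_eq_zpow_of_ne hvx hg0 hi.2 heq
  have h := Valuation.map_sum_eq_of_lt A.valuation hj hlt
  rw [hsum, map_zero] at h
  have hcj : algebraMap ℚ L (P.coeff j) ≠ 0 := by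
    intro h0
    exact Polynomial.mem_support_iff.mp hj ((map_eq_zero _).mp h0)
  exact (Valuation.ne_zero_iff _).mpr (mul_ne_zero hcj (pow_ne_zero _ hx)) h.symm

end RankOne2

section Construct

variable {L : Type*} [Field L]

/-- From a rank-one statement relative to an element `g < 1` of the value group we get a
real-valued additive valuation inducing the same order. -/
theorem exists_addVal_of_rankOne (A : ValuationSubring L) (g : A.ValueGroup) (hg0 : g ≠ 0)
    (hg1 : g < 1)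
    (h : ∀ x : L, x ≠ 0 → ∃ n : ℕ, 0 < n ∧ ∃ m : ℤ, A.valuation x ^ n = g ^ m) :
    ∃ w : Fermat.Agent.H71.AddVal L, ∀ x y : L, x ≠ 0 → y ≠ 0 →
      (w.w x ≤ w.w y ↔ A.valuation y ≤ A.valuation x) := by
  classical
  have hgpos : (0 : A.ValueGroup) < g := zero_lt_iff.mpr hg0
  have hinj : Function.Injective fun n : ℤ => g ^ n :=
    zpow_right_injective₀ hgpos (ne_of_lt hg1)
  -- the function
  let W : L → ℝ := fun x =>
    if hx : x = 0 then 0
    else (((h x hx).choose_spec.2.choose : ℤ) : ℝ) / (((h x hx).choose : ℕ) : ℝ)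
  -- characterisation
  have hW : ∀ x : L, x ≠ 0 → ∀ n : ℕ, 0 < n → ∀ m : ℤ, A.valuation x ^ n = g ^ m →
      W x = (m : ℝ) / (n : ℝ) := by
    intro x hx n hn m hnm
    have hn0 : 0 < (h x hx).choose := (h x hx).choose_spec.1
    have hm0 : A.valuation x ^ (h x hx).choose = g ^ (h x hx).choose_spec.2.choose :=
      (h x hx).choose_spec.2.choose_spec
    have hWx : W x = (((h x hx).choose_spec.2.choose : ℤ) : ℝ) / (((h x hx).choose : ℕ) : ℝ) := by
      simp only [W, dif_neg hx]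
    rw [hWx]
    set n₀ := (h x hx).choose
    set m₀ := (h x hx).choose_spec.2.choose
    have key : g ^ (m₀ * n) = g ^ (m * n₀) := by
      rw [zpow_mul, zpow_mul, ← hm0, ← hnm, zpow_natCast, zpow_natCast, ← pow_mul, ← pow_mul,
        mul_comm]
    have hint : m₀ * n = m * n₀ := hinj key
    have hn' : (0 : ℝ) < n := by exact_mod_cast hn
    have hn0' : (0 : ℝ) < n₀ := by exact_mod_cast hn0
    rw [div_eq_div_iff (ne_of_gt hn0') (ne_of_gt hn')]
    exact_mod_cast hint
  -- order property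
  have hord : ∀ x y : L, x ≠ 0 → y ≠ 0 → (W x ≤ W y ↔ A.valuation y ≤ A.valuation x) := by
    intro x y hx hy
    obtain ⟨n₁, hn₁, m₁, h₁⟩ := h x hx
    obtain ⟨n₂, hn₂, m₂, h₂⟩ := h y hy
    rw [hW x hx n₁ hn₁ m₁ h₁, hW y hy n₂ hn₂ m₂ h₂]
    have hn₁' : (0 : ℝ) < n₁ := by exact_mod_cast hn₁
    have hn₂' : (0 : ℝ) < n₂ := by exact_mod_cast hn₂
    rw [div_le_div_iff₀ hn₁' hn₂']
    have hnn : n₁ * n₂ ≠ 0 := Nat.mul_ne_zero (Nat.pos_iff_ne_zero.mp hn₁)
      (Nat.pos_iff_ne_zero.mp hn₂)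
    have hpow : A.valuation y ≤ A.valuation x ↔
        A.valuation y ^ (n₁ * n₂) ≤ A.valuation x ^ (n₁ * n₂) :=
      (pow_le_pow_iff_left₀ zero_le zero_le hnn).symm
    have e₁ : A.valuation x ^ (n₁ * n₂) = g ^ (m₁ * n₂) := by
      rw [pow_mul, h₁, zpow_mul, zpow_natCast]
    have e₂ : A.valuation y ^ (n₁ * n₂) = g ^ (m₂ * n₁) := by
      rw [mul_comm n₁ n₂, pow_mul, h₂, zpow_mul, zpow_natCast]
    rw [hpow, e₁, e₂, zpow_le_zpow_iff_right_of_lt_one₀ hgpos hg1]
    constructor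
    · intro hle
      exact_mod_cast hle
    · intro hle
      exact_mod_cast hle
  refine ⟨⟨W, ?_, ?_⟩, hord⟩
  · -- multiplicativity
    intro x y hx hy
    obtain ⟨n₁, hn₁, m₁, h₁⟩ := h x hx
    obtain ⟨n₂, hn₂, m₂, h₂⟩ := h y hy
    have hxy : x * y ≠ 0 := mul_ne_zero hx hy
    have e : A.valuation (x * y) ^ (n₁ * n₂) = g ^ (m₁ * n₂ + m₂ * n₁) := by
      rw [map_mul, mul_pow, zpow_add₀ hg0]
      congr 1
      · rw [pow_mul, h₁, zpow_mul, zpow_natCast]
      · rw [mul_comm n₁ n₂, pow_mul, h₂, zpow_mul, zpow_natCast]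
    rw [hW x hx n₁ hn₁ m₁ h₁, hW y hy n₂ hn₂ m₂ h₂,
      hW (x * y) hxy (n₁ * n₂) (Nat.mul_pos hn₁ hn₂) _ e]
    have hn₁' : (n₁ : ℝ) ≠ 0 := by exact_mod_cast (Nat.pos_iff_ne_zero.mp hn₁)
    have hn₂' : (n₂ : ℝ) ≠ 0 := by exact_mod_cast (Nat.pos_iff_ne_zero.mp hn₂)
    push_cast
    field_simp
  · -- ultrametric inequality
    intro x y hx hy hxy
    rcases le_total (A.valuation x) (A.valuation y) with hle | hle
    · have h1 : A.valuation (x + y) ≤ A.valuation y :=
        (Valuation.map_add _ x y).trans (max_le hle le_rfl)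
      exact (min_le_right _ _).trans ((hord y (x + y) hy hxy).mpr h1)
    · have h1 : A.valuation (x + y) ≤ A.valuation x :=
        (Valuation.map_add _ x y).trans (max_le le_rfl hle)
      exact (min_le_left _ _).trans ((hord x (x + y) hx hxy).mpr h1)

end Construct

/-- **S05-BR.** A valuation subring of `AlgebraicClosure ℚ` lying over a prime `q` has rank one:
its valuation is order-equivalent to a real-valued additive valuation. -/
theorem exists_addVal (A : ValuationSubring (AlgebraicClosure ℚ)) {q : ℕ} (hq : q.Prime)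
    (hA : A.LiesOverPrime q) :
    ∃ w : Fermat.Agent.H71.AddVal (AlgebraicClosure ℚ), ∀ x y : AlgebraicClosure ℚ,
      x ≠ 0 → y ≠ 0 → (w.w x ≤ w.w y ↔ A.valuation y ≤ A.valuation x) := by
  have hq1 : A.valuation ((q : ℕ) : AlgebraicClosure ℚ) < 1 :=
    (ValuationSubring.mem_nonunits_iff A).mp hA
  exact exists_addVal_of_rankOne A (A.valuation ((q : ℕ) : AlgebraicClosure ℚ))
    (val_natCast_prime_ne_zero A hq) hq1
    (fun x hx => exists_pow_eq_zpow A hq hq1 hx ((AlgebraicClosure.isAlgebraic ℚ).isAlgebraic x))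

end Fermat.Agent.H73
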