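/-
helper73 (P-ES / ES-C1, second route): tower law for simple transcendental subfields along a
finite extension of fields `F → F'`:  `[F' : K(φ h)] = [F : K(h)] [F' : F]`.
Mathlib only.
-/
import Mathlib

set_option autoImplicit false

noncomputable section

open IntermediateField

namespace Fermat.Agent.H73.RelDict

variable {K F F' : Type*} [Field K] [Field F] [Field F'] [Algebra K F] [Algebra K F']
  [Algebra F F'] [IsScalarTower K F F']

/-- The image of `K⟮h⟯` under `F → F'` is `K⟮φ h⟯`. -/
theorem map_adjoin_simple (h : F) :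
    (K⟮h⟯).map (IsScalarTower.toAlgHom K F F') = K⟮algebraMap F F' h⟯ := by
  rw [IntermediateField.adjoin_map]
  simp

/-- The ring isomorphism `K⟮h⟯ ≃ K⟮φ h⟯`. -/
def adjoinEquiv (h : F) : K⟮h⟯ ≃+* K⟮algebraMap F F' h⟯ :=
  ((K⟮h⟯).equivMap (IsScalarTower.toAlgHom K F F')).toRingEquiv.trans
    (IntermediateField.equivOfEq (map_adjoin_simple (K := K) (F' := F') h)).toRingEquiv

theorem coe_adjoinEquiv (h : F) (a : K⟮h⟯) :
    ((adjoinEquiv (K := K) (F' := F') h a : K⟮algebraMap F F' h⟯) : F')
      = algebraMap F F' (a : F) := rfl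

/-- Tower law through the image of a simple subfield. -/
theorem finite_and_finrank_adjoin_map (h : F) [FiniteDimensional K⟮h⟯ F] [Module.Finite F F'] :
    FiniteDimensional K⟮algebraMap F F' h⟯ F' ∧
      Module.finrank K⟮algebraMap F F' h⟯ F' = Module.finrank K⟮h⟯ F * Module.finrank F F' := by
  have tower : IsScalarTower K⟮h⟯ F F' := inferInstance
  have fin : Module.Finite K⟮h⟯ F' := Module.Finite.trans F F'
  have hc : (algebraMap K⟮algebraMap F F' h⟯ F').comp
      (adjoinEquiv (K := K) (F' := F') h).toRingHom
        = (RingEquiv.refl F').toRingHom.comp (algebraMap K⟮h⟯ F') := by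
    ext a
    rfl
  refine ⟨Module.Finite.of_equiv_equiv (adjoinEquiv (K := K) (F' := F') h) (RingEquiv.refl F') hc,
    ?_⟩
  rw [← Algebra.finrank_eq_of_equiv_equiv (adjoinEquiv (K := K) (F' := F') h)
    (RingEquiv.refl F') hc]
  exact (Module.finrank_mul_finrank K⟮h⟯ F F').symm

/-- Transcendence is preserved by a field embedding over `K`. -/
theorem transcendental_algebraMap {h : F} (hh : Transcendental K h) :
    Transcendental K (algebraMap F F' h) := by
  intro halg
  exact hh ((isAlgebraic_algebraMap_iff (algebraMap F F').injective).mp halg)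

end Fermat.Agent.H73.RelDict

end
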