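/-
helper73 (P-ES / ES-C1-REL-FI, second route): the relative fundamental identity
`∑_{w ∣ v} e(w ∣ v) = [F' : F]` for a finite extension of function fields of one variable over
an algebraically closed field of characteristic zero, WITHOUT the Dedekind dictionary:
Riemann's theorem gives `h ∈ F` whose only zero is `v`; the (absolute) fundamental identity
for `h` in `F` and in `F'` and the tower law give the claim.
-/
import Fermat.Agent.H73.RelTower
import Fermat.Agent.H29.FundamentalIdentity
import Fermat.Agent.H58.RR.CharZero
import Fermat.Agent.H12.FunctionFieldBasics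
import Fermat.Prelude.Def_AlgebraicCurve_DivisorPushPull

set_option autoImplicit false

noncomputable section

open AlgebraicCurve IntermediateField

namespace Fermat.Agent.H73.RelDict

section single

variable {K F : Type} [Field K] [Field F] [Algebra K F] [IsAlgClosed K] [CharZero K]

/-- Riemann: every place is the only pole of some function. -/
theorem exists_single_pole (x : F) (hx : Transcendental K x) (hfin : FiniteDimensional K⟮x⟯ F)
    (v : Place K F) :
    ∃ f : F, (∀ c : K, f ≠ algebraMap K F c) ∧ v.ord f < 0 ∧
      ∀ v' : Place K F, v' ≠ v → 0 ≤ v'.ord f := by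
  classical
  have hR : Fermat.Agent.H58.RRHyp K F := Fermat.Agent.H58.rrHyp_charZero K F x hx hfin
  have hP : HasPrincipalDivisors K F := hR.principal
  set D : Divisor K F := Finsupp.single v ((genusFF K F : ℤ) + 1) with hD
  have hineq := hR.riemann_inequality D
  have hdegD : Divisor.degree D = (genusFF K F : ℤ) + 1 := by
    rw [hD, Divisor.degree_single, hR.deg_one v]
    simp
  have h2 : 2 ≤ Module.finrank K (riemannRochSpace D) := by
    have : (2 : ℤ) ≤ (Module.finrank K (riemannRochSpace D) : ℤ) := by omega
    exact_mod_cast this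
  have hex : ∃ f : F, f ∈ riemannRochSpace D ∧ ∀ c : K, f ≠ algebraMap K F c := by
    by_contra hcon
    simp only [not_exists, not_and, not_forall, not_not] at hcon
    have hle : riemannRochSpace D ≤ Submodule.span K {(1 : F)} := by
      intro f hf
      obtain ⟨c, hc⟩ := hcon f hf
      rw [Submodule.mem_span_singleton]
      exact ⟨c, by rw [hc, Algebra.smul_def, mul_one]⟩
    have h3 := Submodule.finrank_mono hle
    rw [finrank_span_singleton (one_ne_zero)] at h3
    omega
  obtain ⟨f, hfD, hfc⟩ := hex
  have hf0 : f ≠ 0 := by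
    intro h0
    exact hfc 0 (by rw [h0, map_zero])
  have hmem := mem_riemannRochSpace_iff.mp hfD
  have hother : ∀ v' : Place K F, v' ≠ v → 0 ≤ v'.ord f := by
    intro v' hv'
    have := (hmem v').resolve_left hf0
    rw [hD, Finsupp.single_eq_of_ne hv'] at this
    omega
  refine ⟨f, hfc, ?_, hother⟩
  by_contra hnn
  rw [not_lt] at hnn
  have hf0mem : f ∈ riemannRochSpace (0 : Divisor K F) := by
    rw [mem_riemannRochSpace_iff]
    intro v'
    right
    simp only [Finsupp.coe_zero, Pi.zero_apply, neg_zero]
    by_cases hv' : v' = v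
    · rw [hv']; exact hnn
    · exact hother v' hv'
  obtain ⟨c, hc⟩ := (Fermat.Agent.H58.rr_mem_zero_iff hR.deg_one v).mp hf0mem
  exact hfc c hc

/-- Riemann: every place is the only zero of some (transcendental) function. -/
theorem exists_single_zero (x : F) (hx : Transcendental K x) (hfin : FiniteDimensional K⟮x⟯ F)
    (v : Place K F) :
    ∃ h : F, Transcendental K h ∧ ∀ v' : Place K F, 0 < v'.ord h ↔ v' = v := by
  obtain ⟨f, hfc, hfv, hother⟩ := exists_single_pole x hx hfin v
  refine ⟨f⁻¹, ?_, ?_⟩
  · intro halg
    have := halg.inv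
    rw [inv_inv] at this
    obtain ⟨c, hc⟩ := Fermat.Agent.H12.exists_algebraMap_eq_of_isAlgebraic this
    exact hfc c hc.symm
  · intro v'
    rw [Place.ord_inv]
    constructor
    · intro hpos
      by_contra hne
      have := hother v' hne
      omega
    · rintro rfl
      omega

end single

section degOne

variable {K F : Type} [Field K] [Field F] [Algebra K F] [IsAlgClosed K]

/-- All places of `F` have degree one. -/
theorem deg_eq_one_bot (x : F) (hfin : FiniteDimensional K⟮x⟯ F) (v : Place K F) :
    v.deg = 1 := by
  haveI := hfin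
  exact Fermat.Agent.H29.place_deg_eq_one (y := x) v

variable {F' : Type} [Field F'] [Algebra K F'] [Algebra F F'] [IsScalarTower K F F']
  [Module.Finite F F']

omit [IsAlgClosed K] in
/-- The base change of a coordinate of `F` is a coordinate of `F'`. -/
theorem finiteDimensional_adjoin_algebraMap (x : F) (hfin : FiniteDimensional K⟮x⟯ F) :
    FiniteDimensional K⟮algebraMap F F' x⟯ F' :=
  haveI := hfin
  (finite_and_finrank_adjoin_map (K := K) (F' := F') x).1

/-- All places of `F'` have degree one. -/
theorem deg_eq_one_top (x : F) (hfin : FiniteDimensional K⟮x⟯ F) (w : Place K F') :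
    w.deg = 1 := by
  haveI := finiteDimensional_adjoin_algebraMap (K := K) (F' := F') x hfin
  exact Fermat.Agent.H29.place_deg_eq_one (y := algebraMap F F' x) w

end degOne

section relative

variable {K F F' : Type} [Field K] [Field F] [Field F'] [Algebra K F] [Algebra K F']
  [Algebra F F'] [IsScalarTower K F F'] [IsAlgClosed K] [CharZero K] [Module.Finite F F']
  [HasPrincipalDivisors K F']

/-- **Relative fundamental identity**, in the form `∑_{w ∣ v} e(w ∣ v) = [F' : F]`. -/
theorem sum_ramificationIndex_eq_finrank (x : F) (hx : Transcendental K x)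
    (hfin : FiniteDimensional K⟮x⟯ F) (v : Place K F) :
    ∑ w ∈ v.fiber F', (w.ramificationIndex F : ℤ) = (Module.finrank F F' : ℤ) := by
  classical
  obtain ⟨h, hh, hzero⟩ := exists_single_zero x hx hfin v
  haveI := hfin
  haveI hfinh : FiniteDimensional K⟮h⟯ F :=
    Fermat.Agent.H12.finiteDimensional_adjoin_simple_of_transcendental x h hh
  obtain ⟨hfinF', hrank⟩ := finite_and_finrank_adjoin_map (K := K) (F' := F') h
  haveI := hfinF'
  have hh' : Transcendental K (algebraMap F F' h) := transcendental_algebraMap hh
  -- the identity downstairs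
  obtain ⟨-, hsumF⟩ := Fermat.Agent.H29.fundamentalIdentity_zeros h hh
  have hsetF : {v' : Place K F | 0 < v'.ord h} = {v} := by
    ext v'
    simp only [Set.mem_ofPred_eq, Set.mem_singleton_iff]
    exact hzero v'
  rw [hsetF, finsum_mem_singleton] at hsumF
  -- the identity upstairs
  obtain ⟨-, hsumF'⟩ := Fermat.Agent.H29.fundamentalIdentity_zeros (algebraMap F F' h) hh'
  have hsetF' : {w : Place K F' | 0 < w.ord (algebraMap F F' h)} = ↑(v.fiber F') := by
    ext w
    simp only [Set.mem_ofPred_eq, Finset.mem_coe, Place.mem_fiber]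
    rw [w.ord_restrict h, ← hzero (w.restrict F)]
    have hepos : 0 < Place.ramificationIndex (F := F) w := w.ramificationIndex_pos (F := F)
    constructor
    · intro hpos
      by_contra hcon
      rw [not_lt] at hcon
      have : (Place.ramificationIndex (F := F) w : ℤ) * (w.restrict F).ord h ≤ 0 :=
        mul_nonpos_of_nonneg_of_nonpos (by omega) hcon
      omega
    · intro hpos
      exact mul_pos (by exact_mod_cast hepos) hpos
  rw [hsetF', finsum_mem_coe_finset] at hsumF'
  have hterm : ∀ w ∈ v.fiber F', w.ord (algebraMap F F' h)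
      = (w.ramificationIndex F : ℤ) * v.ord h := by
    intro w hw
    rw [w.ord_restrict h, Place.mem_fiber.mp hw]
  rw [Finset.sum_congr rfl hterm, ← Finset.sum_mul, hrank, hsumF] at hsumF'
  have hpos : 0 < Module.finrank K⟮h⟯ F := Module.finrank_pos
  have hpos' : (0 : ℤ) < (Module.finrank K⟮h⟯ F : ℤ) := by exact_mod_cast hpos
  push_cast at hsumF'
  have hcomm : (Module.finrank K⟮h⟯ F : ℤ) * (Module.finrank F F' : ℤ)
      = (Module.finrank F F' : ℤ) * (Module.finrank K⟮h⟯ F : ℤ) := mul_comm _ _
  rw [hcomm] at hsumF'
  exact mul_right_cancel₀ hpos'.ne' hsumF'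

/-- **Relative fundamental identity** (prelude class). -/
theorem fundamentalIdentity_of_coordinate (x : F) (hx : Transcendental K x)
    (hfin : FiniteDimensional K⟮x⟯ F) : FundamentalIdentity K F F' := by
  refine ⟨fun v => ?_⟩
  rw [deg_eq_one_bot x hfin v]
  have h1 : ∀ w ∈ v.fiber F', (w.ramificationIndex F : ℤ) * (w.deg : ℤ)
      = (w.ramificationIndex F : ℤ) := by
    intro w _
    rw [deg_eq_one_top (K := K) (F' := F') x hfin w]
    simp
  rw [Finset.sum_congr rfl h1, sum_ramificationIndex_eq_finrank x hx hfin v]
  simp

end relative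

end Fermat.Agent.H73.RelDict

end
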