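/-
helper73 (P-ES / ES-C1-REL-NF, second route), part 2: weak approximation in the form needed —
for a finite set `T` of places and `w₀ ∈ T` there is a function with order `1` at `w₀` and order
`0` at the other places of `T`.  Proof: Riemann's theorem (`H1 = 0` in large degree) and the fact
that a vector space over an infinite field is not a finite union of proper subspaces.
-/
import Fermat.Agent.H58.RR.CharZero
import Fermat.Agent.H58.RR.NonSpecial

set_option autoImplicit false

noncomputable section

open AlgebraicCurve IntermediateField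

namespace Fermat.Agent.H73.RelDict

variable {K F : Type} [Field K] [Field F] [Algebra K F]

/-- Membership in `L(D)` but not in `L(D - w)` pins down the order at `w`. -/
theorem ord_eq_of_mem_of_notMem_sub_single {D : Divisor K F} {w : Place K F} {t : F}
    (h1 : t ∈ riemannRochSpace D) (h2 : t ∉ riemannRochSpace (D - Finsupp.single w 1)) :
    t ≠ 0 ∧ w.ord t = -D w := by
  classical
  have ht0 : t ≠ 0 := by
    rintro rfl
    exact h2 (Submodule.zero_mem _)
  refine ⟨ht0, ?_⟩
  have hmem := mem_riemannRochSpace_iff.mp h1
  rw [mem_riemannRochSpace_iff] at h2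
  push Not at h2
  obtain ⟨v', -, hv'⟩ := h2
  have hge := (hmem w).resolve_left ht0
  by_cases hvw : v' = w
  · subst hvw
    simp only [Finsupp.coe_sub, Pi.sub_apply, Finsupp.single_eq_same] at hv'
    omega
  · exfalso
    have := (hmem v').resolve_left ht0
    simp only [Finsupp.coe_sub, Pi.sub_apply, Finsupp.single_eq_of_ne hvw] at hv'
    omega

/-- **Weak approximation** (special case): a function of order `1` at `w₀` and of order `0` at
the other places of a finite set. -/
theorem exists_ord_one_of_mem_finset (hR : Fermat.Agent.H58.RRHyp K F) [Infinite K]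
    (T : Finset (Place K F)) (w₀ : Place K F) :
    ∃ t : F, t ≠ 0 ∧ w₀.ord t = 1 ∧ ∀ w ∈ T, w ≠ w₀ → w.ord t = 0 := by
  classical
  haveI := hR.principal
  obtain ⟨c, hc⟩ := hR.exists_degree_bound
  haveI : Infinite (Place K F) := hR.infinite_place
  obtain ⟨P, hP⟩ := Infinite.exists_notMem_finset (insert w₀ T)
  have hPw₀ : P ≠ w₀ := fun h => hP (h ▸ Finset.mem_insert_self _ _)
  have hPT : ∀ w ∈ T, w ≠ P := fun w hw h => hP (h ▸ Finset.mem_insert_of_mem hw)
  set m : ℤ := |c| + 2 with hm
  have hmc : c + 2 ≤ m := by
    have := le_abs_self c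
    omega
  set D : Divisor K F := Finsupp.single P m - Finsupp.single w₀ 1 with hD
  have hdegD : Divisor.degree D = m - 1 := by
    rw [hD, map_sub, Divisor.degree_single, Divisor.degree_single, hR.deg_one, hR.deg_one]
    simp
  have hH1D : Module.finrank K (H1 D) = 0 := hc D (by omega)
  have hlD : (Module.finrank K (riemannRochSpace D) : ℤ) = m - (genusFF K F : ℤ) := by
    have := (hR.riemann D).2
    rw [hH1D, hdegD] at this
    push_cast at this
    omega
  have hlDw : ∀ w : Place K F,
      (Module.finrank K (riemannRochSpace (D - Finsupp.single w 1)) : ℤ)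
        = m - 1 - (genusFF K F : ℤ) := by
    intro w
    have hdeg : Divisor.degree (D - Finsupp.single w 1) = m - 2 := by
      rw [map_sub, hdegD, Divisor.degree_single, hR.deg_one]
      simp
      ring
    have hH1 : Module.finrank K (H1 (D - Finsupp.single w 1)) = 0 := hc _ (by omega)
    have := (hR.riemann (D - Finsupp.single w 1)).2
    rw [hH1, hdeg] at this
    push_cast at this
    omega
  haveI := hR.finite_space D
  -- the proper subspaces of `L(D)`
  let p : Place K F → Subspace K (riemannRochSpace D) := fun w =>
    (riemannRochSpace (D - Finsupp.single w 1)).comap (riemannRochSpace D).subtype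
  have hptop : ∀ w, p w ≠ ⊤ := by
    intro w htop
    have hle : riemannRochSpace D ≤ riemannRochSpace (D - Finsupp.single w 1) := by
      intro f hf
      have : (⟨f, hf⟩ : riemannRochSpace D) ∈ p w := by rw [htop]; trivial
      exact this
    haveI := hR.finite_space (D - Finsupp.single w 1)
    have h3 := Submodule.finrank_mono hle
    have h4 := hlDw w
    omega
  have hnot : (⊤ : Subspace K (riemannRochSpace D)) ∉ (insert w₀ T).image p := by
    intro h
    obtain ⟨w, -, hw⟩ := Finset.mem_image.mp h
    exact hptop w hw
  have hne := Subspace.biUnion_ne_univ_of_top_notMem hnot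
  rw [Ne, Set.eq_univ_iff_forall, not_forall] at hne
  obtain ⟨⟨t, htD⟩, ht⟩ := hne
  simp only [Set.mem_iUnion, not_exists] at ht
  have htw : ∀ w ∈ insert w₀ T, t ∉ riemannRochSpace (D - Finsupp.single w 1) := by
    intro w hw hmem
    exact ht (p w) (Finset.mem_image_of_mem p hw) hmem
  have h0 := ord_eq_of_mem_of_notMem_sub_single htD (htw w₀ (Finset.mem_insert_self _ _))
  refine ⟨t, h0.1, ?_, ?_⟩
  · rw [h0.2, hD]
    simp only [Finsupp.coe_sub, Pi.sub_apply, Finsupp.single_eq_same,
      Finsupp.single_eq_of_ne hPw₀.symm]
    omega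
  · intro w hw hww₀
    have h1 := ord_eq_of_mem_of_notMem_sub_single htD (htw w (Finset.mem_insert_of_mem hw))
    rw [h1.2, hD]
    simp only [Finsupp.coe_sub, Pi.sub_apply, Finsupp.single_eq_of_ne hww₀,
      Finsupp.single_eq_of_ne (hPT w hw)]
    omega

end Fermat.Agent.H73.RelDict

end
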