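/-
helper73 (P-ES / ES-C1-REL-NF, second route), part 1: integrality over the valuation ring of a
place `v` of `F` inside a finite extension `F'`:
* valuative criterion: `ord_w g ≥ 0` for all `w ∣ v` implies `g` integral over `O_v`
  (Mathlib: integrally closed subrings are intersections of valuation rings; landed ESB-1:
  valuation rings over the constants are places);
* for `g` integral: `N(g) ∈ O_v` and `N(g) = g y` with `y` integral.
-/
import Fermat.Agent.H73.RelFICore
import Fermat.Agent.H39.ESBValuationRing

set_option autoImplicit false

noncomputable section

open AlgebraicCurve IntermediateField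

namespace Fermat.Agent.H73.RelDict

section easy

variable {K F F' : Type} [Field K] [Field F] [Field F'] [Algebra K F] [Algebra K F']
  [Algebra F F'] [IsScalarTower K F F'] [Algebra.IsIntegral F F']

/-- Integral elements over `O_v` lie in the valuation ring of every place above `v`. -/
theorem ord_nonneg_of_isIntegral (v : Place K F) {g : F'}
    (hg : IsIntegral v.toValuationSubring g) (w : Place K F') (hw : w.restrict F = v) :
    0 ≤ w.ord g := by
  have hAV : ∀ a : v.toValuationSubring,
      algebraMap v.toValuationSubring F' a ∈ w.toValuationSubring := by
    intro a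
    have ha : (a : F) ∈ (w.restrict F).toValuationSubring := by rw [hw]; exact a.2
    exact (Place.mem_restrict_iff w).mp ha
  let ψ : v.toValuationSubring →+* w.toValuationSubring :=
    (algebraMap v.toValuationSubring F').codRestrict w.toValuationSubring.toSubring hAV
  letI : Algebra v.toValuationSubring w.toValuationSubring := ψ.toAlgebra
  haveI : IsScalarTower v.toValuationSubring w.toValuationSubring F' :=
    IsScalarTower.of_algebraMap_eq (fun a => rfl)
  have hg' : IsIntegral w.toValuationSubring g := hg.tower_top
  obtain ⟨a, ha⟩ := IsIntegrallyClosed.isIntegral_iff.mp hg'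
  rw [← ha]
  exact Fermat.Agent.H29.place_ord_nonneg_of_mem w a.2

end easy

section main

variable {K F F' : Type} [Field K] [Field F] [Field F'] [Algebra K F] [Algebra K F']
  [Algebra F F'] [IsScalarTower K F F'] [IsAlgClosed K] [CharZero K] [Module.Finite F F']

/-- **Valuative criterion of integrality** over the valuation ring of a place. -/
theorem isIntegral_of_forall_ord_nonneg (x : F) (hx : Transcendental K x)
    (hfin : FiniteDimensional K⟮x⟯ F) (v : Place K F) {g : F'}
    (hg : ∀ w : Place K F', w.restrict F = v → 0 ≤ w.ord g) :
    IsIntegral v.toValuationSubring g := by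
  by_contra hcon
  have hnot : g ∉ (integralClosure v.toValuationSubring F').toSubring := hcon
  obtain ⟨V, hV, hgV⟩ :=
    Subring.exists_le_valuationSubring_of_isIntegrallyClosedIn hnot
  have hAV : ∀ a : v.toValuationSubring, algebraMap v.toValuationSubring F' a ∈ V := by
    intro a
    exact hV (algebraMap_mem (integralClosure v.toValuationSubring F') a)
  have hKV : ∀ a : K, algebraMap K F' a ∈ V := by
    intro a
    have := hAV ⟨algebraMap K F a, v.algebraMap_mem' a⟩
    rwa [IsScalarTower.algebraMap_apply K F F']
  have hVtop : V ≠ ⊤ := by
    intro h
    exact hgV (h ▸ ValuationSubring.mem_top g)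
  have hfin' := finiteDimensional_adjoin_algebraMap (K := K) (F' := F') x hfin
  obtain ⟨w, hw⟩ := Fermat.Agent.H39.valuationRingDVR K F' (algebraMap F F' x)
    (transcendental_algebraMap hx) hfin' V hKV hVtop
  have hwv : w.restrict F = v := by
    symm
    refine Fermat.Agent.H23.place_ext_of_ord v (w.restrict F) fun f hf => ?_
    have hfv : f ∈ v.toValuationSubring := Fermat.Agent.H29.place_mem_of_ord_nonneg v hf
    have : algebraMap F F' f ∈ w.toValuationSubring := by
      rw [hw]
      exact hAV ⟨f, hfv⟩
    exact Fermat.Agent.H29.place_ord_nonneg_of_mem (w.restrict F)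
      ((Place.mem_restrict_iff w).mpr this)
  have := Fermat.Agent.H29.place_mem_of_ord_nonneg w (hg w hwv)
  rw [hw] at this
  exact hgV this

omit [IsAlgClosed K] [IsScalarTower K F F'] [Algebra K F'] in
/-- For `g` integral over `O_v`: the norm lies in `O_v`, and it is `g` times an integral
element. -/
theorem norm_of_isIntegral (v : Place K F) {g : F'} (hg : IsIntegral v.toValuationSubring g) :
    0 ≤ v.ord (Algebra.norm F g) ∧
      ∃ y : F', IsIntegral v.toValuationSubring y ∧ algebraMap F F' (Algebra.norm F g) = g * y := by
  have hcF : CharZero F := charZero_of_injective_algebraMap (algebraMap K F).injective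
  have : IsIntegrallyClosed (integralClosure v.toValuationSubring F') :=
    integralClosure.isIntegrallyClosedOfFiniteExtension F
  have : Module.Finite v.toValuationSubring (integralClosure v.toValuationSubring F') :=
    IsIntegralClosure.finite v.toValuationSubring F F' _
  have : Module.IsTorsionFree v.toValuationSubring (integralClosure v.toValuationSubring F') := by
    rw [Module.isTorsionFree_iff_algebraMap_injective]
    intro a b hab
    have h := congrArg (algebraMap (integralClosure v.toValuationSubring F') F') hab
    rw [← IsScalarTower.algebraMap_apply, ← IsScalarTower.algebraMap_apply,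
      IsScalarTower.algebraMap_apply v.toValuationSubring F F',
      IsScalarTower.algebraMap_apply v.toValuationSubring F F'] at h
    exact Subtype.ext ((algebraMap F F').injective h)
  let xg : integralClosure v.toValuationSubring F' := ⟨g, hg⟩
  have h1 := Algebra.dvd_algebraMap_intNorm_self v.toValuationSubring
    (integralClosure v.toValuationSubring F') xg
  have h2 : algebraMap v.toValuationSubring F
      (Algebra.intNorm v.toValuationSubring (integralClosure v.toValuationSubring F') xg)
      = Algebra.norm F g :=
    Algebra.algebraMap_intNorm (A := v.toValuationSubring) (K := F) (L := F') xg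
  constructor
  · rw [← h2]
    exact Fermat.Agent.H29.place_ord_nonneg_of_mem v (Subtype.mem _)
  · obtain ⟨y, hy⟩ := h1
    refine ⟨(y : F'), y.2, ?_⟩
    have := congrArg (algebraMap (integralClosure v.toValuationSubring F') F') hy
    rw [map_mul, ← IsScalarTower.algebraMap_apply,
      IsScalarTower.algebraMap_apply v.toValuationSubring F F', h2] at this
    exact this

end main

end Fermat.Agent.H73.RelDict

end
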