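/-
helper73 (P-ES / ES-C1-REL-NF, second route), part 3: the norm formula
`ord_v (N_{F'/F} g) = ∑_{w ∣ v} ord_w g` for a finite extension of function fields of one
variable over an algebraically closed field of characteristic zero.

Route (no Dedekind dictionary, no `relNorm`): with `φ = ord_v ∘ N` and `μ_w = φ(t_w)` for
`t_w` a uniformiser at `w` which is a unit at the other places above `v` (weak approximation),
integrality gives `φ = ∑ μ_w ord_w` and `μ_w ≥ 1`; evaluating at a uniformiser of `v` gives
`∑ e_w μ_w = n`, and the relative fundamental identity `∑ e_w = n` forces `μ_w = 1`.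
-/
import Fermat.Agent.H73.RelNFInt
import Fermat.Agent.H73.RelNFApprox

set_option autoImplicit false

noncomputable section

open AlgebraicCurve IntermediateField

namespace Fermat.Agent.H73.RelDict

section homs

variable {K F : Type} [Field K] [Field F] [Algebra K F]

/-- `ord` as an additive homomorphism on the (additive version of the) unit group. -/
def ordA (w : Place K F) : Additive Fˣ →+ ℤ :=
  AddMonoidHom.mk' (fun u => w.ord ((Additive.toMul u : Fˣ) : F)) (by
    intro a b
    show w.ord (((Additive.toMul a * Additive.toMul b : Fˣ)) : F) = _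
    rw [Units.val_mul]
    exact w.ord_mul (Units.ne_zero _) (Units.ne_zero _))

theorem ordA_apply (w : Place K F) (u : Additive Fˣ) :
    ordA w u = w.ord ((Additive.toMul u : Fˣ) : F) := rfl

theorem ordA_ofMul_mk0 (w : Place K F) {g : F} (hg : g ≠ 0) :
    ordA w (Additive.ofMul (Units.mk0 g hg)) = w.ord g := rfl

end homs

section relative

variable {K F F' : Type} [Field K] [Field F] [Field F'] [Algebra K F] [Algebra K F']
  [Algebra F F'] [IsScalarTower K F F'] [IsAlgClosed K] [CharZero K] [Module.Finite F F']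
  [HasPrincipalDivisors K F']

/-- `ord_v ∘ N_{F'/F}` as an additive homomorphism. -/
def normOrdA (v : Place K F) : Additive F'ˣ →+ ℤ :=
  (ordA v).comp (MonoidHom.toAdditive (Units.map (Algebra.norm F : F' →* F)))

omit [IsAlgClosed K] [CharZero K] [HasPrincipalDivisors K F'] [Module.Finite F F']
  [IsScalarTower K F F'] [Algebra K F'] in
theorem normOrdA_apply (v : Place K F) (u : Additive F'ˣ) :
    normOrdA (F' := F') v u = v.ord (Algebra.norm F ((Additive.toMul u : F'ˣ) : F')) := rfl

omit [IsAlgClosed K] [CharZero K] [HasPrincipalDivisors K F'] [Module.Finite F F']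
  [IsScalarTower K F F'] [Algebra K F'] in
theorem normOrdA_ofMul_mk0 (v : Place K F) {g : F'} (hg : g ≠ 0) :
    normOrdA (F' := F') v (Additive.ofMul (Units.mk0 g hg)) = v.ord (Algebra.norm F g) := rfl

/-- Integral elements: `φ ≥ 0` and `ord_w ≤ e_w φ`. -/
theorem normOrdA_of_nonneg (x : F) (hx : Transcendental K x) (hfin : FiniteDimensional K⟮x⟯ F)
    (v : Place K F) (u : Additive F'ˣ) (hu : ∀ w ∈ v.fiber F', 0 ≤ ordA w u) :
    0 ≤ normOrdA (F' := F') v u ∧
      ∀ w ∈ v.fiber F', ordA w u ≤ (w.ramificationIndex F : ℤ) * normOrdA (F' := F') v u := by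
  set g : F' := ((Additive.toMul u : F'ˣ) : F') with hg
  have hg0 : g ≠ 0 := Units.ne_zero _
  have hint : IsIntegral v.toValuationSubring g :=
    isIntegral_of_forall_ord_nonneg x hx hfin v fun w hw => hu w (Place.mem_fiber.mpr hw)
  obtain ⟨h1, y, hy, hNy⟩ := norm_of_isIntegral v hint
  refine ⟨h1, fun w hw => ?_⟩
  have hwv : w.restrict F = v := Place.mem_fiber.mp hw
  have hN0 : Algebra.norm F g ≠ 0 := Algebra.norm_ne_zero_iff.mpr hg0
  have hy0 : y ≠ 0 := by
    rintro rfl
    rw [mul_zero] at hNy
    exact hN0 ((map_eq_zero (algebraMap F F')).mp hNy)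
  have h2 : w.ord (algebraMap F F' (Algebra.norm F g))
      = (w.ramificationIndex F : ℤ) * v.ord (Algebra.norm F g) := by
    rw [w.ord_restrict, hwv]
  have h3 : w.ord (algebraMap F F' (Algebra.norm F g)) = w.ord g + w.ord y := by
    rw [hNy, w.ord_mul hg0 hy0]
  have h4 : 0 ≤ w.ord y := ord_nonneg_of_isIntegral v hy w hwv
  rw [normOrdA_apply, ordA_apply, ← hg, ← h2, h3]
  omega

/-- Units at all places above `v` have norm of order `0`. -/
theorem normOrdA_eq_zero (x : F) (hx : Transcendental K x) (hfin : FiniteDimensional K⟮x⟯ F)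
    (v : Place K F) (u : Additive F'ˣ) (hu : ∀ w ∈ v.fiber F', ordA w u = 0) :
    normOrdA (F' := F') v u = 0 := by
  have h1 := (normOrdA_of_nonneg x hx hfin v u fun w hw => (hu w hw).ge).1
  have h2 := (normOrdA_of_nonneg x hx hfin v (-u) fun w hw => by
    rw [map_neg, hu w hw, neg_zero]).1
  rw [map_neg] at h2
  omega

/-- **Norm formula**, homomorphism form. -/
theorem normOrdA_eq_sum (x : F) (hx : Transcendental K x) (hfin : FiniteDimensional K⟮x⟯ F)
    (v : Place K F) (u : Additive F'ˣ) :
    normOrdA (F' := F') v u = ∑ w ∈ v.fiber F', ordA w u := by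
  classical
  have hfin' := finiteDimensional_adjoin_algebraMap (K := K) (F' := F') x hfin
  have hR' : Fermat.Agent.H58.RRHyp K F' :=
    Fermat.Agent.H58.rrHyp_charZero K F' (algebraMap F F' x) (transcendental_algebraMap hx) hfin'
  -- uniformisers which are units at the other places above `v`
  have hex : ∀ w₀ : Place K F', ∃ t : Additive F'ˣ, ordA w₀ t = 1 ∧
      ∀ w ∈ v.fiber F', w ≠ w₀ → ordA w t = 0 := by
    intro w₀
    obtain ⟨t, ht0, h1, h2⟩ := exists_ord_one_of_mem_finset hR' (v.fiber F') w₀
    exact ⟨Additive.ofMul (Units.mk0 t ht0), h1, h2⟩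
  choose t ht1 ht0 using hex
  set μ : Place K F' → ℤ := fun w => normOrdA (F' := F') v (t w) with hμ
  have hepos : ∀ w : Place K F', (0 : ℤ) < (w.ramificationIndex F : ℤ) := fun w => by
    exact_mod_cast w.ramificationIndex_pos (F := F)
  -- `μ_w ≥ 1`
  have hμ1 : ∀ w ∈ v.fiber F', 1 ≤ μ w := by
    intro w hw
    have h := (normOrdA_of_nonneg x hx hfin v (t w) fun w' hw' => by
      by_cases hww : w' = w
      · rw [hww, ht1]; omega
      · rw [ht0 w w' hw' hww]).2 w hw
    rw [ht1] at h
    by_contra hcon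
    rw [not_le] at hcon
    have : (w.ramificationIndex F : ℤ) * normOrdA (F' := F') v (t w) ≤ 0 :=
      mul_nonpos_of_nonneg_of_nonpos (hepos w).le (by rw [hμ] at hcon; simpa using Int.lt_add_one_iff.mp hcon)
    omega
  -- `φ = ∑ μ_w ord_w`
  have hφ : ∀ u : Additive F'ˣ,
      normOrdA (F' := F') v u = ∑ w ∈ v.fiber F', ordA w u * μ w := by
    intro u
    have h0 : normOrdA (F' := F') v (u - ∑ w ∈ v.fiber F', ordA w u • t w) = 0 := by
      refine normOrdA_eq_zero x hx hfin v _ fun w' hw' => ?_
      rw [map_sub, map_sum]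
      simp only [map_zsmul, smul_eq_mul]
      rw [Finset.sum_eq_single w']
      · rw [ht1, mul_one, sub_self]
      · intro w _ hww
        rw [ht0 w w' hw' (Ne.symm hww), mul_zero]
      · intro h
        exact absurd hw' h
    rw [map_sub, map_sum, sub_eq_zero] at h0
    rw [h0]
    refine Finset.sum_congr rfl fun w _ => ?_
    rw [map_zsmul, smul_eq_mul]
  -- evaluate at a uniformiser of `v`
  obtain ⟨π, hπ0, hπ⟩ := Fermat.Agent.H58.rr_exists_ord_eq v 1
  have hπ' : algebraMap F F' π ≠ 0 := (map_ne_zero (algebraMap F F')).mpr hπ0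
  have hφπ : normOrdA (F' := F') v (Additive.ofMul (Units.mk0 _ hπ'))
      = (Module.finrank F F' : ℤ) := by
    rw [normOrdA_ofMul_mk0, Algebra.norm_algebraMap, ← zpow_natCast, v.ord_zpow, hπ, mul_one]
  have hordπ : ∀ w ∈ v.fiber F', ordA w (Additive.ofMul (Units.mk0 _ hπ'))
      = (w.ramificationIndex F : ℤ) := by
    intro w hw
    rw [ordA_ofMul_mk0, w.ord_restrict, Place.mem_fiber.mp hw, hπ, mul_one]
  have hsum1 : ∑ w ∈ v.fiber F', (w.ramificationIndex F : ℤ) * μ w
      = (Module.finrank F F' : ℤ) := by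
    rw [← hφπ, hφ]
    exact Finset.sum_congr rfl fun w hw => by rw [hordπ w hw]
  have hsum2 := sum_ramificationIndex_eq_finrank (F' := F') x hx hfin v
  have hsum3 : ∑ w ∈ v.fiber F', (w.ramificationIndex F : ℤ) * (μ w - 1) = 0 := by
    simp only [mul_sub, mul_one, Finset.sum_sub_distrib]
    rw [hsum1, hsum2, sub_self]
  have hμeq : ∀ w ∈ v.fiber F', μ w = 1 := by
    intro w hw
    have h := (Finset.sum_eq_zero_iff_of_nonneg (fun w hw =>
      mul_nonneg (hepos w).le (by have := hμ1 w hw; omega))).mp hsum3 w hw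
    rcases mul_eq_zero.mp h with h | h
    · exact absurd h (hepos w).ne'
    · omega
  rw [hφ]
  exact Finset.sum_congr rfl fun w hw => by rw [hμeq w hw, mul_one]

/-- **Norm formula**, element form. -/
theorem ord_norm_eq_sum (x : F) (hx : Transcendental K x) (hfin : FiniteDimensional K⟮x⟯ F)
    (v : Place K F) {g : F'} (hg : g ≠ 0) :
    v.ord (Algebra.norm F g) = ∑ w ∈ v.fiber F', w.ord g := by
  have := normOrdA_eq_sum (F' := F') x hx hfin v (Additive.ofMul (Units.mk0 g hg))
  rw [normOrdA_ofMul_mk0] at this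
  rw [this]
  rfl

omit [CharZero K] [HasPrincipalDivisors K F'] in
/-- The inertia degrees are all `1`. -/
theorem inertiaDeg_eq_one (x : F) (hfin : FiniteDimensional K⟮x⟯ F) (w : Place K F') :
    w.inertiaDeg F = 1 := by
  have h := w.deg_restrict_mul_inertiaDeg (F := F)
  rw [deg_eq_one_top (K := K) (F' := F') x hfin w, deg_eq_one_bot x hfin (w.restrict F),
    one_mul] at h
  exact h

/-- **C1-REL-NF** (core form): the prelude's `PushforwardNormFormula`. -/
theorem pushforwardNormFormula_of_coordinate (x : F) (hx : Transcendental K x)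
    (hfin : FiniteDimensional K⟮x⟯ F) : Divisor.PushforwardNormFormula K F F' := by
  classical
  intro f hf D hD v
  rw [Divisor.pushforward_apply, ord_norm_eq_sum x hx hfin v hf]
  have h1 : ∀ w ∈ D.support, (if w.restrict F = v then D w * (w.inertiaDeg F : ℤ) else 0)
      = if w ∈ v.fiber F' then w.ord f else 0 := by
    intro w _
    simp only [Place.mem_fiber]
    split_ifs
    · rw [inertiaDeg_eq_one x hfin w, hD w]; simp
    · rfl
  rw [Finset.sum_congr rfl h1, ← Finset.sum_filter]
  refine Finset.sum_subset_zero_on_sdiff (fun w hw => (Finset.mem_filter.mp hw).2) ?_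
    (fun _ _ => rfl)
  intro w hw
  rw [Finset.mem_sdiff, Finset.mem_filter, not_and] at hw
  by_contra hne
  exact hw.2 (Finsupp.mem_support_iff.mpr (by rw [hD w]; exact hne)) hw.1

end relative

end Fermat.Agent.H73.RelDict

end
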