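/-
helper73 (P-ES / ES-C1-REL-NF): `RelNormFormulaStatement` (second, independent route; see
`Fermat.Agent.H73.RelNFCore`).
-/
import Fermat.Agent.H73.RelNFCore
import Fermat.Agent.H21.EsC.Interfaces

set_option autoImplicit false

noncomputable section

open AlgebraicCurve IntermediateField

namespace Fermat.Agent.H73

/-- **C1-REL-NF**: norm formula `(f_* div g)(v) = ord_v (N_{F'/F} g)` for finite extensions of
function fields of one variable over an algebraically closed field of characteristic zero. -/
theorem relNormFormula : Fermat.Agent.H21.EsC.RelNormFormulaStatement := by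
  intro K F F' _ _ _ _ _ _ _ _ _ _ _ hx
  obtain ⟨x, hx, hfin⟩ := hx
  exact Fermat.Agent.H73.RelDict.pushforwardNormFormula_of_coordinate x hx hfin

end Fermat.Agent.H73

end
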