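/-
P-S14, block C3, subtask C3-K1: the class relation `∑_σ r_σ k_σ² = 0` (Thaine).
-/
import Fermat.Agent.H13.S14ThaineK

set_option autoImplicit false

open scoped NumberField nonZeroDivisors
open UniqueFactorizationMonoid

namespace Fermat.Agent.H73

open Fermat.Agent.H13

section

variable {p : ℕ} [Fact p.Prime] {K : Type} [Field K] [NumberField K]

/-- The ideal character of `σ P` for a character of type `ω²`. -/
theorem idealChar_map_sigmaO {ζ : K} (φ : ClassGroup (𝓞 K) →* Multiplicative (ZMod p))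
    (hφ : IsOmegaSqChar p ζ φ) (P : (Ideal (𝓞 K))⁰) (σ : K ≃ₐ[ℚ] K) (k : ℕ)
    (hk : σ ζ = ζ ^ k) :
    idealChar p K φ (Ideal.map (sigmaO K σ) (P : Ideal (𝓞 K))) =
      ((k : ℕ) : ZMod p) ^ 2 * idealChar p K φ (P : Ideal (𝓞 K)) := by
  have h1 : idealChar p K φ ((Ideal.mapNonZero (sigmaO K σ) P : (Ideal (𝓞 K))⁰) : Ideal (𝓞 K)) =
      Multiplicative.toAdd (φ (ClassGroup.mk0 (Ideal.mapNonZero (sigmaO K σ) P))) :=
    idealChar_of_ne φ _
  rw [Ideal.coe_mapNonZero] at h1
  have h2 : (Ideal.map ((sigmaO K σ : 𝓞 K ≃+* 𝓞 K) : 𝓞 K →+* 𝓞 K) (P : Ideal (𝓞 K))) =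
      Ideal.map (sigmaO K σ) (P : Ideal (𝓞 K)) := rfl
  rw [h2] at h1
  rw [h1, ← sigmaCl_mk0, hφ σ k hk, idealChar_of_ne φ P, toAdd_pow, nsmul_eq_mul]
  push_cast
  rfl

end

open Classical in
/-- **C3-K1** (class relation). -/
theorem thaineSumStatement : Fermat.Agent.H13.ThaineSumStatement := by
  intro p _ K _ _ _ ζ hζ φ hφ P hP hφP N r k hN hk h1 h2
  have hp : p.Prime := Fact.out
  set F := normalizedFactors (Ideal.span {N} : Ideal (𝓞 K)) with hF
  set f : (K ≃ₐ[ℚ] K) → Ideal (𝓞 K) := fun σ => Ideal.map (sigmaO K σ) (P : Ideal (𝓞 K))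
    with hf
  set T : Finset (Ideal (𝓞 K)) := Finset.univ.image f with hT
  have hPprime : (P : Ideal (𝓞 K)).IsPrime := hP.1
  have hPne : (P : Ideal (𝓞 K)) ≠ ⊥ := mem_nonZeroDivisors_iff_ne_zero.mp P.2
  have hfprime : ∀ σ, (f σ).IsPrime := fun σ =>
    Ideal.map_isPrime_of_equiv (sigmaO K σ)
  have hfne : ∀ σ, f σ ≠ ⊥ := by
    intro σ h
    apply hPne
    rw [hf] at h
    simp only at h
    rw [Ideal.map_eq_bot_iff_of_injective (sigmaO K σ).injective] at h
    exact h
  -- counts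
  have hcount_f : ∀ σ, F.count (f σ) = r σ := by
    intro σ
    haveI := hfprime σ
    refine Ideal.count_normalizedFactors_eq ?_ ?_
    · rw [Ideal.span_singleton_le_iff_mem]
      exact (h2 σ).1
    · rw [Ideal.span_singleton_le_iff_mem]
      exact (h2 σ).2
  have hcount_other : ∀ Q ∈ F.toFinset, Q ∉ T → ∃ n : ℕ, F.count Q = p * n := by
    intro Q hQ hQT
    rw [Multiset.mem_toFinset] at hQ
    have hQprime : Prime Q := prime_of_normalized_factor Q hQ
    haveI hQP : Q.IsPrime := Ideal.isPrime_of_prime hQprime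
    have hQne : Q ≠ ⊥ := hQprime.ne_zero
    have hne : ∀ σ : K ≃ₐ[ℚ] K, Q ≠ Ideal.map (sigmaO K σ) (P : Ideal (𝓞 K)) := by
      intro σ h
      apply hQT
      rw [hT, Finset.mem_image]
      exact ⟨σ, Finset.mem_univ _, h.symm⟩
    obtain ⟨n, hn1, hn2⟩ := h1 Q hQP hQne hne
    refine ⟨n, Ideal.count_normalizedFactors_eq ?_ ?_⟩
    · rw [Ideal.span_singleton_le_iff_mem]; exact hn1
    · rw [Ideal.span_singleton_le_iff_mem]; exact hn2
  -- the basic relation
  have hrel := sum_count_smul_idealChar (p := p) φ hN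
  rw [← hF] at hrel
  -- enlarge the index set
  have hstep1 : ∑ Q ∈ F.toFinset ∪ T, F.count Q • idealChar p K φ Q = 0 := by
    rw [← hrel]
    symm
    apply Finset.sum_subset Finset.subset_union_left
    intro Q _ hQ
    rw [Multiset.mem_toFinset] at hQ
    rw [Multiset.count_eq_zero_of_notMem hQ, zero_smul]
  -- restrict to `T`
  have hstep2 : ∑ Q ∈ T, F.count Q • idealChar p K φ Q = 0 := by
    rw [← hstep1]
    apply Finset.sum_subset Finset.subset_union_right
    intro Q hQ hQT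
    rcases Finset.mem_union.mp hQ with hQF | hQT'
    · obtain ⟨n, hn⟩ := hcount_other Q hQF hQT
      rw [hn, nsmul_eq_mul]
      push_cast
      rw [ZMod.natCast_self, zero_mul, zero_mul]
    · exact absurd hQT' hQT
  -- reindex by `σ`
  have hinj : Function.Injective f := map_sigma_injective p K ζ hζ P hP
  rw [hT, Finset.sum_image (fun σ _ τ _ h => hinj h)] at hstep2
  have hstep3 : (∑ σ : K ≃ₐ[ℚ] K, ((r σ : ℕ) : ZMod p) * ((k σ : ℕ) : ZMod p) ^ 2) *
      idealChar p K φ (P : Ideal (𝓞 K)) = 0 := by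
    rw [← hstep2, Finset.sum_mul]
    refine Finset.sum_congr rfl fun σ _ => ?_
    rw [hcount_f σ, hf]
    simp only
    rw [idealChar_map_sigmaO φ hφ P σ (k σ) (hk σ), nsmul_eq_mul]
    ring
  have hne0 : idealChar p K φ (P : Ideal (𝓞 K)) ≠ 0 := by
    rw [idealChar_of_ne φ P]
    intro h
    apply hφP
    have : φ (ClassGroup.mk0 P) = Multiplicative.ofAdd (0 : ZMod p) := by
      rw [← h]; rfl
    rw [this]
    rfl
  rcases mul_eq_zero.mp hstep3 with h | h
  · exact h
  · exact absurd h hne0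

end Fermat.Agent.H73
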