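import Fermat.Agent.H41.EisThree
import Fermat.Agent.H20.S16.Interfaces

/-!
# P-S16, row EIS-P (helper73): the weight-2 Eisenstein series of level `p`

`E = (1/24) (p E₂(pz) - E₂(z)) = (1/12) eisHalf p` is a modular form of weight 2 on `Γ₀(p)` with
q-expansion `(p - 1)/24 + ∑_{k ≥ 1} σ'(k) q^k`.
-/

open UpperHalfPlane ModularForm CongruenceSubgroup
open scoped MatrixGroups ModularForm

namespace Fermat.Agent.H73

/-- `(1/24) (N E₂(Nz) - E₂(z))`, a modular form of weight 2 on `Γ₀(N)`. -/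
noncomputable def eisTwentyFour (N : ℕ) [NeZero N] : ModularForm (Gamma0 N) 2 :=
  (1 / 12 : ℂ) • Fermat.Agent.H41.eisHalf N

theorem eisTwentyFour_apply (N : ℕ) [NeZero N] (z : ℍ) :
    eisTwentyFour N z = (1 / 12 : ℂ) * Fermat.Agent.H41.eisHalf N z := by
  simp [eisTwentyFour]

theorem hasSum_eisTwentyFour (N : ℕ) [NeZero N] (τ : ℍ) :
    HasSum (fun m : ℕ => ((1 / 12 : ℂ) * ((1 / 2 : ℂ) * Fermat.Agent.H41.eisTwoCoeff N m)) •
      Function.Periodic.qParam 1 τ ^ m) (eisTwentyFour N τ) := by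
  rw [eisTwentyFour_apply]
  have h := (Fermat.Agent.H41.hasSum_eisHalf N τ).mul_left (1 / 12 : ℂ)
  simpa only [smul_eq_mul, mul_assoc] using h

theorem qExpansion_eisTwentyFour_coeff (N : ℕ) [NeZero N] (m : ℕ) :
    (qExpansion 1 (eisTwentyFour N)).coeff m =
      (1 / 12 : ℂ) * ((1 / 2 : ℂ) * Fermat.Agent.H41.eisTwoCoeff N m) := by
  have h1 : (1 : ℝ) ∈ ((Gamma0 N : Subgroup SL(2, ℤ)) : Subgroup (GL (Fin 2) ℝ)).strictPeriods :=
    CongruenceSubgroup.one_mem_strictPeriods_Gamma0 N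
  exact (ModularFormClass.qExpansion_coeff_unique one_pos h1 (f := eisTwentyFour N)
    (c := fun m => (1 / 12 : ℂ) * ((1 / 2 : ℂ) * Fermat.Agent.H41.eisTwoCoeff N m))
    (hasSum_eisTwentyFour N) m).symm

theorem sigmaP_eq_sigmaPrime (p k : ℕ) :
    Fermat.Agent.H20.S16.sigmaP p k = (Fermat.Agent.H41.sigmaPrime p k : ℤ) := by
  simp [Fermat.Agent.H20.S16.sigmaP, Fermat.Agent.H41.sigmaPrime]

/-- For a prime `p`: the q-expansion of `eisTwentyFour p` is
`(p - 1)/24 + ∑_{m ≥ 1} σ'_p(m) q^m`. -/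
theorem qExpansion_eisTwentyFour_coeff_prime (p : ℕ) (hp : p.Prime) [NeZero p] (m : ℕ) :
    (qExpansion 1 (eisTwentyFour p)).coeff m =
      if m = 0 then ((p : ℂ) - 1) / 24 else (Fermat.Agent.H41.sigmaPrime p m : ℂ) := by
  rw [qExpansion_eisTwentyFour_coeff]
  by_cases hm : m = 0
  · subst hm
    simp [Fermat.Agent.H41.eisTwoCoeff]
    ring
  · rw [if_neg hm, Fermat.Agent.H41.eisTwoCoeff_prime p hp m hm]
    ring

/-- **(EIS-P)** the weight-2 Eisenstein series `E = (p E₂(pz) - E₂(z))/24` on `Γ₀(p)`. -/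
theorem eisPStatement : Fermat.Agent.H20.S16.EisPStatement := by
  intro p hp
  have : NeZero p := ⟨hp.ne_zero⟩
  refine ⟨eisTwentyFour p, ?_, ?_⟩
  · have h := qExpansion_eisTwentyFour_coeff_prime p hp 0
    simpa using h
  · intro k hk
    have hk0 : k ≠ 0 := by omega
    have h := qExpansion_eisTwentyFour_coeff_prime p hp k
    rw [if_neg hk0] at h
    rw [sigmaP_eq_sigmaPrime]
    simpa using h

end Fermat.Agent.H73
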